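import Fermat.Agent.Lib.FunctionField.RRCanonical

/-!
# Riemann–Roch for canonical divisors, unconditional form

`ℓ(div ω) = g` for every nonzero differential `ω` of a function field of one variable
over an algebraically closed field of characteristic zero.  This is `DWFinal` with the
local description of the trace dual (`LocalDual`) discharged by `trace_localDual`.
-/

set_option autoImplicit false
set_option linter.unusedSectionVars false

open AlgebraicCurve IntermediateField Polynomial Module KaehlerDifferential

namespace Fermat.Agent.Lib.FF

variable {K F : Type*} [Field K] [Field F] [Algebra K F] [IsAlgClosed K] [CharZero K]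
variable {x : F}

/-- `2 ℓ(div ω) = deg div(ω) + 2` for every nonzero differential (unconditional). -/
theorem two_mul_finrank_rrSpace_canonical_uncond (hx : IsFF1 K F x)
    (ω : Ω[F⁄K]) (hω : ω ≠ 0) (W : Divisor K F)
    (hW : ∀ v : Place K F, W v = v.ordDifferential ω) :
    2 * (Module.finrank K (riemannRochSpace W) : ℤ) = Divisor.degree W + 2 :=
  two_mul_finrank_rrSpace_canonical hx (fun _ hy => localDual_of_isFF1 hy) ω hω W hW

/-- `2 ℓ(div dx) = deg div(dx) + 2` (unconditional). -/
theorem two_mul_finrank_rrSpace_dx (hx : IsFF1 K F x) (W : Divisor K F)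
    (hW : ∀ v : Place K F, W v = v.ordDifferential (D K F x)) :
    2 * (Module.finrank K (riemannRochSpace W) : ℤ) = Divisor.degree W + 2 :=
  two_mul_finrank_canonical_dx hx (fun _ hy => localDual_of_isFF1 hy) W hW

/-- `ℓ(K) = g`: the Riemann–Roch space of a canonical divisor has dimension the genus
(unconditional). -/
theorem finrank_rrSpace_canonical_eq_genus_uncond (hx : IsFF1 K F x)
    [HasCanonicalDivisor (K := K) (F := F)]
    (ω : Ω[F⁄K]) (hω : ω ≠ 0) (W : Divisor K F)
    (hW : ∀ v : Place K F, W v = v.ordDifferential ω) :
    Module.finrank K (riemannRochSpace W) = genus K F :=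
  finrank_rrSpace_canonical_eq_genus hx (fun _ hy => localDual_of_isFF1 hy) ω hω W hW

/-- every Riemann–Roch space is finite-dimensional -/
theorem finiteDimensional_rrSpace (hx : IsFF1 K F x) (W : Divisor K F) :
    FiniteDimensional K (riemannRochSpace W) := by
  obtain ⟨P₀, -⟩ := exists_pole hx
  exact finite_rrSpace (placeFacts_of_isFF1 hx) P₀ W

end Fermat.Agent.Lib.FF
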