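import Fermat.Agent.Lib.FunctionField.DWReduced

/-!
# Dedekind–Weber, part 4: counting

* `polSpace K x k`: the polynomials in `x` of degree at most `k`, a `K`-subspace of `F` of
  dimension `(k + 1).toNat`.
* `coordSpace β k`: the elements of `F` whose coordinates in the `K(x)`-basis `β` are polynomials
  of degree at most `k i`; its dimension is `∑ i, (k i + 1).toNat`.
-/

set_option autoImplicit false
set_option linter.unusedSectionVars false

open AlgebraicCurve IntermediateField Polynomial Module

namespace Fermat.Agent.Lib.FF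

variable {K F : Type*} [Field K] [Field F] [Algebra K F]
variable {x : F}

/-- polynomials in `x` of degree at most `k` -/
def polSpace (K : Type*) {F : Type*} [Field K] [Field F] [Algebra K F] (x : F) (k : ℤ) :
    Submodule K F where
  carrier := {c | c ∈ K⟮x⟯ ∧ FinReg K x c ∧ DegLE K x k c}
  zero_mem' := ⟨zero_mem _, FinReg.zero, DegLE.zero⟩
  add_mem' := fun h1 h2 => ⟨add_mem h1.1 h2.1, h1.2.1.add h2.2.1, h1.2.2.add h2.2.2⟩
  smul_mem' := fun c f h => ⟨by
    rw [Algebra.smul_def]
    exact mul_mem (IntermediateField.algebraMap_mem _ c) h.1, h.2.1.smul c, h.2.2.smul c⟩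

theorem mem_polSpace {k : ℤ} {c : F} :
    c ∈ polSpace K x k ↔ c ∈ K⟮x⟯ ∧ FinReg K x c ∧ DegLE K x k c := Iff.rfl

section Pol

variable [IsAlgClosed K] [CharZero K]

theorem mem_degreeLT_toNat_iff (p : K[X]) (k : ℤ) :
    p ∈ Polynomial.degreeLT K (k + 1).toNat ↔ p = 0 ∨ (p.natDegree : ℤ) ≤ k := by
  rw [Polynomial.mem_degreeLT]
  by_cases hp : p = 0
  · simp [hp, WithBot.bot_lt_coe]
  · rw [Polynomial.degree_eq_natDegree hp, or_iff_right hp]
    rw [Nat.cast_lt]
    omega

theorem mem_polSpace_iff_exists (hx : IsFF1 K F x) {k : ℤ} {c : F} :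
    c ∈ polSpace K x k ↔
      ∃ p : K[X], p ∈ Polynomial.degreeLT K (k + 1).toNat ∧ Polynomial.aeval x p = c := by
  constructor
  · rintro ⟨h1, h2, h3⟩
    obtain ⟨p, rfl⟩ := exists_poly_of_finReg hx h1 h2
    exact ⟨p, (mem_degreeLT_toNat_iff p k).mpr ((degLE_aeval_iff hx p k).mp h3), rfl⟩
  · rintro ⟨p, hp, rfl⟩
    exact ⟨aeval_mem_adjoin x p, FinReg.aeval p,
      (degLE_aeval_iff hx p k).mpr ((mem_degreeLT_toNat_iff p k).mp hp)⟩

theorem finrank_polSpace (hx : IsFF1 K F x) (k : ℤ) :
    Module.finrank K (polSpace K x k) = (k + 1).toNat := by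
  let f : Polynomial.degreeLT K (k + 1).toNat →ₗ[K] F :=
    (Polynomial.aeval x).toLinearMap ∘ₗ (Polynomial.degreeLT K (k + 1).toNat).subtype
  have hinj : Function.Injective f := by
    rw [← LinearMap.ker_eq_bot, LinearMap.ker_eq_bot']
    rintro ⟨p, hp⟩ h0
    apply Subtype.ext
    by_contra hne
    exact hx.transcendental ⟨p, hne, h0⟩
  have hrange : LinearMap.range f = polSpace K x k := by
    ext c
    rw [mem_polSpace_iff_exists hx]
    constructor
    · rintro ⟨⟨p, hp⟩, rfl⟩
      exact ⟨p, hp, rfl⟩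
    · rintro ⟨p, hp, rfl⟩
      exact ⟨⟨p, hp⟩, rfl⟩
  rw [← hrange, LinearMap.finrank_range_of_inj hinj,
    (Polynomial.degreeLTEquiv K (k + 1).toNat).finrank_eq, Module.finrank_fin_fun]

theorem finite_polSpace (hx : IsFF1 K F x) (k : ℤ) : Module.Finite K (polSpace K x k) := by
  let f : Polynomial.degreeLT K (k + 1).toNat →ₗ[K] F :=
    (Polynomial.aeval x).toLinearMap ∘ₗ (Polynomial.degreeLT K (k + 1).toNat).subtype
  have hrange : LinearMap.range f = polSpace K x k := by
    ext c
    rw [mem_polSpace_iff_exists hx]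
    constructor
    · rintro ⟨⟨p, hp⟩, rfl⟩
      exact ⟨p, hp, rfl⟩
    · rintro ⟨p, hp, rfl⟩
      exact ⟨⟨p, hp⟩, rfl⟩
  haveI : Module.Finite K (Polynomial.degreeLT K (k + 1).toNat) :=
    Module.Finite.equiv (Polynomial.degreeLTEquiv K (k + 1).toNat).symm
  rw [← hrange]
  exact Module.Finite.range f

end Pol

section Coord

variable {ι : Type*} [Fintype ι] (β : Basis ι K⟮x⟯ F) (k : ι → ℤ)

/-- the `i`-th coordinate, as a `K`-linear map to `F` -/
noncomputable def coordK (i : ι) : F →ₗ[K] F where
  toFun w := ((β.repr w i : K⟮x⟯) : F)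
  map_add' w w' := by
    rw [map_add, Finsupp.add_apply]
    rfl
  map_smul' c w := by
    have h1 : c • w = (algebraMap K K⟮x⟯ c) • w := (algebraMap_smul K⟮x⟯ c w).symm
    rw [h1, map_smul, Finsupp.smul_apply, RingHom.id_apply, smul_eq_mul, Algebra.smul_def]
    rfl

theorem coordK_apply (i : ι) (w : F) : coordK β i w = ((β.repr w i : K⟮x⟯) : F) := rfl

/-- the elements whose coordinates are polynomials of bounded degree -/
def coordSpace : Submodule K F where
  carrier := {w | ∀ i, coordK β i w ∈ polSpace K x (k i)}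
  zero_mem' := fun i => by rw [map_zero]; exact zero_mem _
  add_mem' := fun h1 h2 i => by rw [map_add]; exact add_mem (h1 i) (h2 i)
  smul_mem' := fun c w h i => by rw [map_smul]; exact Submodule.smul_mem _ c (h i)

theorem mem_coordSpace {w : F} :
    w ∈ coordSpace β k ↔ ∀ i, ((β.repr w i : K⟮x⟯) : F) ∈ polSpace K x (k i) := Iff.rfl

/-- the coordinate isomorphism -/
noncomputable def coordSpaceEquiv : coordSpace β k ≃ₗ[K] (∀ i, polSpace K x (k i)) where
  toFun w := fun i => ⟨coordK β i w.1, w.2 i⟩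
  invFun c := ⟨∑ i, (c i).1 * β i, fun i => by
    rw [coordK_apply, repr_of_eq_sum β (fun i => (c i).1) (fun i => (c i).2.1) _ rfl i]
    exact (c i).2⟩
  map_add' w w' := by
    funext i
    apply Subtype.ext
    simp
  map_smul' c w := by
    funext i
    apply Subtype.ext
    simp
  left_inv w := by
    apply Subtype.ext
    simp only [coordK_apply]
    exact (sum_repr_mul β w.1).symm
  right_inv c := by
    funext i
    apply Subtype.ext
    simp only [coordK_apply]
    exact repr_of_eq_sum β (fun i => (c i).1) (fun i => (c i).2.1) _ rfl i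

variable [IsAlgClosed K] [CharZero K]

theorem finrank_coordSpace (hx : IsFF1 K F x) :
    Module.finrank K (coordSpace β k) = ∑ i, (k i + 1).toNat := by
  haveI : ∀ i, Module.Finite K (polSpace K x (k i)) := fun i => finite_polSpace hx (k i)
  rw [(coordSpaceEquiv β k).finrank_eq, Module.finrank_pi_fintype]
  exact Finset.sum_congr rfl fun i _ => finrank_polSpace hx (k i)

theorem finite_coordSpace (hx : IsFF1 K F x) : Module.Finite K (coordSpace β k) := by
  haveI : ∀ i, Module.Finite K (polSpace K x (k i)) := fun i => finite_polSpace hx (k i)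
  exact Module.Finite.equiv (coordSpaceEquiv β k).symm

end Coord

end Fermat.Agent.Lib.FF
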