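import Fermat.Agent.Lib.FunctionField.PlaceFactsMain

/-!
# Dedekind–Weber, part 1: degree at infinity and regularity at the finite places

For a function field `F/K` of one variable and a transcendental `x`, we call a place of `F`
*infinite* if it is a pole of `x` and *finite* otherwise.

* `DegLE K x k f`: `ord_v f ≥ k * ord_v x` at all infinite places `v` (or `f = 0`), i.e. "`f` has
  degree at most `k`".
* `FinReg K x f`: `f` is regular at all finite places.
-/

set_option autoImplicit false
set_option linter.unusedSectionVars false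

open AlgebraicCurve IntermediateField Polynomial

namespace Fermat.Agent.Lib.FF

variable (K : Type*) {F : Type*} [Field K] [Field F] [Algebra K F]

/-- `f` has degree at most `k` at the poles of `x`. -/
def DegLE (x : F) (k : ℤ) (f : F) : Prop :=
  ∀ v : Place K F, v.ord x < 0 → f = 0 ∨ k * v.ord x ≤ v.ord f

/-- `f` is regular at the places where `x` is regular. -/
def FinReg (x : F) (f : F) : Prop := ∀ v : Place K F, 0 ≤ v.ord x → 0 ≤ v.ord f

variable {K} {x : F}

namespace DegLE

variable {k l : ℤ} {f g : F}

theorem zero : DegLE K x k 0 := fun _ _ => Or.inl rfl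

theorem mono (h : DegLE K x k f) (hkl : k ≤ l) : DegLE K x l f := by
  intro v hv
  rcases h v hv with h | h
  · exact Or.inl h
  · right
    have : l * v.ord x ≤ k * v.ord x := mul_le_mul_of_nonpos_right hkl hv.le
    exact this.trans h

theorem add (hf : DegLE K x k f) (hg : DegLE K x k g) : DegLE K x k (f + g) := by
  intro v hv
  by_cases hfg : f + g = 0
  · exact Or.inl hfg
  right
  rcases hf v hv with h1 | h1
  · rcases hg v hv with h2 | h2
    · exact absurd (by rw [h1, h2, add_zero]) hfg
    · rwa [h1, zero_add]
  · rcases hg v hv with h2 | h2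
    · rwa [h2, add_zero]
    · exact (le_min h1 h2).trans (ord_add v hfg)

theorem neg (hf : DegLE K x k f) : DegLE K x k (-f) := by
  intro v hv
  rcases hf v hv with h | h
  · exact Or.inl (by rw [h, neg_zero])
  · exact Or.inr (by rwa [ord_neg])

theorem sub (hf : DegLE K x k f) (hg : DegLE K x k g) : DegLE K x k (f - g) := by
  rw [sub_eq_add_neg]
  exact hf.add hg.neg

theorem mul (hf : DegLE K x k f) (hg : DegLE K x l g) : DegLE K x (k + l) (f * g) := by
  intro v hv
  by_cases hf0 : f = 0
  · exact Or.inl (by rw [hf0, zero_mul])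
  by_cases hg0 : g = 0
  · exact Or.inl (by rw [hg0, mul_zero])
  right
  rw [v.ord_mul hf0 hg0, add_mul]
  exact add_le_add ((hf v hv).resolve_left hf0) ((hg v hv).resolve_left hg0)

theorem algebraMap (c : K) : DegLE K x 0 (algebraMap K F c) := by
  intro v _
  right
  rw [ord_algebraMap, zero_mul]

theorem smul (c : K) (hf : DegLE K x k f) : DegLE K x k (c • f) := by
  rw [Algebra.smul_def]
  have := (DegLE.algebraMap (x := x) c).mul hf
  rwa [zero_add] at this

theorem self_zpow (n : ℤ) : DegLE K x n (x ^ n) := by
  intro v _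
  right
  rw [v.ord_zpow]

theorem self_pow (n : ℕ) : DegLE K x n (x ^ n) := by
  have := self_zpow (K := K) (x := x) (n : ℤ)
  rwa [zpow_natCast] at this

theorem sum {ι : Type*} (s : Finset ι) (f : ι → F) (h : ∀ i ∈ s, DegLE K x k (f i)) :
    DegLE K x k (∑ i ∈ s, f i) := by
  classical
  induction s using Finset.induction_on with
  | empty => simpa using DegLE.zero
  | insert a s ha ih =>
    rw [Finset.sum_insert ha]
    exact (h a (Finset.mem_insert_self a s)).add
      (ih fun i hi => h i (Finset.mem_insert_of_mem hi))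

/-- multiplying by a power of `x` shifts the degree -/
theorem zpow_mul_iff (hx0 : x ≠ 0) (n : ℤ) : DegLE K x k (x ^ n * f) ↔ DegLE K x (k - n) f := by
  constructor
  · intro h
    have h2 := (self_zpow (K := K) (x := x) (-n)).mul h
    rw [← mul_assoc, ← zpow_add₀ hx0, neg_add_cancel, zpow_zero, one_mul] at h2
    rwa [neg_add_eq_sub] at h2
  · intro h
    have h2 := (self_zpow (K := K) (x := x) n).mul h
    rwa [add_sub_cancel] at h2

end DegLE

namespace FinReg

variable {f g : F}

theorem zero : FinReg K x 0 := fun v _ => by rw [v.ord_zero]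

theorem one : FinReg K x 1 := fun v _ => by rw [v.ord_one]

theorem algebraMap (c : K) : FinReg K x (algebraMap K F c) := fun v _ => by
  rw [ord_algebraMap]

theorem self : FinReg K x x := fun _ hv => hv

theorem add (hf : FinReg K x f) (hg : FinReg K x g) : FinReg K x (f + g) := by
  intro v hv
  by_cases hfg : f + g = 0
  · rw [hfg, v.ord_zero]
  exact (le_min (hf v hv) (hg v hv)).trans (ord_add v hfg)

theorem neg (hf : FinReg K x f) : FinReg K x (-f) := fun v hv => by
  rw [ord_neg]; exact hf v hv

theorem sub (hf : FinReg K x f) (hg : FinReg K x g) : FinReg K x (f - g) := by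
  rw [sub_eq_add_neg]
  exact hf.add hg.neg

theorem mul (hf : FinReg K x f) (hg : FinReg K x g) : FinReg K x (f * g) := by
  intro v hv
  by_cases hf0 : f = 0
  · rw [hf0, zero_mul, v.ord_zero]
  by_cases hg0 : g = 0
  · rw [hg0, mul_zero, v.ord_zero]
  rw [v.ord_mul hf0 hg0]
  exact add_nonneg (hf v hv) (hg v hv)

theorem smul (c : K) (hf : FinReg K x f) : FinReg K x (c • f) := by
  rw [Algebra.smul_def]
  exact (FinReg.algebraMap c).mul hf

theorem pow (hf : FinReg K x f) (n : ℕ) : FinReg K x (f ^ n) := by
  induction n with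
  | zero => rw [pow_zero]; exact FinReg.one
  | succ n ih => rw [pow_succ]; exact ih.mul hf

theorem sum {ι : Type*} (s : Finset ι) (f : ι → F) (h : ∀ i ∈ s, FinReg K x (f i)) :
    FinReg K x (∑ i ∈ s, f i) := by
  classical
  induction s using Finset.induction_on with
  | empty => simpa using FinReg.zero
  | insert a s ha ih =>
    rw [Finset.sum_insert ha]
    exact (h a (Finset.mem_insert_self a s)).add
      (ih fun i hi => h i (Finset.mem_insert_of_mem hi))

theorem aeval (p : K[X]) : FinReg K x (Polynomial.aeval x p) := by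
  rw [Polynomial.aeval_eq_sum_range]
  refine FinReg.sum _ _ fun i _ => ?_
  exact (FinReg.self.pow i).smul _

end FinReg

theorem DegLE.aeval (p : K[X]) : DegLE K x p.natDegree (Polynomial.aeval x p) := by
  rw [Polynomial.aeval_eq_sum_range]
  refine DegLE.sum _ _ fun i hi => ?_
  have hi' : (i : ℤ) ≤ p.natDegree := by
    have := Finset.mem_range.mp hi
    exact_mod_cast Nat.lt_succ_iff.mp this
  exact ((DegLE.self_pow i).smul _).mono hi'

/-- the order of a nonzero polynomial in `x` at a pole of `x` -/
theorem ord_aeval_of_neg (hx : Transcendental K x) (v : Place K F) (hv : v.ord x < 0)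
    (p : K[X]) (hp : p ≠ 0) : v.ord (Polynomial.aeval x p) = p.natDegree * v.ord x := by
  have hx0 : x ≠ 0 := by
    rintro rfl
    simp at hv
  have hlead : v.ord (Polynomial.aeval x (C p.leadingCoeff * X ^ p.natDegree))
      = p.natDegree * v.ord x := by
    have hc : (Algebra.algebraMap K F p.leadingCoeff) ≠ 0 := by
      rw [Ne, map_eq_zero]
      exact leadingCoeff_ne_zero.mpr hp
    rw [map_mul, aeval_C, map_pow, aeval_X, v.ord_mul hc (pow_ne_zero _ hx0), ord_algebraMap,
      zero_add, ← zpow_natCast, v.ord_zpow]
  have hsplit : Polynomial.aeval x p = Polynomial.aeval x (C p.leadingCoeff * X ^ p.natDegree)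
      + Polynomial.aeval x p.eraseLead := by
    rw [← map_add, add_comm, Polynomial.eraseLead_add_C_mul_X_pow]
  by_cases he : p.eraseLead = 0
  · rw [hsplit, he, map_zero, add_zero, hlead]
  have hne : Polynomial.aeval x (C p.leadingCoeff * X ^ p.natDegree) ≠ 0 := by
    intro h0
    have : (C p.leadingCoeff * X ^ p.natDegree : K[X]) = 0 := by
      by_contra hne
      exact hx ⟨_, hne, h0⟩
    rw [mul_eq_zero] at this
    rcases this with h | h
    · exact hp (leadingCoeff_eq_zero.mp (C_eq_zero.mp h))
    · exact pow_ne_zero _ X_ne_zero h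
  rw [hsplit, ord_add_of_lt v _ hne, hlead]
  rw [hlead]
  have hlow := DegLE.aeval (K := K) (x := x) p.eraseLead v hv
  have he0 : Polynomial.aeval x p.eraseLead ≠ 0 := by
    intro h0
    exact hx ⟨_, he, h0⟩
  have h1 := hlow.resolve_left he0
  have h2 : p.eraseLead.natDegree < p.natDegree := by
    rcases Polynomial.eraseLead_natDegree_lt_or_eraseLead_eq_zero p with h | h
    · exact h
    · exact absurd h he
  have h3 : (p.natDegree : ℤ) * v.ord x < (p.eraseLead.natDegree : ℤ) * v.ord x := by
    apply mul_lt_mul_of_neg_right _ hv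
    exact_mod_cast h2
  exact lt_of_lt_of_le h3 h1

theorem aeval_ne_zero_of_transcendental (hx : Transcendental K x) (p : K[X]) (hp : p ≠ 0) :
    Polynomial.aeval x p ≠ 0 := fun h0 => hx ⟨p, hp, h0⟩

end Fermat.Agent.Lib.FF
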