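import Mathlib
import Fermat.Prelude.Def_AlgebraicCurve_CanonicalDivisor

/-!
# Function fields of one variable: basic packaging (item 68, block A)

`IsFF1 K F x`: `x ∈ F` is transcendental over `K` and `F` is finite over `K(x)`.
`nFibre x a`, `nPoles x`: number of places of `F/K` over `x = a`, resp. `x = ∞`.
-/

set_option autoImplicit false

open AlgebraicCurve IntermediateField

namespace Fermat.Agent.Lib.FF

variable (K F : Type*) [Field K] [Field F] [Algebra K F]

/-- `F/K` is a function field of one variable and `x` is a transcendental element over whose
rational function field `F` is finite. -/
structure IsFF1 (x : F) : Prop where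
  transcendental : Transcendental K x
  finite : FiniteDimensional K⟮x⟯ F

variable {K F}

/-- Number of places over `x = a`. -/
noncomputable def nFibre (x : F) (a : K) : ℕ :=
  Nat.card {v : Place K F // 0 < v.ord (x - algebraMap K F a)}

/-- Number of places over `x = ∞`. -/
noncomputable def nPoles (x : F) : ℕ := Nat.card {v : Place K F // v.ord x < 0}

end Fermat.Agent.Lib.FF
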