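import Mathlib
import Fermat.Agent.Lib.FunctionField.Defs

/-!
# Kähler differentials of a function field of one variable (item 68, block A3)

For `IsFF1 K F x` in characteristic zero, `Ω[F/K]` is spanned by `dx` and `dx ≠ 0`.
-/

set_option autoImplicit false
set_option linter.unusedSectionVars false

open AlgebraicCurve KaehlerDifferential IntermediateField TensorProduct

namespace Fermat.Agent.Lib.FF

section General

variable (R A B M : Type*) [CommRing R] [CommRing A] [CommRing B]
  [Algebra R A] [Algebra R B] [Algebra A B] [IsScalarTower R A B]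
  [AddCommGroup M] [Module R M] [Module A M] [Module B M]
  [IsScalarTower R A M] [IsScalarTower R B M] [IsScalarTower A B M]

/-- Derivations extend along formally étale algebras. -/
theorem exists_derivation_ext [Algebra.FormallyEtale A B] (d : Derivation R A M) :
    ∃ d' : Derivation R B M, ∀ a : A, d' (algebraMap A B a) = d a := by
  let e := KaehlerDifferential.tensorKaehlerEquivOfFormallyEtale R A B
  let ℓ : Ω[A⁄R] →ₗ[A] M := d.liftKaehlerDifferential
  let ℓ' : B ⊗[A] Ω[A⁄R] →ₗ[B] M := LinearMap.liftBaseChange B ℓ
  refine ⟨(ℓ'.comp e.symm.toLinearMap).compDer (KaehlerDifferential.D R B), fun a => ?_⟩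
  show ℓ' (e.symm (KaehlerDifferential.D R B (algebraMap A B a))) = d a
  rw [KaehlerDifferential.tensorKaehlerEquivOfFormallyEtale_symm_D_algebraMap]
  simp [ℓ', ℓ]

variable {R A B M}

/-- Derivations on a formally unramified algebra are determined by their restriction. -/
theorem derivation_ext_of_formallyUnramified [Algebra.FormallyUnramified A B]
    (d₁ d₂ : Derivation R B M) (h : ∀ a : A, d₁ (algebraMap A B a) = d₂ (algebraMap A B a)) :
    d₁ = d₂ := by
  have hsurj : Function.Surjective (KaehlerDifferential.mapBaseChange R A B) := by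
    intro ω
    exact (KaehlerDifferential.exact_mapBaseChange_map R A B ω).mp (Subsingleton.elim _ _)
  have hl : d₁.liftKaehlerDifferential = d₂.liftKaehlerDifferential := by
    apply LinearMap.ext
    intro ω
    obtain ⟨y, rfl⟩ := hsurj ω
    induction y with
    | zero => simp
    | add y z hy hz => rw [map_add, map_add, map_add, hy, hz]
    | tmul b η =>
      rw [KaehlerDifferential.mapBaseChange_tmul, map_smul, map_smul]
      congr 1
      have hη : η ∈ Submodule.span A (Set.range (KaehlerDifferential.D R A)) := by
        rw [KaehlerDifferential.span_range_derivation]; trivial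
      induction hη using Submodule.span_induction with
      | mem η hη =>
        obtain ⟨a, rfl⟩ := hη
        rw [KaehlerDifferential.map_D, Derivation.liftKaehlerDifferential_comp_D,
          Derivation.liftKaehlerDifferential_comp_D, h]
      | zero => simp
      | add η ζ _ _ hη hζ => rw [map_add, map_add, map_add, hη, hζ]
      | smul a η _ hη =>
        rw [map_smul, ← algebraMap_smul B a, map_smul, map_smul, hη]
  rw [← d₁.liftKaehlerDifferential_comp, ← d₂.liftKaehlerDifferential_comp, hl]

end General

variable {K F : Type*} [Field K] [Field F] [Algebra K F]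

open scoped IntermediateField.algebraAdjoinAdjoin

section

variable [CharZero K] {x : F} (hx : IsFF1 K F x)

include hx

theorem IsFF1.formallyEtale_adjoin : Algebra.FormallyEtale (Algebra.adjoin K {x}) F := by
  have := hx.finite
  have : CharZero K⟮x⟯ := charZero_of_injective_algebraMap (algebraMap K K⟮x⟯).injective
  have : Algebra.IsSeparable K⟮x⟯ F := Algebra.IsAlgebraic.isSeparable_of_perfectField
  have : Algebra.FormallyEtale K⟮x⟯ F := Algebra.FormallyEtale.of_isSeparable K⟮x⟯ F
  have : Algebra.FormallyEtale (Algebra.adjoin K {x}) K⟮x⟯ :=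
    Algebra.FormallyEtale.of_isLocalization (nonZeroDivisors (Algebra.adjoin K {x}))
  exact Algebra.FormallyEtale.comp (Algebra.adjoin K {x}) K⟮x⟯ F

/-- A `K`-derivation of `F` that kills `x` vanishes. -/
theorem IsFF1.derivation_eq_zero {M : Type*} [AddCommGroup M] [Module K M] [Module F M]
    [IsScalarTower K F M] (d : Derivation K F M) (h : d x = 0) : d = 0 := by
  have := hx.formallyEtale_adjoin
  have : Algebra.FormallyUnramified (Algebra.adjoin K {x}) F := inferInstance
  refine derivation_ext_of_formallyUnramified (R := K) (A := Algebra.adjoin K {x}) d 0 ?_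
  rintro ⟨a, ha⟩
  obtain ⟨P, rfl⟩ := Algebra.adjoin_mem_exists_aeval _ _ ha
  show d (Polynomial.aeval x P) = 0
  rw [Derivation.map_aeval, h, smul_zero]

/-- A3a. `Ω[F/K]` is spanned by `dx`. -/
theorem span_D_eq_top : Submodule.span F {D K F x} = ⊤ := by
  set N : Submodule F Ω[F⁄K] := Submodule.span F {D K F x} with hN
  have h0 : (N.mkQ.compDer (D K F)) = 0 := by
    apply hx.derivation_eq_zero
    show N.mkQ (D K F x) = 0
    rw [Submodule.mkQ_apply, Submodule.Quotient.mk_eq_zero]
    exact Submodule.subset_span rfl
  rw [eq_top_iff, ← KaehlerDifferential.span_range_derivation, Submodule.span_le]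
  rintro _ ⟨f, rfl⟩
  have := congrArg (fun d : Derivation K F (Ω[F⁄K] ⧸ N) => d f) h0
  simp only [Derivation.coe_zero, Pi.zero_apply] at this
  have h2 : N.mkQ (D K F f) = 0 := this
  rwa [Submodule.mkQ_apply, Submodule.Quotient.mk_eq_zero] at h2

/-- The derivation `d/dx` on `K[x] ⊆ F` with values in `F`. -/
noncomputable def IsFF1.derivAdjoin : Derivation K (Algebra.adjoin K {x}) F where
  toFun a := Polynomial.aeval x
    (Polynomial.derivative ((Polynomial.algEquivOfTranscendental K x hx.transcendental).symm a))
  map_add' a b := by simp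
  map_smul' c a := by simp
  map_one_eq_zero' := by simp
  leibniz' a b := by
    have key : ∀ c : Algebra.adjoin K {x}, Polynomial.aeval x
        ((Polynomial.algEquivOfTranscendental K x hx.transcendental).symm c) = (c : F) := by
      intro c
      obtain ⟨P, rfl⟩ := (Polynomial.algEquivOfTranscendental K x hx.transcendental).surjective c
      rw [AlgEquiv.symm_apply_apply]
      simp [Polynomial.algEquivOfTranscendental]
    show Polynomial.aeval x (Polynomial.derivative
        ((Polynomial.algEquivOfTranscendental K x hx.transcendental).symm (a * b))) =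
      a • Polynomial.aeval x (Polynomial.derivative
        ((Polynomial.algEquivOfTranscendental K x hx.transcendental).symm b)) +
      b • Polynomial.aeval x (Polynomial.derivative
        ((Polynomial.algEquivOfTranscendental K x hx.transcendental).symm a))
    rw [map_mul, Polynomial.derivative_mul, map_add, map_mul, map_mul, key, key,
      Subalgebra.smul_def, Subalgebra.smul_def, smul_eq_mul, smul_eq_mul]
    ring

theorem IsFF1.derivAdjoin_gen :
    hx.derivAdjoin ⟨x, Algebra.self_mem_adjoin_singleton K x⟩ = 1 := by
  have h : (Polynomial.algEquivOfTranscendental K x hx.transcendental).symm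
      ⟨x, Algebra.self_mem_adjoin_singleton K x⟩ = Polynomial.X := by
    rw [AlgEquiv.symm_apply_eq]
    simp [Polynomial.algEquivOfTranscendental]
  show Polynomial.aeval x (Polynomial.derivative _) = 1
  rw [h]
  simp

/-- There is a `K`-derivation `δ` of `F` with `δ x = 1`. -/
theorem IsFF1.exists_derivation : ∃ δ : Derivation K F F, δ x = 1 := by
  have := hx.formallyEtale_adjoin
  obtain ⟨δ, hδ⟩ := exists_derivation_ext K (Algebra.adjoin K {x}) F F hx.derivAdjoin
  refine ⟨δ, ?_⟩
  have := hδ ⟨x, Algebra.self_mem_adjoin_singleton K x⟩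
  rwa [hx.derivAdjoin_gen] at this

/-- A3b. `dx ≠ 0`. -/
theorem D_ne_zero : D K F x ≠ 0 := by
  obtain ⟨δ, hδ⟩ := hx.exists_derivation
  intro h
  have h1 : δ.liftKaehlerDifferential (D K F x) = δ x :=
    Derivation.liftKaehlerDifferential_comp_D δ x
  rw [h, map_zero, hδ] at h1
  exact zero_ne_one h1

theorem nontrivial_kaehler : Nontrivial Ω[F⁄K] :=
  ⟨⟨D K F x, 0, D_ne_zero hx⟩⟩

/-- Every differential is a multiple of `dx`. -/
theorem exists_eq_smul_D (ω : Ω[F⁄K]) : ∃ c : F, ω = c • D K F x := by
  have hω : ω ∈ (⊤ : Submodule F Ω[F⁄K]) := Submodule.mem_top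
  rw [← span_D_eq_top hx, Submodule.mem_span_singleton] at hω
  exact hω.imp fun _ h => h.symm

end

end Fermat.Agent.Lib.FF
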