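import Mathlib
import Fermat.Agent.Lib.FunctionField.Kaehler

/-!
# Exchange lemma and the local coordinate differential (item 68, blocks A1b and A3c)

* `isFF1_of_transcendental`: if `F/K(x)` is finite and `y` is transcendental over `K`, then
  `F/K(y)` is finite.
* `dCoordGenerates`: for every place `v`, the differential of the prelude's uniformizer spans
  `Ω[F/K]`.
-/

set_option autoImplicit false
set_option linter.unusedSectionVars false

open AlgebraicCurve KaehlerDifferential IntermediateField

namespace Fermat.Agent.Lib.FF

variable {K F : Type*} [Field K] [Field F] [Algebra K F]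

open scoped IntermediateField.algebraAdjoinAdjoin

theorem IsFF1.isAlgebraic_adjoin {x : F} (hx : IsFF1 K F x) :
    Algebra.IsAlgebraic (Algebra.adjoin K {x}) F := by
  have := hx.finite
  have h : Algebra.IsAlgebraic K⟮x⟯ F := inferInstance
  exact (IsFractionRing.comap_isAlgebraic_iff (A := Algebra.adjoin K {x}) (K := K⟮x⟯)).mpr h

theorem IsFF1.essFiniteType {x : F} (hx : IsFF1 K F x) : Algebra.EssFiniteType K F := by
  have := hx.finite
  have h1 : Algebra.EssFiniteType K K⟮x⟯ := by
    rw [IntermediateField.essFiniteType_iff]
    exact ⟨{x}, by simp⟩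
  have h2 : Algebra.EssFiniteType K⟮x⟯ F := inferInstance
  exact Algebra.EssFiniteType.comp K K⟮x⟯ F

/-- A1b. Any transcendental `y` is again a separating element. -/
theorem isFF1_of_transcendental {x : F} (hx : IsFF1 K F x) (y : F) (hy : Transcendental K y) :
    IsFF1 K F y := by
  refine ⟨hy, ?_⟩
  have halg := hx.isAlgebraic_adjoin
  have hle : Algebra.trdeg K F ≤ 1 := by
    have := Algebra.IsAlgebraic.trdeg_le_cardinalMk K ({x} : Set F)
    simpa using this
  have hind : AlgebraicIndependent K (fun _ : Unit => y) :=
    algebraicIndependent_unique_type_iff.mpr hy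
  have hbasis : IsTranscendenceBasis K (fun _ : Unit => y) :=
    hind.isTranscendenceBasis_of_lift_trdeg_le_of_finite (by simpa using hle)
  have halg' := hbasis.isAlgebraic_field
  have hr : Set.range (fun _ : Unit => y) = {y} := by
    ext z; simp [eq_comm]
  rw [hr] at halg'
  have := hx.essFiniteType
  have : Algebra.EssFiniteType K⟮y⟯ F := Algebra.EssFiniteType.of_comp K K⟮y⟯ F
  exact Algebra.finite_of_essFiniteType_of_isAlgebraic

section

variable [IsAlgClosed K]

/-- An element of `F` that is algebraic over the algebraically closed `K` lies in `K`. -/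
theorem exists_algebraMap_eq_of_isAlgebraic {t : F} (ht : IsAlgebraic K t) :
    ∃ a : K, algebraMap K F a = t := by
  have hint : IsIntegral K t := ht.isIntegral
  have hdeg : (minpoly K t).degree = 1 :=
    IsAlgClosed.degree_eq_one_of_irreducible K (minpoly.irreducible hint)
  exact minpoly.mem_range_of_degree_eq_one K t hdeg

/-- A place's uniformizer is transcendental over `K`. -/
theorem transcendental_of_ord_ne_zero (v : Place K F) {t : F} (ht : v.ord t ≠ 0) :
    Transcendental K t := by
  intro halg
  obtain ⟨a, rfl⟩ := exists_algebraMap_eq_of_isAlgebraic halg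
  apply ht
  rcases eq_or_ne a 0 with rfl | ha
  · simp
  have hu : IsUnit (algebraMap K v.toValuationSubring a) := (IsUnit.mk0 a ha).map _
  have := v.ord_coe_unit hu.unit
  simpa using this

variable [CharZero K]

/-- A3c. every place has `DCoordGenerates`. -/
theorem dCoordGenerates {x : F} (hx : IsFF1 K F x) (v : Place K F) :
    v.DCoordGenerates := by
  have hirr := (IsDiscreteValuationRing.exists_irreducible v.toValuationSubring).choose_spec
  have hord := v.ord_coe_irreducible hirr
  have htr : Transcendental K
      ((IsDiscreteValuationRing.exists_irreducible v.toValuationSubring).choose : F) :=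
    transcendental_of_ord_ne_zero v (by rw [hord]; exact one_ne_zero)
  exact ⟨span_D_eq_top (isFF1_of_transcendental hx _ htr)⟩

end

end Fermat.Agent.Lib.FF
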