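import Mathlib

/-!
# Power series expansion in a discrete valuation ring (item 68, block A4a)

A discrete valuation ring `R` containing a field `K` that maps onto its residue field embeds into
`K⟦X⟧`, a given uniformizer going to `X`.
-/

set_option autoImplicit false
set_option linter.unusedSectionVars false

open PowerSeries

namespace Fermat.Agent.Lib.FF

namespace Expansion

variable {K : Type*} [Field K] (R : Type*) [CommRing R] [IsDomain R]
  [IsDiscreteValuationRing R] [Algebra K R]
  (hres : Function.Surjective (algebraMap K (IsLocalRing.ResidueField R)))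
  (t : R) (ht : Irreducible t)

/-- The residue map with values in `K`. -/
noncomputable def resK : R →ₐ[K] K :=
  ((AlgEquiv.ofBijective (Algebra.ofId K (IsLocalRing.ResidueField R))
    ⟨(algebraMap K (IsLocalRing.ResidueField R)).injective, hres⟩).symm : _ →ₐ[K] K).comp
    (IsScalarTower.toAlgHom K R (IsLocalRing.ResidueField R))

theorem residue_algebraMap_resK (u : R) :
    algebraMap K (IsLocalRing.ResidueField R) (resK R hres u) = IsLocalRing.residue R u := by
  have := (AlgEquiv.ofBijective (Algebra.ofId K (IsLocalRing.ResidueField R))
    ⟨(algebraMap K (IsLocalRing.ResidueField R)).injective, hres⟩).apply_symm_apply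
      (IsLocalRing.residue R u)
  exact this

theorem sub_resK_mem (u : R) :
    u - algebraMap K R (resK R hres u) ∈ IsLocalRing.maximalIdeal R := by
  rw [← IsLocalRing.residue_eq_zero_iff, map_sub, sub_eq_zero,
    ← residue_algebraMap_resK R hres u]
  exact (IsScalarTower.algebraMap_apply K R (IsLocalRing.ResidueField R) _).symm

theorem resK_eq_zero_iff (u : R) : resK R hres u = 0 ↔ u ∈ IsLocalRing.maximalIdeal R := by
  rw [← IsLocalRing.residue_eq_zero_iff, ← residue_algebraMap_resK R hres u]
  exact (_root_.map_eq_zero (algebraMap K (IsLocalRing.ResidueField R))).symm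

include ht

theorem exists_shift (u : R) : ∃ w : R, u = algebraMap K R (resK R hres u) + t * w := by
  have h := sub_resK_mem R hres u
  rw [ht.maximalIdeal_eq, Ideal.mem_span_singleton'] at h
  obtain ⟨w, hw⟩ := h
  exact ⟨w, by rw [mul_comm, hw]; ring⟩

theorem resK_t : resK R hres t = 0 := by
  rw [resK_eq_zero_iff, ht.maximalIdeal_eq]
  exact Ideal.mem_span_singleton_self t

/-- uniqueness of the first step of the expansion -/
theorem shift_unique {u w : R} {c : K} (h : u = algebraMap K R c + t * w) :
    resK R hres u = c ∧ (exists_shift R hres t ht u).choose = w := by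
  have hc : resK R hres u = c := by
    rw [h, map_add, map_mul, resK_t R hres t ht, zero_mul, add_zero, AlgHom.commutes]
    rfl
  refine ⟨hc, ?_⟩
  have h2 := (exists_shift R hres t ht u).choose_spec
  generalize (exists_shift R hres t ht u).choose = s at h2 ⊢
  rw [hc] at h2
  have h3 : t * s = t * w := add_left_cancel (h2.symm.trans h)
  exact mul_left_cancel₀ ht.ne_zero h3

/-- the shift operator `u ↦ (u - u(0)) / t` -/
noncomputable def shift : R →ₗ[K] R where
  toFun u := (exists_shift R hres t ht u).choose
  map_add' u w := by
    refine (shift_unique R hres t ht (c := resK R hres u + resK R hres w) ?_).2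
    have h1 := (exists_shift R hres t ht u).choose_spec
    have h2 := (exists_shift R hres t ht w).choose_spec
    rw [map_add]
    linear_combination h1 + h2
  map_smul' c u := by
    refine (shift_unique R hres t ht (c := c * resK R hres u) ?_).2
    have h1 := (exists_shift R hres t ht u).choose_spec
    rw [RingHom.id_apply, map_mul, Algebra.smul_def, Algebra.smul_def]
    linear_combination (algebraMap K R c) * h1

theorem shift_spec (u : R) :
    u = algebraMap K R (resK R hres u) + t * shift R hres t ht u :=
  (exists_shift R hres t ht u).choose_spec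

theorem shift_eq {u w : R} {c : K} (h : u = algebraMap K R c + t * w) :
    shift R hres t ht u = w :=
  (shift_unique R hres t ht h).2

theorem shift_mul (u w : R) :
    shift R hres t ht (u * w) =
      resK R hres u • shift R hres t ht w + shift R hres t ht u * w := by
  refine shift_eq R hres t ht (c := resK R hres u * resK R hres w) ?_
  have h1 := shift_spec R hres t ht u
  have h2 := shift_spec R hres t ht w
  rw [Algebra.smul_def, map_mul]
  linear_combination w * h1 + algebraMap K R (resK R hres u) * h2

theorem shift_one : shift R hres t ht 1 = 0 :=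
  shift_eq R hres t ht (c := 1) (by simp)

theorem shift_t : shift R hres t ht t = 1 :=
  shift_eq R hres t ht (c := 0) (by simp)

/-- the expansion as a linear map -/
noncomputable def expandₗ : R →ₗ[K] K⟦X⟧ where
  toFun u := PowerSeries.mk fun n => resK R hres ((shift R hres t ht ^ n) u)
  map_add' u w := by
    ext n
    simp only [coeff_mk, map_add]
  map_smul' c u := by
    ext n
    simp only [coeff_mk, RingHom.id_apply, map_smul, smul_eq_mul]

theorem coeff_expandₗ (n : ℕ) (u : R) :
    coeff n (expandₗ R hres t ht u) = resK R hres ((shift R hres t ht ^ n) u) := by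
  exact PowerSeries.coeff_mk (R := K) n
    (fun n => resK R hres ((shift R hres t ht ^ n) u))

theorem constantCoeff_expandₗ (u : R) :
    constantCoeff (expandₗ R hres t ht u) = resK R hres u := by
  rw [← coeff_zero_eq_constantCoeff_apply, coeff_expandₗ, pow_zero]
  rfl

theorem coeff_succ_expandₗ (n : ℕ) (u : R) :
    coeff (n + 1) (expandₗ R hres t ht u) =
      coeff n (expandₗ R hres t ht (shift R hres t ht u)) := by
  rw [coeff_expandₗ, coeff_expandₗ, pow_succ]
  rfl

theorem expandₗ_eq (u : R) :
    expandₗ R hres t ht u =
      C (resK R hres u) + X * expandₗ R hres t ht (shift R hres t ht u) := by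
  ext n
  cases n with
  | zero =>
    rw [coeff_zero_eq_constantCoeff_apply, constantCoeff_expandₗ]
    simp
  | succ n =>
    rw [map_add, coeff_succ_X_mul, coeff_succ_expandₗ, coeff_C, if_neg (Nat.succ_ne_zero n),
      zero_add]

theorem coeff_expandₗ_mul (n : ℕ) (u w : R) :
    coeff n (expandₗ R hres t ht (u * w)) =
      coeff n (expandₗ R hres t ht u * expandₗ R hres t ht w) := by
  induction n generalizing u w with
  | zero =>
    rw [coeff_zero_eq_constantCoeff_apply, coeff_zero_eq_constantCoeff_apply,
      constantCoeff_expandₗ, map_mul (resK R hres), map_mul (constantCoeff (R := K)),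
      constantCoeff_expandₗ, constantCoeff_expandₗ]
  | succ n ih =>
    rw [coeff_succ_expandₗ, shift_mul, map_add, map_add, map_smul, map_smul, ih,
      expandₗ_eq R hres t ht u, add_mul, map_add, mul_assoc, coeff_succ_X_mul, coeff_C_mul,
      coeff_succ_expandₗ, smul_eq_mul]

theorem expandₗ_one : expandₗ R hres t ht 1 = 1 := by
  rw [expandₗ_eq, shift_one, map_zero, mul_zero, add_zero, map_one, map_one]

/-- the expansion as an algebra homomorphism -/
noncomputable def expand : R →ₐ[K] K⟦X⟧ :=
  AlgHom.ofLinearMap (expandₗ R hres t ht) (expandₗ_one R hres t ht)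
    (fun u w => PowerSeries.ext fun n => coeff_expandₗ_mul R hres t ht n u w)

theorem expand_apply (u : R) : expand R hres t ht u = expandₗ R hres t ht u := rfl

theorem expand_t : expand R hres t ht t = X := by
  rw [expand_apply, expandₗ_eq, shift_t, resK_t R hres t ht, map_zero, zero_add,
    expandₗ_one, mul_one]

theorem mem_pow_of_expand_eq_zero (u : R) (hu : expand R hres t ht u = 0) (n : ℕ) :
    u ∈ Ideal.span {t ^ n} := by
  induction n generalizing u with
  | zero => simp
  | succ n ih =>
    have h0 : resK R hres u = 0 := by
      have := congrArg constantCoeff hu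
      rwa [expand_apply, constantCoeff_expandₗ, map_zero] at this
    have h1 : expand R hres t ht (shift R hres t ht u) = 0 := by
      ext k
      have := congrArg (coeff (k + 1)) hu
      rw [expand_apply, coeff_succ_expandₗ, map_zero] at this
      rw [expand_apply, map_zero, this]
    have h2 := shift_spec R hres t ht u
    rw [h0, map_zero, zero_add] at h2
    obtain ⟨w, hw⟩ := Ideal.mem_span_singleton'.mp (ih _ h1)
    rw [Ideal.mem_span_singleton']
    refine ⟨w, ?_⟩
    rw [h2, ← hw, pow_succ]
    ring

theorem expand_injective : Function.Injective (expand R hres t ht) := by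
  rw [injective_iff_map_eq_zero]
  intro u hu
  have h : u ∈ (⨅ n : ℕ, IsLocalRing.maximalIdeal R ^ n) := by
    rw [Ideal.mem_iInf]
    intro n
    rw [ht.maximalIdeal_eq, Ideal.span_singleton_pow]
    exact mem_pow_of_expand_eq_zero R hres t ht u hu n
  rw [Ideal.iInf_pow_eq_bot_of_isLocalRing _ (IsLocalRing.maximalIdeal.isMaximal R).ne_top] at h
  exact h

theorem isUnit_expand_iff (u : R) : IsUnit u ↔ IsUnit (expand R hres t ht u) := by
  rw [PowerSeries.isUnit_iff_constantCoeff, expand_apply, constantCoeff_expandₗ,
    isUnit_iff_ne_zero, ne_eq, resK_eq_zero_iff, IsLocalRing.mem_maximalIdeal, mem_nonunits_iff,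
    not_not]

end Expansion

/-- A4a. A discrete valuation ring `R` containing a field `K` that maps onto the residue field
embeds into `K⟦X⟧`, sending a uniformizer to `X`. -/
theorem exists_algHom_powerSeries {K : Type*} [Field K] (R : Type*) [CommRing R] [IsDomain R]
    [IsDiscreteValuationRing R] [Algebra K R]
    (hres : Function.Surjective (algebraMap K (IsLocalRing.ResidueField R)))
    (t : R) (ht : Irreducible t) :
    ∃ ι : R →ₐ[K] PowerSeries K, Function.Injective ι ∧ ι t = PowerSeries.X ∧
      ∀ u : R, IsUnit u ↔ IsUnit (ι u) :=
  ⟨Expansion.expand R hres t ht, Expansion.expand_injective R hres t ht,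
    Expansion.expand_t R hres t ht, Expansion.isUnit_expand_iff R hres t ht⟩

end Fermat.Agent.Lib.FF
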