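import Mathlib
import Fermat.Agent.Lib.FunctionField.Exchange
import Fermat.Agent.Lib.FunctionField.Expansion

/-!
# The derivative with respect to a local parameter preserves the valuation ring
(item 68, block A4b, first half)
-/

set_option autoImplicit false
set_option linter.unusedSectionVars false

open AlgebraicCurve KaehlerDifferential IntermediateField PowerSeries

namespace Fermat.Agent.Lib.FF

variable {K F : Type*} [Field K] [Field F] [Algebra K F]

/-- If `δ = d/dt` for a uniformizer `t` at the place `v` (with residue field `K`), then `δ` maps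
the valuation ring of `v` to itself. -/
theorem derivation_mem_of_mem [CharZero K] (v : Place K F)
    (hres : Function.Surjective (algebraMap K v.ResidueField))
    (π : v.toValuationSubring) (hπ : Irreducible π)
    (ht : IsFF1 K F (π : F)) (δ : Derivation K F F) (hδ : δ (π : F) = 1)
    (u : F) (hu : u ∈ v.toValuationSubring) : δ u ∈ v.toValuationSubring := by
  obtain ⟨ι, hinj, hιt, -⟩ :=
    exists_algHom_powerSeries (K := K) (↥v.toValuationSubring) hres π hπ
  let L := FractionRing K⟦X⟧
  let g : ↥v.toValuationSubring →+* L := (algebraMap K⟦X⟧ L).comp ι.toRingHom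
  have hg : Function.Injective g := (IsFractionRing.injective K⟦X⟧ L).comp hinj
  let ιF : F →+* L := IsFractionRing.lift hg
  have hιF : ∀ a : v.toValuationSubring, ιF (a : F) = algebraMap K⟦X⟧ L (ι a) := fun a =>
    IsFractionRing.lift_algebraMap hg a
  let _ : Algebra F L := ιF.toAlgebra
  have halg : ∀ f : F, algebraMap F L f = ιF f := fun _ => rfl
  have htower : IsScalarTower K F L := by
    refine IsScalarTower.of_algebraMap_eq fun a => ?_
    have h1 : algebraMap K F a = ((algebraMap K v.toValuationSubring a : v.toValuationSubring) : F) :=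
      rfl
    rw [halg, h1, hιF, AlgHom.commutes, ← IsScalarTower.algebraMap_apply]
  have : Algebra.FormallyEtale K⟦X⟧ L :=
    Algebra.FormallyEtale.of_isLocalization (nonZeroDivisors K⟦X⟧)
  let d₀ : Derivation K K⟦X⟧ L := (Algebra.linearMap K⟦X⟧ L).compDer (PowerSeries.derivative K)
  obtain ⟨d, hd⟩ := exists_derivation_ext K K⟦X⟧ L L d₀
  let d₁ : Derivation K F L := d.compAlgebraMap F
  let d₂ : Derivation K F L := (Algebra.linearMap F L).compDer δ
  have h1 : ∀ a : v.toValuationSubring, d₁ (a : F) = algebraMap K⟦X⟧ L (d⁄dX K (ι a)) := by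
    intro a
    show d (algebraMap F L (a : F)) = _
    rw [halg, hιF, hd]
    rfl
  have h2 : ∀ f : F, d₂ f = ιF (δ f) := fun f => rfl
  have h12 : d₁ - d₂ = 0 := by
    apply ht.derivation_eq_zero
    rw [Derivation.sub_apply, h1, h2, hδ, hιt, map_one, PowerSeries.derivative_X, map_one,
      sub_self]
  have key : ιF (δ u) = algebraMap K⟦X⟧ L (d⁄dX K (ι ⟨u, hu⟩)) := by
    have := congrArg (fun e : Derivation K F L => e u) h12
    simp only [Derivation.sub_apply, Derivation.coe_zero, Pi.zero_apply, sub_eq_zero] at this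
    rw [← h2, ← this]
    exact h1 ⟨u, hu⟩
  by_contra hmem
  have hinv : (δ u)⁻¹ ∈ v.toValuationSubring :=
    (v.toValuationSubring.mem_or_inv_mem (δ u)).resolve_left hmem
  have hne : δ u ≠ 0 := fun h => hmem (h ▸ v.toValuationSubring.zero_mem)
  have hnu : ¬ IsUnit (⟨(δ u)⁻¹, hinv⟩ : v.toValuationSubring) := by
    intro hunit
    obtain ⟨w, hw⟩ := hunit.exists_right_inv
    have hw' : (δ u)⁻¹ * (w : F) = 1 := congrArg Subtype.val hw
    have : (w : F) = δ u := by
      field_simp at hw'
      exact hw'
    exact hmem (this ▸ w.2)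
  have hmax : (⟨(δ u)⁻¹, hinv⟩ : v.toValuationSubring) ∈
      IsLocalRing.maximalIdeal v.toValuationSubring := by
    rwa [IsLocalRing.mem_maximalIdeal, mem_nonunits_iff]
  rw [hπ.maximalIdeal_eq, Ideal.mem_span_singleton'] at hmax
  obtain ⟨w, hw⟩ := hmax
  have h3 : ιF (δ u)⁻¹ = algebraMap K⟦X⟧ L (ι w * X) := by
    have : (δ u)⁻¹ = ((w * π : v.toValuationSubring) : F) := by rw [hw]
    rw [this, hιF, map_mul, hιt]
  have h4 : ιF (δ u) * ιF (δ u)⁻¹ = 1 := by
    rw [← map_mul, mul_inv_cancel₀ hne, map_one]
  rw [key, h3, ← map_mul, ← map_one (algebraMap K⟦X⟧ L)] at h4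
  have h5 := IsFractionRing.injective K⟦X⟧ L h4
  have h6 := congrArg (constantCoeff (R := K)) h5
  simp at h6

end Fermat.Agent.Lib.FF
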