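import Fermat.Agent.Lib.FunctionField.PlaceBasic

/-!
# Function fields, part 3: places and primes of a Dedekind domain with fraction field `F`
-/

set_option autoImplicit false
set_option linter.style.haveILetI false
set_option linter.unusedSectionVars false

open AlgebraicCurve WithZero IsDedekindDomain

namespace Fermat.Agent.Lib.FF

variable {K F : Type*} [Field K] [Field F] [Algebra K F]

section Unit

variable (v : Place K F)

theorem ord_eq_zero_of_isUnit {a : v.toValuationSubring} (ha : IsUnit a) : v.ord (a : F) = 0 := by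
  have h := (v.adicValuation_coe_eq_one_iff a).mpr ha
  simp [Place.ord, h]

theorem isUnit_of_ord_eq_zero {a : v.toValuationSubring} (ha0 : (a : F) ≠ 0)
    (ha : v.ord (a : F) = 0) : IsUnit a := by
  rw [← v.adicValuation_coe_eq_one_iff, v.adicValuation_eq_exp_neg_ord ha0, ha, neg_zero, exp_zero]

theorem mem_maximalIdeal_iff (a : v.toValuationSubring) :
    a ∈ IsLocalRing.maximalIdeal v.toValuationSubring ↔ (a : F) = 0 ∨ 0 < v.ord (a : F) := by
  rw [IsLocalRing.mem_maximalIdeal, mem_nonunits_iff]
  constructor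
  · intro h
    by_cases ha0 : (a : F) = 0
    · exact Or.inl ha0
    right
    have h1 := ord_nonneg_of_mem v a.2
    rcases h1.lt_or_eq with h2 | h2
    · exact h2
    · exact absurd (isUnit_of_ord_eq_zero v ha0 h2.symm) h
  · rintro (h | h) hu
    · have : a = 0 := Subtype.ext h
      rw [this] at hu
      exact not_isUnit_zero hu
    · rw [ord_eq_zero_of_isUnit v hu] at h
      exact lt_irrefl _ h

end Unit

section Dedekind

variable {B : Type*} [CommRing B] [IsDedekindDomain B] [Algebra B F] [IsFractionRing B F]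
  [Algebra K B] [IsScalarTower K B F]

/-- the order function of a prime of `B` -/
noncomputable def primeOrd (P : HeightOneSpectrum B) (f : F) : ℤ :=
  -(WithZero.log (P.valuation F f))

theorem primeOrd_zero (P : HeightOneSpectrum B) : primeOrd P (0 : F) = 0 := by
  simp [primeOrd]

theorem valuation_eq_exp_neg_primeOrd (P : HeightOneSpectrum B) {f : F} (hf : f ≠ 0) :
    P.valuation F f = exp (-primeOrd P f) := by
  unfold primeOrd
  rw [neg_neg, exp_log ((Valuation.ne_zero_iff _).mpr hf)]

theorem primeOrd_nonneg_iff (P : HeightOneSpectrum B) {f : F} (hf : f ≠ 0) :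
    0 ≤ primeOrd P f ↔ P.valuation F f ≤ 1 := by
  rw [valuation_eq_exp_neg_primeOrd P hf, ← exp_zero, exp_le_exp]
  omega

theorem primeOrd_pos_iff (P : HeightOneSpectrum B) {f : F} (hf : f ≠ 0) :
    0 < primeOrd P f ↔ P.valuation F f < 1 := by
  rw [valuation_eq_exp_neg_primeOrd P hf, ← exp_zero, exp_lt_exp]
  omega

theorem isOrdFun_primeOrd (P : HeightOneSpectrum B) : IsOrdFun (primeOrd (F := F) P) := by
  constructor
  · intro f g hf hg
    unfold primeOrd
    rw [map_mul, WithZero.log_mul ((Valuation.ne_zero_iff _).mpr hf)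
      ((Valuation.ne_zero_iff _).mpr hg)]
    ring
  · intro f g hf hg hfg
    have h := Valuation.map_add (P.valuation F) f g
    rw [valuation_eq_exp_neg_primeOrd P hf, valuation_eq_exp_neg_primeOrd P hg,
      valuation_eq_exp_neg_primeOrd P hfg] at h
    rcases le_max_iff.mp h with h | h
    · rw [exp_le_exp] at h
      exact (min_le_left _ _).trans (by linarith)
    · rw [exp_le_exp] at h
      exact (min_le_right _ _).trans (by linarith)

theorem primeOrd_algebraMap_nonneg (P : HeightOneSpectrum B) (b : B) :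
    0 ≤ primeOrd P (algebraMap B F b) := by
  by_cases hb : algebraMap B F b = 0
  · rw [hb, primeOrd_zero]
  rw [primeOrd_nonneg_iff P hb]
  exact P.valuation_le_one b

theorem primeOrd_algebraMap_field (P : HeightOneSpectrum B) (c : K) :
    primeOrd P (algebraMap K F c) = 0 := by
  by_cases hc : c = 0
  · rw [hc, map_zero, primeOrd_zero]
  have h1 := primeOrd_algebraMap_nonneg (F := F) P (algebraMap K B c)
  have h2 := primeOrd_algebraMap_nonneg (F := F) P (algebraMap K B c⁻¹)
  rw [← IsScalarTower.algebraMap_apply] at h1 h2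
  have hc' : algebraMap K F c ≠ 0 := by
    rwa [Ne, map_eq_zero]
  rw [map_inv₀, (isOrdFun_primeOrd P).inv hc'] at h2
  linarith

theorem exists_primeOrd_eq_one (P : HeightOneSpectrum B) :
    ∃ b : B, primeOrd P (algebraMap B F b) = 1 := by
  obtain ⟨π, hπ⟩ := P.valuation_exists_uniformizer' F
  refine ⟨π, ?_⟩
  unfold primeOrd
  rw [hπ, log_exp]
  ring

/-- the place attached to a prime of `B` -/
theorem exists_placeOfPrime (P : HeightOneSpectrum B) :
    ∃ v : Place K F, ∀ f : F, v.ord f = primeOrd P f := by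
  obtain ⟨b, hb⟩ := exists_primeOrd_eq_one (F := F) P
  have hb0 : algebraMap B F b ≠ 0 := by
    intro h
    rw [h, primeOrd_zero] at hb
    exact zero_ne_one hb
  obtain ⟨v, d, hd, -, h⟩ := exists_place_of_ord (K := K) (primeOrd (F := F) P)
    (isOrdFun_primeOrd P).mul (isOrdFun_primeOrd P).add
    (fun c _ => primeOrd_algebraMap_field P c) ⟨_, hb0, by rw [hb]; exact one_ne_zero⟩
  have hd1 : d = 1 := by
    have h1 := h _ hb0
    rw [hb] at h1
    have h2 : (d : ℤ) ∣ 1 := ⟨_, h1⟩
    have h3 := Int.eq_one_of_dvd_one (Int.natCast_nonneg d) h2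
    exact_mod_cast h3
  refine ⟨v, fun f => ?_⟩
  by_cases hf : f = 0
  · rw [hf, v.ord_zero, primeOrd_zero]
  rw [h f hf, hd1]
  simp

/-- the place attached to a prime of `B` -/
noncomputable def placeOfPrime (P : HeightOneSpectrum B) : Place K F :=
  Classical.choose (exists_placeOfPrime (K := K) (F := F) P)

theorem placeOfPrime_ord (P : HeightOneSpectrum B) (f : F) :
    (placeOfPrime (K := K) P).ord f = primeOrd P f :=
  Classical.choose_spec (exists_placeOfPrime (K := K) (F := F) P) f

theorem mem_asIdeal_iff_primeOrd (P : HeightOneSpectrum B) (b : B) :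
    b ∈ P.asIdeal ↔ b = 0 ∨ 0 < primeOrd P (algebraMap B F b) := by
  by_cases hb : b = 0
  · simp [hb]
  have hb' : algebraMap B F b ≠ 0 := by
    rwa [Ne, map_eq_zero_iff _ (IsFractionRing.injective B F)]
  rw [or_iff_right hb, primeOrd_pos_iff P hb', P.valuation_lt_one_iff_mem]

theorem placeOfPrime_injective :
    Function.Injective (placeOfPrime (K := K) (F := F) (B := B)) := by
  intro P Q h
  apply HeightOneSpectrum.ext
  ext b
  rw [mem_asIdeal_iff_primeOrd (F := F), mem_asIdeal_iff_primeOrd (F := F),
    ← placeOfPrime_ord (K := K), ← placeOfPrime_ord (K := K), h]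

/-- every place whose valuation ring contains `B` comes from a prime of `B` -/
theorem exists_prime_of_place (v : Place K F)
    (hB : ∀ b : B, algebraMap B F b ∈ v.toValuationSubring) :
    ∃ P : HeightOneSpectrum B, placeOfPrime (K := K) P = v := by
  let φ : B →+* v.toValuationSubring :=
    (algebraMap B F).codRestrict v.toValuationSubring.toSubring hB
  have hφ : ∀ b, ((φ b : v.toValuationSubring) : F) = algebraMap B F b := fun _ => rfl
  let I : Ideal B := Ideal.comap φ (IsLocalRing.maximalIdeal v.toValuationSubring)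
  have hI : I.IsPrime := Ideal.comap_isPrime φ _
  have hmem : ∀ b : B, b ∈ I ↔ b = 0 ∨ 0 < v.ord (algebraMap B F b) := by
    intro b
    rw [Ideal.mem_comap, mem_maximalIdeal_iff, hφ, map_eq_zero_iff _ (IsFractionRing.injective B F)]
  have hord : ∀ b : B, b ∉ I → v.ord (algebraMap B F b) = 0 := by
    intro b hb
    rw [hmem, not_or, not_lt] at hb
    exact le_antisymm hb.2 (ord_nonneg_of_mem v (hB b))
  have hI0 : I ≠ ⊥ := by
    intro h0
    apply v.ne_top'
    apply SetLike.ext
    intro f
    refine ⟨fun _ => ValuationSubring.mem_top f, fun _ => ?_⟩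
    obtain ⟨a, b, hb, rfl⟩ := IsFractionRing.div_surjective (A := B) f
    have hb0 : b ≠ 0 := nonZeroDivisors.ne_zero hb
    have hbI : b ∉ I := by
      rw [h0, Ideal.mem_bot]
      exact hb0
    apply mem_of_ord_nonneg
    have hb' : algebraMap B F b ≠ 0 := by
      rwa [Ne, map_eq_zero_iff _ (IsFractionRing.injective B F)]
    by_cases ha : algebraMap B F a = 0
    · rw [ha, zero_div, v.ord_zero]
    rw [div_eq_mul_inv, v.ord_mul ha (inv_ne_zero hb'), v.ord_inv, hord b hbI]
    simpa using ord_nonneg_of_mem v (hB a)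
  refine ⟨⟨I, hI, hI0⟩, ?_⟩
  apply place_ext_of_ord
  intro f hf hnn
  rw [placeOfPrime_ord, primeOrd_nonneg_iff _ hf] at hnn
  obtain ⟨n, d, hnd⟩ := HeightOneSpectrum.exists_primeCompl_mul_eq_of_integer
    (⟨I, hI, hI0⟩ : HeightOneSpectrum B) f hnn
  have hd : (d : B) ∉ I := d.2
  have hd0 : algebraMap B F d ≠ 0 := by
    rw [Ne, map_eq_zero_iff _ (IsFractionRing.injective B F)]
    intro h
    exact hd (h ▸ I.zero_mem)
  have h1 : v.ord (f * algebraMap B F d) = v.ord f := by
    rw [v.ord_mul hf hd0, hord d hd, add_zero]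
  rw [← h1, hnd]
  exact ord_nonneg_of_mem v (hB n)

end Dedekind

end Fermat.Agent.Lib.FF
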