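import Mathlib
import Fermat.Agent.Lib.FunctionField.DerivIntegral
import Fermat.Agent.Lib.FunctionField.PrimePlace

/-!
# Order of the differential `df` at a place (item 68, block A4b/A4c)

`ordDifferential_D_of_res`: if `ord_v f ≠ 0` then `ord_v (df) = ord_v f - 1`.
-/

set_option autoImplicit false
set_option linter.unusedSectionVars false

open AlgebraicCurve KaehlerDifferential IntermediateField

namespace Fermat.Agent.Lib.FF

variable {K F : Type*} [Field K] [Field F] [Algebra K F]

section

variable [CharZero K] (v : Place K F)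
  (hres : Function.Surjective (algebraMap K v.ResidueField))
  (π : v.toValuationSubring) (hπ : Irreducible π)
  (ht : IsFF1 K F (π : F)) (δ : Derivation K F F) (hδ : δ (π : F) = 1)

include hres hπ ht hδ

/-- explicit shape of `δ f` for `ord f ≥ 1` -/
theorem exists_unit_derivation_eq (u : v.toValuationSubringˣ) (k : ℕ) :
    ∃ a : v.toValuationSubringˣ,
      δ (((u : v.toValuationSubring) : F) * (π : F) ^ (k + 1)) =
        ((a : v.toValuationSubring) : F) * (π : F) ^ k := by
  have hmem : δ ((u : v.toValuationSubring) : F) ∈ v.toValuationSubring :=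
    derivation_mem_of_mem v hres π hπ ht δ hδ _ (u : v.toValuationSubring).2
  set w : v.toValuationSubring := ⟨_, hmem⟩ with hw
  have hk : IsUnit (algebraMap K v.toValuationSubring ((k + 1 : ℕ) : K)) :=
    (IsUnit.mk0 _ (Nat.cast_ne_zero.mpr (Nat.succ_ne_zero k))).map _
  have hunit : IsUnit (algebraMap K v.toValuationSubring ((k + 1 : ℕ) : K) * u + π * w) := by
    by_contra hnu
    have h1 : π * w ∈ nonunits v.toValuationSubring := by
      rw [← IsLocalRing.mem_maximalIdeal, hπ.maximalIdeal_eq]
      exact Ideal.mul_mem_right _ _ (Ideal.mem_span_singleton_self π)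
    have h2 := IsLocalRing.nonunits_add (show _ ∈ nonunits v.toValuationSubring from hnu)
      (show -(π * w) ∈ nonunits v.toValuationSubring by
        rwa [mem_nonunits_iff, IsUnit.neg_iff])
    rw [add_neg_cancel_right] at h2
    exact h2 (hk.mul u.isUnit)
  refine ⟨hunit.unit, ?_⟩
  rw [IsUnit.unit_spec, Derivation.leibniz, Derivation.leibniz_pow, hδ]
  simp only [smul_eq_mul, nsmul_eq_mul, Nat.add_sub_cancel, mul_one]
  have e1 : ((algebraMap K v.toValuationSubring ((k + 1 : ℕ) : K) * u + π * w :
      v.toValuationSubring) : F) =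
      ((k + 1 : ℕ) : F) * ((u : v.toValuationSubring) : F) +
        (π : F) * δ ((u : v.toValuationSubring) : F) := by
    push_cast
    simp [hw]
  rw [e1]
  push_cast
  ring

/-- `ord (δ f) = ord f - 1` for `ord f ≥ 1`, and `δ f ≠ 0`. -/
theorem ord_derivation_of_pos (f : F) (hf : 0 < v.ord f) :
    v.ord (δ f) = v.ord f - 1 ∧ δ f ≠ 0 := by
  have hf0 : f ≠ 0 := by
    rintro rfl
    simp at hf
  obtain ⟨u, hu⟩ := v.exists_unit_mul_zpow hf0 hπ
  obtain ⟨k, hk⟩ : ∃ k : ℕ, v.ord f = (k : ℤ) + 1 :=
    ⟨(v.ord f - 1).toNat, by omega⟩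
  rw [hk] at hu
  have hu' : f = ((u : v.toValuationSubring) : F) * (π : F) ^ (k + 1) := by
    rw [hu]
    congr 1
    exact_mod_cast zpow_natCast (π : F) (k + 1)
  obtain ⟨a, ha⟩ := exists_unit_derivation_eq v hres π hπ ht δ hδ u k
  rw [← hu'] at ha
  have hπ0 : (π : F) ≠ 0 := by
    simpa [ne_eq, ZeroMemClass.coe_eq_zero] using hπ.ne_zero
  have ha0 : ((a : v.toValuationSubring) : F) ≠ 0 := by
    simp [ne_eq, ZeroMemClass.coe_eq_zero]
  constructor
  · rw [ha, hk, ← zpow_natCast, v.ord_unit_smul_zpow a hπ k]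
    ring
  · rw [ha]
    exact mul_ne_zero ha0 (pow_ne_zero _ hπ0)

/-- `ord (δ f) = ord f - 1` whenever `ord f ≠ 0`. -/
theorem ord_derivation (f : F) (hf : v.ord f ≠ 0) : v.ord (δ f) = v.ord f - 1 := by
  rcases lt_or_gt_of_ne hf with hneg | hpos
  · have hf0 : f ≠ 0 := by
      rintro rfl
      simp at hf
    have hinv : 0 < v.ord f⁻¹ := by rw [v.ord_inv]; omega
    obtain ⟨h1, h2⟩ := ord_derivation_of_pos v hres π hπ ht δ hδ f⁻¹ hinv
    have h3 : δ f = -(f ^ 2) * δ f⁻¹ := by
      have := Derivation.leibniz_inv δ f⁻¹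
      rw [inv_inv, smul_eq_mul] at this
      rw [this]
    rw [h3, v.ord_mul (neg_ne_zero.mpr (pow_ne_zero 2 hf0)) h2, h1, ord_neg, v.ord_inv,
      ← zpow_natCast, v.ord_zpow]
    push_cast
    ring
  · exact (ord_derivation_of_pos v hres π hπ ht δ hδ f hpos).1

end

section

variable [CharZero K] [IsAlgClosed K] {x : F} (hx : IsFF1 K F x)

include hx

/-- A4b (with the residue field hypothesis explicit). -/
theorem ordDifferential_D_of_res (v : Place K F)
    (hres : Function.Surjective (algebraMap K v.ResidueField))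
    (f : F) (hf : v.ord f ≠ 0) : v.ordDifferential (D K F f) = v.ord f - 1 := by
  have hπ := (IsDiscreteValuationRing.exists_irreducible v.toValuationSubring).choose_spec
  set π := (IsDiscreteValuationRing.exists_irreducible v.toValuationSubring).choose with hπdef
  have hdc : v.dCoord = D K F (π : F) := rfl
  have hord := v.ord_coe_irreducible hπ
  have ht : IsFF1 K F (π : F) :=
    isFF1_of_transcendental hx _
      (transcendental_of_ord_ne_zero v (by rw [hord]; exact one_ne_zero))
  obtain ⟨δ, hδ⟩ := ht.exists_derivation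
  have := dCoordGenerates hx v
  have := nontrivial_kaehler hx
  have hcoeff : v.differentialCoeff (D K F f) = δ f := by
    apply v.differentialCoeff_unique
    obtain ⟨c, hc⟩ := v.exists_eq_smul_dCoord (D K F f)
    have h1 := congrArg δ.liftKaehlerDifferential hc
    rw [map_smul, hdc, Derivation.liftKaehlerDifferential_comp_D,
      Derivation.liftKaehlerDifferential_comp_D, hδ, smul_eq_mul, mul_one] at h1
    rw [h1, hc, ← h1]
  rw [Place.ordDifferential, hcoeff]
  exact ord_derivation v hres π hπ ht δ hδ f hf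

/-- A4c. `ordDifferential` of `f • ω`. -/
theorem ordDifferential_smul' (v : Place K F) (f : F) (hf : f ≠ 0) (ω : Ω[F⁄K]) (hω : ω ≠ 0) :
    v.ordDifferential (f • ω) = v.ord f + v.ordDifferential ω := by
  have := dCoordGenerates hx v
  have := nontrivial_kaehler hx
  refine v.ordDifferential_smul hf ?_
  intro h0
  apply hω
  rw [← v.differentialCoeff_smul_dCoord ω, h0, zero_smul]

end

end Fermat.Agent.Lib.FF
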