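import Mathlib
import Fermat.Agent.Lib.FunctionField.OrdDiff

/-!
# Riemann–Hurwitz in count form (item 68, block A5)

`degree_canonical_of_facts`: if the fibres of `x` over the points outside the finite set `A` have
the full number `[F : K(x)]` of places, then for every differential `ω ≠ 0`,
`deg div(ω) = Σ_{a ∈ A} ([F:K(x)] - n_a) - [F:K(x)] - n_∞`.

The facts about places needed here (block A1/A2) are packaged in `PlaceFacts`.
-/

set_option autoImplicit false
set_option linter.unusedSectionVars false

open AlgebraicCurve KaehlerDifferential IntermediateField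

namespace Fermat.Agent.Lib.FF

/-- The facts about places of a function field of one variable used by Riemann–Hurwitz. -/
structure PlaceFacts (K F : Type*) [Field K] [Field F] [Algebra K F] : Prop where
  res : ∀ v : Place K F, Function.Surjective (algebraMap K v.ResidueField)
  finite_zeros : ∀ y : F, Transcendental K y → {v : Place K F | 0 < v.ord y}.Finite
  sum_ord_zeros : ∀ (y : F) (hy : Transcendental K y),
    ∑ v ∈ (finite_zeros y hy).toFinset, v.ord y = (Module.finrank K⟮y⟯ F : ℤ)
  finite_ord_ne_zero : ∀ f : F, f ≠ 0 → {v : Place K F | v.ord f ≠ 0}.Finite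
  degree_principal : ∀ (f : F), f ≠ 0 → ∀ D : Divisor K F, (∀ v, D v = v.ord f) →
    Divisor.degree D = 0

variable {K F : Type*} [Field K] [Field F] [Algebra K F]

theorem deg_eq_one_of_res (v : Place K F)
    (hres : Function.Surjective (algebraMap K v.ResidueField)) : v.deg = 1 := by
  have e : K ≃ₗ[K] v.ResidueField :=
    (AlgEquiv.ofBijective (Algebra.ofId K v.ResidueField)
      ⟨(algebraMap K v.ResidueField).injective, hres⟩).toLinearEquiv
  rw [Place.deg, ← e.finrank_eq, Module.finrank_self]

theorem degree_eq_sum_of_res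
    (hres : ∀ v : Place K F, Function.Surjective (algebraMap K v.ResidueField))
    (D : Divisor K F) (S : Finset (Place K F)) (hS : D.support ⊆ S) :
    Divisor.degree D = ∑ v ∈ S, D v := by
  have h : Divisor.degree D = D.sum fun v n => n * (v.deg : ℤ) := by
    rw [Divisor.degree, Finsupp.liftAddHom_apply]
    rfl
  rw [h, Finsupp.sum_of_support_subset D hS _ (by simp)]
  refine Finset.sum_congr rfl fun v _ => ?_
  rw [deg_eq_one_of_res v (hres v)]
  simp

section Transc

variable {x : F} (hx : Transcendental K x)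

include hx

theorem transcendental_sub_algebraMap (a : K) : Transcendental K (x - algebraMap K F a) := by
  intro h
  apply hx
  have := h.add (isAlgebraic_algebraMap (R := K) (A := F) a)
  rwa [sub_add_cancel] at this

theorem transcendental_inv : Transcendental K x⁻¹ := by
  intro h
  apply hx
  have := h.inv
  rwa [inv_inv] at this

theorem ne_algebraMap_of_transcendental (a : K) : x ≠ algebraMap K F a := by
  rintro rfl
  exact hx (isAlgebraic_algebraMap a)

omit hx in
theorem adjoin_sub_algebraMap (x : F) (a : K) : K⟮x - algebraMap K F a⟯ = K⟮x⟯ := by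
  apply le_antisymm
  · rw [adjoin_simple_le_iff]
    exact sub_mem (mem_adjoin_simple_self K x) (IntermediateField.algebraMap_mem _ a)
  · rw [adjoin_simple_le_iff]
    have h := add_mem (mem_adjoin_simple_self K (x - algebraMap K F a))
      (IntermediateField.algebraMap_mem K⟮x - algebraMap K F a⟯ a)
    rwa [sub_add_cancel] at h

omit hx in
theorem adjoin_inv_eq (x : F) : K⟮x⁻¹⟯ = K⟮x⟯ := by
  apply le_antisymm
  · rw [adjoin_simple_le_iff]
    exact inv_mem (mem_adjoin_simple_self K x)
  · rw [adjoin_simple_le_iff]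
    have h := inv_mem (mem_adjoin_simple_self K x⁻¹)
    rwa [inv_inv] at h

omit hx in
theorem finrank_adjoin_sub_algebraMap (x : F) (a : K) :
    Module.finrank K⟮x - algebraMap K F a⟯ F = Module.finrank K⟮x⟯ F := by
  rw [adjoin_sub_algebraMap]

omit hx in
theorem finrank_adjoin_inv (x : F) : Module.finrank K⟮x⁻¹⟯ F = Module.finrank K⟮x⟯ F := by
  rw [adjoin_inv_eq]

/-- A place where `x` is regular lies over a point `x = a`. -/
theorem exists_ord_sub_pos (v : Place K F)
    (hres : Function.Surjective (algebraMap K v.ResidueField)) (h : 0 ≤ v.ord x) :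
    ∃ a : K, 0 < v.ord (x - algebraMap K F a) := by
  have hmem : x ∈ v.toValuationSubring := mem_of_ord_nonneg v h
  obtain ⟨a, ha⟩ := hres (IsLocalRing.residue _ ⟨x, hmem⟩)
  refine ⟨a, ?_⟩
  have h1 : (⟨x, hmem⟩ - algebraMap K v.toValuationSubring a : v.toValuationSubring) ∈
      IsLocalRing.maximalIdeal v.toValuationSubring := by
    rw [← IsLocalRing.residue_eq_zero_iff, map_sub, sub_eq_zero, ← ha]
    exact IsScalarTower.algebraMap_apply K v.toValuationSubring v.ResidueField a
  rw [mem_maximalIdeal_iff] at h1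
  rcases h1 with h1 | h1
  · exact absurd (sub_eq_zero.mp h1) (ne_algebraMap_of_transcendental hx a)
  · exact h1

omit hx in
theorem eq_of_ord_sub_pos (v : Place K F) {a b : K}
    (ha : 0 < v.ord (x - algebraMap K F a)) (hb : 0 < v.ord (x - algebraMap K F b)) : a = b := by
  by_contra hab
  have hne : (x - algebraMap K F a) - (x - algebraMap K F b) ≠ 0 := by
    have : (x - algebraMap K F a) - (x - algebraMap K F b) = algebraMap K F (b - a) := by
      rw [map_sub]; ring
    rw [this]
    exact (map_ne_zero _).mpr (sub_ne_zero.mpr (Ne.symm hab))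
  have h1 := ord_sub v hne
  have h2 : v.ord ((x - algebraMap K F a) - (x - algebraMap K F b)) = 0 := by
    have : (x - algebraMap K F a) - (x - algebraMap K F b) = algebraMap K F (b - a) := by
      rw [map_sub]; ring
    rw [this, ord_algebraMap]
  rw [h2] at h1
  have := lt_min ha hb
  omega

omit hx in
theorem ord_sub_algebraMap_of_neg (v : Place K F) (h : v.ord x < 0) (a : K) :
    v.ord (x - algebraMap K F a) = v.ord x := by
  have hx0 : x ≠ 0 := by
    rintro rfl
    simp at h
  have h1 : v.ord x < v.ord (algebraMap K F (-a)) := by rwa [ord_algebraMap]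
  have := ord_add_of_lt v h1 hx0
  rwa [map_neg, ← sub_eq_add_neg] at this

end Transc

section Diff

variable [CharZero K] [IsAlgClosed K] {x : F} (hx : IsFF1 K F x)

include hx

theorem ordDifferential_dx_of_fibre (v : Place K F)
    (hres : Function.Surjective (algebraMap K v.ResidueField)) (a : K)
    (h : 0 < v.ord (x - algebraMap K F a)) :
    v.ordDifferential (D K F x) = v.ord (x - algebraMap K F a) - 1 := by
  have := ordDifferential_D_of_res hx v hres (x - algebraMap K F a) h.ne'
  rwa [map_sub, Derivation.map_algebraMap, sub_zero] at this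

theorem ordDifferential_dx_of_pole (v : Place K F)
    (hres : Function.Surjective (algebraMap K v.ResidueField)) (h : v.ord x < 0) :
    v.ordDifferential (D K F x) = v.ord x - 1 :=
  ordDifferential_D_of_res hx v hres x h.ne

end Diff

section Fibres

variable {x : F} (hpf : PlaceFacts K F) (hx : Transcendental K x)

/-- the fibre of `x` over `a`, as a finset -/
noncomputable def PlaceFacts.fib (a : K) : Finset (Place K F) :=
  (hpf.finite_zeros (x - algebraMap K F a) (transcendental_sub_algebraMap hx a)).toFinset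

/-- the polar fibre of `x`, as a finset -/
noncomputable def PlaceFacts.pol : Finset (Place K F) :=
  (hpf.finite_zeros x⁻¹ (transcendental_inv hx)).toFinset

theorem PlaceFacts.mem_fib {a : K} {v : Place K F} :
    v ∈ hpf.fib hx a ↔ 0 < v.ord (x - algebraMap K F a) := by
  rw [PlaceFacts.fib, Set.Finite.mem_toFinset]
  exact Iff.rfl

theorem PlaceFacts.mem_pol {v : Place K F} : v ∈ hpf.pol hx ↔ v.ord x < 0 := by
  rw [PlaceFacts.pol, Set.Finite.mem_toFinset]
  show 0 < v.ord x⁻¹ ↔ _
  rw [v.ord_inv]
  omega

theorem PlaceFacts.card_fib (a : K) : ((hpf.fib hx a).card : ℕ) = nFibre x a := by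
  rw [nFibre, PlaceFacts.fib]
  exact (Nat.card_eq_card_finite_toFinset _).symm

theorem PlaceFacts.card_pol : ((hpf.pol hx).card : ℕ) = nPoles (K := K) x := by
  rw [nPoles]
  have h : {v : Place K F | v.ord x < 0} = {v : Place K F | 0 < v.ord x⁻¹} := by
    ext v
    show v.ord x < 0 ↔ 0 < v.ord x⁻¹
    rw [v.ord_inv]
    omega
  have h2 : Nat.card {v : Place K F // v.ord x < 0} =
      Nat.card ↥{v : Place K F | 0 < v.ord x⁻¹} := by
    rw [← h]
    rfl
  rw [h2, PlaceFacts.pol]
  exact (Nat.card_eq_card_finite_toFinset _).symm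

theorem PlaceFacts.sum_fib (a : K) :
    ∑ v ∈ hpf.fib hx a, v.ord (x - algebraMap K F a) = (Module.finrank K⟮x⟯ F : ℤ) := by
  rw [PlaceFacts.fib, hpf.sum_ord_zeros _ (transcendental_sub_algebraMap hx a),
    finrank_adjoin_sub_algebraMap]

theorem PlaceFacts.sum_pol :
    ∑ v ∈ hpf.pol hx, v.ord x = -(Module.finrank K⟮x⟯ F : ℤ) := by
  have := hpf.sum_ord_zeros x⁻¹ (transcendental_inv hx)
  rw [finrank_adjoin_inv] at this
  rw [← this, PlaceFacts.pol, ← Finset.sum_neg_distrib]
  refine Finset.sum_congr rfl fun v _ => ?_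
  rw [v.ord_inv, neg_neg]

/-- over a point with the full number of places, `x - a` has order one at each of them -/
theorem PlaceFacts.ord_eq_one_of_full (hpf : PlaceFacts K F) (hx : Transcendental K x)
    (a : K) (hfull : nFibre x a = Module.finrank K⟮x⟯ F)
    (v : Place K F) (hv : 0 < v.ord (x - algebraMap K F a)) :
    v.ord (x - algebraMap K F a) = 1 := by
  have h1 : ∑ w ∈ hpf.fib hx a, (w.ord (x - algebraMap K F a) - 1) = 0 := by
    rw [Finset.sum_sub_distrib, hpf.sum_fib hx a, Finset.sum_const, hpf.card_fib hx a, hfull]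
    simp
  have h2 := (Finset.sum_eq_zero_iff_of_nonneg (fun w hw => by
    have := (hpf.mem_fib hx).mp hw
    omega)).mp h1 v ((hpf.mem_fib hx).mpr hv)
  omega

theorem PlaceFacts.disjoint_fib {a b : K} (hab : a ≠ b) :
    Disjoint (hpf.fib hx a) (hpf.fib hx b) := by
  rw [Finset.disjoint_left]
  intro v ha hb
  exact hab (eq_of_ord_sub_pos v ((hpf.mem_fib hx).mp ha) ((hpf.mem_fib hx).mp hb))

theorem PlaceFacts.disjoint_pol_fib [DecidableEq (Place K F)] (A : Finset K) :
    Disjoint (hpf.pol hx) (A.biUnion (hpf.fib hx)) := by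
  rw [Finset.disjoint_left]
  intro v hp hf
  obtain ⟨a, -, ha⟩ := Finset.mem_biUnion.mp hf
  have h1 := (hpf.mem_pol hx).mp hp
  have h2 := (hpf.mem_fib hx).mp ha
  rw [ord_sub_algebraMap_of_neg v h1 a] at h2
  omega

end Fibres

section Main

variable [CharZero K] [IsAlgClosed K] {x : F} (hx : IsFF1 K F x) (hpf : PlaceFacts K F)

include hx hpf

/-- A5. Riemann–Hurwitz in count form. -/
theorem degree_canonical_of_facts (A : Finset K)
    (hA : ∀ a : K, a ∉ A → nFibre x a = Module.finrank K⟮x⟯ F)
    (ω : Ω[F⁄K]) (hω : ω ≠ 0) (W : Divisor K F)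
    (hW : ∀ v : Place K F, W v = v.ordDifferential ω) :
    Divisor.degree W =
      ∑ a ∈ A, ((Module.finrank K⟮x⟯ F : ℤ) - nFibre x a)
        - (Module.finrank K⟮x⟯ F : ℤ) - nPoles (K := K) x := by
  classical
  have htr := hx.transcendental
  obtain ⟨c, hc⟩ := exists_eq_smul_D hx ω
  have hc0 : c ≠ 0 := by
    rintro rfl
    exact hω (by rw [hc, zero_smul])
  have hdx := D_ne_zero hx
  -- the principal divisor of `c`
  let E : Divisor K F := Finsupp.ofSupportFinite (fun v => v.ord c) (hpf.finite_ord_ne_zero c hc0)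
  have hE : Divisor.degree E = 0 := hpf.degree_principal c hc0 E (fun v => rfl)
  -- the divisor of `dx`
  have hDx : ∀ v, (W - E) v = v.ordDifferential (D K F x) := by
    intro v
    have h1 : E v = v.ord c := rfl
    rw [Finsupp.sub_apply, hW, h1, hc, ordDifferential_smul' hx v c hc0 _ hdx]
    ring
  have hdeg : Divisor.degree W = Divisor.degree (W - E) := by
    rw [map_sub, hE, sub_zero]
  have hsupp : (W - E).support ⊆ hpf.pol htr ∪ A.biUnion (hpf.fib htr) := by
    intro v hv
    rw [Finsupp.mem_support_iff, hDx] at hv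
    by_cases hp : v.ord x < 0
    · exact Finset.mem_union_left _ ((hpf.mem_pol htr).mpr hp)
    · obtain ⟨a, ha⟩ := exists_ord_sub_pos htr v (hpf.res v) (not_lt.mp hp)
      by_cases haA : a ∈ A
      · exact Finset.mem_union_right _
          (Finset.mem_biUnion.mpr ⟨a, haA, (hpf.mem_fib htr).mpr ha⟩)
      · exfalso
        apply hv
        rw [ordDifferential_dx_of_fibre hx v (hpf.res v) a ha,
          hpf.ord_eq_one_of_full htr a (hA a haA) v ha]
        rfl
  rw [hdeg, degree_eq_sum_of_res hpf.res _ _ hsupp,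
    Finset.sum_union (hpf.disjoint_pol_fib htr A),
    Finset.sum_biUnion (fun a _ b _ hab => hpf.disjoint_fib htr hab)]
  have hpol : ∑ v ∈ hpf.pol htr, (W - E) v = -(Module.finrank K⟮x⟯ F : ℤ) - nPoles (K := K) x := by
    rw [← hpf.card_pol htr, ← hpf.sum_pol htr]
    have : ∑ v ∈ hpf.pol htr, (W - E) v = ∑ v ∈ hpf.pol htr, (v.ord x - 1) :=
      Finset.sum_congr rfl fun v hv => by
        rw [hDx, ordDifferential_dx_of_pole hx v (hpf.res v) ((hpf.mem_pol htr).mp hv)]
    rw [this, Finset.sum_sub_distrib, Finset.sum_const]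
    simp
  have hfib : ∀ a ∈ A, ∑ v ∈ hpf.fib htr a, (W - E) v =
      (Module.finrank K⟮x⟯ F : ℤ) - nFibre x a := by
    intro a _
    rw [← hpf.card_fib htr, ← hpf.sum_fib htr a]
    have : ∑ v ∈ hpf.fib htr a, (W - E) v =
        ∑ v ∈ hpf.fib htr a, (v.ord (x - algebraMap K F a) - 1) :=
      Finset.sum_congr rfl fun v hv => by
        rw [hDx, ordDifferential_dx_of_fibre hx v (hpf.res v) a ((hpf.mem_fib htr).mp hv)]
    rw [this, Finset.sum_sub_distrib, Finset.sum_const]
    simp
  rw [hpol, Finset.sum_congr rfl hfib]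
  ring

end Main

end Fermat.Agent.Lib.FF
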