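import Mathlib
import Fermat.Agent.Lib.FunctionField.RiemannHurwitz

/-!
# `PlaceFacts` from its core (item 68, block A2)

Finiteness of zeros and poles and "principal divisors have degree zero" follow from the
fundamental identity `Σ_{v | y = 0} ord_v y = [F : K(y)]` for transcendental `y` and from
"all residue fields are `K`".
-/

set_option autoImplicit false
set_option linter.unusedSectionVars false

open AlgebraicCurve KaehlerDifferential IntermediateField

namespace Fermat.Agent.Lib.FF

variable {K F : Type*} [Field K] [Field F] [Algebra K F]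

section Core

variable [IsAlgClosed K]
  (hres : ∀ v : Place K F, Function.Surjective (algebraMap K v.ResidueField))
  (hfin : ∀ y : F, Transcendental K y → {v : Place K F | 0 < v.ord y}.Finite)
  (hsum : ∀ (y : F) (hy : Transcendental K y),
    ∑ v ∈ (hfin y hy).toFinset, v.ord y = (Module.finrank K⟮y⟯ F : ℤ))

include hfin in
theorem finite_ord_ne_zero_of_core (f : F) (_hf : f ≠ 0) :
    {v : Place K F | v.ord f ≠ 0}.Finite := by
  by_cases halg : IsAlgebraic K f
  · obtain ⟨a, rfl⟩ := exists_algebraMap_eq_of_isAlgebraic halg
    refine Set.Finite.subset Set.finite_empty ?_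
    intro v hv
    exact absurd (ord_algebraMap v a) hv
  · have h1 := hfin f halg
    have h2 := hfin f⁻¹ (transcendental_inv halg)
    refine Set.Finite.subset (h1.union h2) ?_
    intro v hv
    have hv' : v.ord f ≠ 0 := hv
    rcases lt_or_gt_of_ne hv' with h | h
    · right
      show 0 < v.ord f⁻¹
      rw [v.ord_inv]
      omega
    · left
      exact h

include hres hsum in
theorem degree_principal_of_core (f : F) (_hf : f ≠ 0) (W : Divisor K F)
    (hW : ∀ v : Place K F, W v = v.ord f) : Divisor.degree W = 0 := by
  classical
  by_cases halg : IsAlgebraic K f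
  · obtain ⟨a, rfl⟩ := exists_algebraMap_eq_of_isAlgebraic halg
    have : W = 0 := by
      ext v
      rw [hW, ord_algebraMap]
      rfl
    rw [this, map_zero]
  · have hinv := transcendental_inv (K := K) halg
    set Z := (hfin f halg).toFinset with hZ
    set P := (hfin f⁻¹ hinv).toFinset with hP
    have hmemZ : ∀ v, v ∈ Z ↔ 0 < v.ord f := fun v => by
      rw [hZ, Set.Finite.mem_toFinset]
      exact Iff.rfl
    have hmemP : ∀ v, v ∈ P ↔ v.ord f < 0 := fun v => by
      rw [hP, Set.Finite.mem_toFinset]
      show 0 < v.ord f⁻¹ ↔ _
      rw [v.ord_inv]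
      omega
    have hsupp : W.support ⊆ Z ∪ P := by
      intro v hv
      rw [Finsupp.mem_support_iff, hW] at hv
      rcases lt_or_gt_of_ne hv with h | h
      · exact Finset.mem_union_right _ ((hmemP v).mpr h)
      · exact Finset.mem_union_left _ ((hmemZ v).mpr h)
    have hdisj : Disjoint Z P := by
      rw [Finset.disjoint_left]
      intro v h1 h2
      have := (hmemZ v).mp h1
      have := (hmemP v).mp h2
      omega
    rw [degree_eq_sum_of_res hres W _ hsupp, Finset.sum_union hdisj]
    have h1 : ∑ v ∈ Z, W v = (Module.finrank K⟮f⟯ F : ℤ) := by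
      rw [← hsum f halg]
      exact Finset.sum_congr rfl fun v _ => hW v
    have h2 : ∑ v ∈ P, W v = -(Module.finrank K⟮f⟯ F : ℤ) := by
      have := hsum f⁻¹ hinv
      rw [finrank_adjoin_inv] at this
      rw [← this, ← Finset.sum_neg_distrib]
      refine Finset.sum_congr rfl fun v _ => ?_
      rw [hW, v.ord_inv, neg_neg]
    rw [h1, h2, add_neg_cancel]

include hres hfin hsum in
/-- `PlaceFacts` from the residue field statement and the fundamental identity. -/
theorem PlaceFacts.of_core : PlaceFacts K F where
  res := hres
  finite_zeros := hfin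
  sum_ord_zeros := hsum
  finite_ord_ne_zero := finite_ord_ne_zero_of_core hfin
  degree_principal := degree_principal_of_core hres hfin hsum

end Core

end Fermat.Agent.Lib.FF
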