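import Fermat.Agent.Lib.FunctionField.PlaceFactsMain
import Fermat.Prelude.Def_AlgebraicCurve_Repartitions

/-!
# Riemann–Roch, part 1: the spaces `L(D)`

`K` is a field, `F/K` a field extension whose places satisfy `PlaceFacts` (all residue fields are
`K`, principal divisors have degree zero, ...).
-/

set_option autoImplicit false
set_option linter.unusedSectionVars false
set_option linter.style.haveILetI false

open AlgebraicCurve IntermediateField

namespace Fermat.Agent.Lib.FF

variable {K F : Type*} [Field K] [Field F] [Algebra K F]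

/-! ### residue field `K`, in terms of orders -/

theorem exists_eq_or_ord_sub_pos (v : Place K F)
    (hres : Function.Surjective (algebraMap K v.ResidueField)) (u : F) (hu : 0 ≤ v.ord u) :
    ∃ c : K, u = algebraMap K F c ∨ 0 < v.ord (u - algebraMap K F c) := by
  have hmem : u ∈ v.toValuationSubring := mem_of_ord_nonneg v hu
  obtain ⟨a, ha⟩ := hres (IsLocalRing.residue _ ⟨u, hmem⟩)
  refine ⟨a, ?_⟩
  have h1 : (⟨u, hmem⟩ - algebraMap K v.toValuationSubring a : v.toValuationSubring) ∈
      IsLocalRing.maximalIdeal v.toValuationSubring := by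
    rw [← IsLocalRing.residue_eq_zero_iff, map_sub, sub_eq_zero, ← ha]
    exact IsScalarTower.algebraMap_apply K v.toValuationSubring v.ResidueField a
  rw [mem_maximalIdeal_iff] at h1
  rcases h1 with h1 | h1
  · exact Or.inl (sub_eq_zero.mp h1)
  · exact Or.inr h1

/-! ### the divisor of a function -/

/-- the divisor of a function (zero for the zero function) -/
noncomputable def PlaceFacts.divOf (hpf : PlaceFacts K F) (f : F) : Divisor K F :=
  letI := Classical.propDecidable
  if hf : f = 0 then 0
  else Finsupp.ofSupportFinite (fun v => v.ord f) (hpf.finite_ord_ne_zero f hf)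

theorem PlaceFacts.divOf_apply (hpf : PlaceFacts K F) (f : F) (v : Place K F) :
    hpf.divOf f v = v.ord f := by
  unfold PlaceFacts.divOf
  by_cases hf : f = 0
  · simp [hf]
  · simp only [hf, dite_false]
    rfl

theorem PlaceFacts.degree_divOf (hpf : PlaceFacts K F) (f : F) :
    Divisor.degree (hpf.divOf f) = 0 := by
  by_cases hf : f = 0
  · have : hpf.divOf f = 0 := by
      ext v
      rw [hpf.divOf_apply, hf]
      simp
    rw [this, map_zero]
  · exact hpf.degree_principal f hf _ (fun v => hpf.divOf_apply f v)

theorem PlaceFacts.degree_single (hpf : PlaceFacts K F) (P : Place K F) (n : ℤ) :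
    Divisor.degree (Finsupp.single P n) = n := by
  rw [Divisor.degree_single, deg_eq_one_of_res P (hpf.res P)]
  simp

/-! ### the spaces `L(D)` -/

theorem mem_rrSpace_iff {D : Divisor K F} {f : F} :
    f ∈ riemannRochSpace D ↔ ∀ v : Place K F, f = 0 ∨ -D v ≤ v.ord f :=
  mem_riemannRochSpace_iff

theorem mem_rrSpace_iff_of_ne_zero {D : Divisor K F} {f : F} (hf : f ≠ 0) :
    f ∈ riemannRochSpace D ↔ ∀ v : Place K F, -D v ≤ v.ord f := by
  rw [mem_rrSpace_iff]
  exact forall_congr' fun v => or_iff_right hf

theorem rrSpace_mono {D D' : Divisor K F} (h : D ≤ D') :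
    riemannRochSpace D ≤ riemannRochSpace D' := by
  intro f hf
  rw [mem_rrSpace_iff] at hf ⊢
  intro v
  rcases hf v with h0 | h1
  · exact Or.inl h0
  · right
    have := Finsupp.le_def.mp h v
    omega

theorem le_add_single (D : Divisor K F) (P : Place K F) : D ≤ D + Finsupp.single P 1 := by
  rw [Finsupp.le_def]
  intro v
  rw [Finsupp.add_apply]
  by_cases hv : v = P
  · subst hv
    simp
  · rw [Finsupp.single_eq_of_ne hv]
    simp

/-- if `g ∈ L(D + P) \ L(D)`, then `ord_P g = -D(P) - 1` -/
theorem ord_eq_of_mem_of_notMem {D : Divisor K F} {P : Place K F} {g : F}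
    (hg : g ∈ riemannRochSpace (D + Finsupp.single P 1)) (hgD : g ∉ riemannRochSpace D) :
    g ≠ 0 ∧ P.ord g = - D P - 1 := by
  have hg0 : g ≠ 0 := by
    rintro rfl
    exact hgD (Submodule.zero_mem _)
  refine ⟨hg0, ?_⟩
  rw [mem_rrSpace_iff_of_ne_zero hg0] at hg hgD
  have hgP := hg P
  rw [Finsupp.add_apply, Finsupp.single_eq_same] at hgP
  by_contra hne
  apply hgD
  intro v
  by_cases hv : v = P
  · subst hv
    omega
  · have := hg v
    rw [Finsupp.add_apply, Finsupp.single_eq_of_ne hv, add_zero] at this
    exact this

section OneStep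

variable (hpf : PlaceFacts K F)
include hpf

/-- the one-step lemma: `L(D + P) / L(D)` has dimension at most one -/
theorem exists_sub_smul_mem_rrSpace (D : Divisor K F) (P : Place K F) {f g : F}
    (hf : f ∈ riemannRochSpace (D + Finsupp.single P 1))
    (hg : g ∈ riemannRochSpace (D + Finsupp.single P 1)) (hgD : g ∉ riemannRochSpace D) :
    ∃ c : K, f - c • g ∈ riemannRochSpace D := by
  obtain ⟨hg0, hgP⟩ := ord_eq_of_mem_of_notMem hg hgD
  by_cases hf0 : f = 0
  · exact ⟨0, by simp [hf0]⟩
  have hfP : - D P - 1 ≤ P.ord f := by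
    have := (mem_rrSpace_iff_of_ne_zero hf0).mp hf P
    rw [Finsupp.add_apply, Finsupp.single_eq_same] at this
    omega
  have hu : 0 ≤ P.ord (f / g) := by
    rw [div_eq_mul_inv, P.ord_mul hf0 (inv_ne_zero hg0), P.ord_inv]
    omega
  obtain ⟨c, hc⟩ := exists_eq_or_ord_sub_pos P (hpf.res P) (f / g) hu
  refine ⟨c, ?_⟩
  have hkey : f - c • g = (f / g - algebraMap K F c) * g := by
    rw [Algebra.smul_def]
    field_simp
  rcases hc with hc | hc
  · rw [hkey, hc, sub_self, zero_mul]
    exact Submodule.zero_mem _
  · by_cases h0 : f - c • g = 0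
    · rw [h0]
      exact Submodule.zero_mem _
    rw [mem_rrSpace_iff_of_ne_zero h0]
    intro v
    by_cases hv : v = P
    · subst hv
      have hne : f / g - algebraMap K F c ≠ 0 := by
        intro h
        rw [hkey, h, zero_mul] at h0
        exact h0 rfl
      rw [hkey, v.ord_mul hne hg0]
      omega
    · have h1 : f - c • g ∈ riemannRochSpace (D + Finsupp.single P 1) :=
        Submodule.sub_mem _ hf (Submodule.smul_mem _ c hg)
      have := (mem_rrSpace_iff_of_ne_zero h0).mp h1 v
      rw [Finsupp.add_apply, Finsupp.single_eq_of_ne hv, add_zero] at this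
      exact this

theorem rrSpace_add_single_le (D : Divisor K F) (P : Place K F) {g : F}
    (hg : g ∈ riemannRochSpace (D + Finsupp.single P 1)) (hgD : g ∉ riemannRochSpace D) :
    riemannRochSpace (D + Finsupp.single P 1) ≤ riemannRochSpace D ⊔ Submodule.span K {g} := by
  intro f hf
  obtain ⟨c, hc⟩ := exists_sub_smul_mem_rrSpace hpf D P hf hg hgD
  rw [Submodule.mem_sup]
  refine ⟨f - c • g, hc, c • g, Submodule.smul_mem _ c (Submodule.mem_span_singleton_self g), ?_⟩
  ring

theorem finite_rrSpace_add_single (D : Divisor K F) (P : Place K F)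
    (h : Module.Finite K (riemannRochSpace D)) :
    Module.Finite K (riemannRochSpace (D + Finsupp.single P 1)) := by
  by_cases hle : riemannRochSpace (D + Finsupp.single P 1) ≤ riemannRochSpace D
  · exact Submodule.finiteDimensional_of_le hle
  · obtain ⟨g, hg, hgD⟩ := Set.not_subset.mp hle
    haveI : Module.Finite K (riemannRochSpace D ⊔ Submodule.span K {g} : Submodule K F) :=
      Submodule.finiteDimensional_sup _ _
    exact Submodule.finiteDimensional_of_le (rrSpace_add_single_le hpf D P hg hgD)

theorem finrank_rrSpace_add_single_le (D : Divisor K F) (P : Place K F)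
    (h : Module.Finite K (riemannRochSpace D)) :
    Module.finrank K (riemannRochSpace (D + Finsupp.single P 1))
      ≤ Module.finrank K (riemannRochSpace D) + 1 := by
  by_cases hle : riemannRochSpace (D + Finsupp.single P 1) ≤ riemannRochSpace D
  · exact (Submodule.finrank_mono hle).trans (Nat.le_succ _)
  · obtain ⟨g, hg, hgD⟩ := Set.not_subset.mp hle
    haveI : Module.Finite K (riemannRochSpace D ⊔ Submodule.span K {g} : Submodule K F) :=
      Submodule.finiteDimensional_sup _ _
    refine (Submodule.finrank_mono (rrSpace_add_single_le hpf D P hg hgD)).trans ?_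
    refine (Submodule.finrank_add_le_finrank_add_finrank _ _).trans ?_
    have : Module.finrank K (Submodule.span K {g}) ≤ 1 := by
      have := finrank_span_le_card (R := K) ({g} : Set F)
      simpa using this
    omega

/-- the jump is exactly one if `L(D + P) ≠ L(D)` -/
theorem finrank_rrSpace_add_single_eq (D : Divisor K F) (P : Place K F)
    (h : Module.Finite K (riemannRochSpace D)) {g : F}
    (hg : g ∈ riemannRochSpace (D + Finsupp.single P 1)) (hgD : g ∉ riemannRochSpace D) :
    Module.finrank K (riemannRochSpace (D + Finsupp.single P 1))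
      = Module.finrank K (riemannRochSpace D) + 1 := by
  refine le_antisymm (finrank_rrSpace_add_single_le hpf D P h) ?_
  haveI := finite_rrSpace_add_single hpf D P h
  have hlt : riemannRochSpace D < riemannRochSpace (D + Finsupp.single P 1) :=
    lt_of_le_of_ne (rrSpace_mono (le_add_single D P)) (fun heq => hgD (heq ▸ hg))
  exact Submodule.finrank_lt_finrank_of_lt hlt

/-- effective divisors have nonnegative degree -/
theorem degree_nonneg_of_nonneg {E : Divisor K F} (hE : 0 ≤ E) : 0 ≤ Divisor.degree E := by
  rw [degree_eq_sum_of_res hpf.res E E.support (le_refl _)]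
  exact Finset.sum_nonneg fun v _ => Finsupp.le_def.mp hE v

theorem degree_mono {D D' : Divisor K F} (h : D ≤ D') :
    Divisor.degree D ≤ Divisor.degree D' := by
  have h1 : 0 ≤ D' - D := by
    rw [Finsupp.le_def]
    intro v
    have := Finsupp.le_def.mp h v
    simp only [Finsupp.coe_zero, Pi.zero_apply, Finsupp.coe_sub, Pi.sub_apply]
    omega
  have h2 := degree_nonneg_of_nonneg hpf h1
  rw [map_sub] at h2
  omega

theorem degree_nonneg_of_mem_rrSpace {D : Divisor K F} {f : F} (hf0 : f ≠ 0)
    (hf : f ∈ riemannRochSpace D) : 0 ≤ Divisor.degree D := by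
  have h1 : 0 ≤ hpf.divOf f + D := by
    rw [Finsupp.le_def]
    intro v
    have := (mem_rrSpace_iff_of_ne_zero hf0).mp hf v
    simp only [Finsupp.coe_zero, Pi.zero_apply, Finsupp.coe_add, Pi.add_apply]
    rw [hpf.divOf_apply]
    omega
  have h2 := degree_nonneg_of_nonneg hpf h1
  rw [map_add, hpf.degree_divOf, zero_add] at h2
  exact h2

theorem rrSpace_eq_bot_of_degree_neg {D : Divisor K F} (hD : Divisor.degree D < 0) :
    riemannRochSpace D = ⊥ := by
  rw [Submodule.eq_bot_iff]
  intro f hf
  by_contra hf0
  have := degree_nonneg_of_mem_rrSpace hpf hf0 hf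
  omega

/-- induction principle: reach every `D' ≥ D` from `D` by adding one place at a time -/
theorem divisor_induction {p : Divisor K F → Prop} (D : Divisor K F) (h0 : p D)
    (hstep : ∀ (D' : Divisor K F) (P : Place K F), D ≤ D' → p D' → p (D' + Finsupp.single P 1)) :
    ∀ D' : Divisor K F, D ≤ D' → p D' := by
  have key : ∀ (m : ℕ) (D' : Divisor K F), D ≤ D' →
      Divisor.degree D' - Divisor.degree D = m → p D' := by
    intro m
    induction m with
    | zero =>
      intro D' hle hdeg
      have hEq : D' = D := by
        by_contra hne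
        have : ∃ P, D P < D' P := by
          by_contra hcon
          push Not at hcon
          apply hne
          ext v
          exact le_antisymm (hcon v) (Finsupp.le_def.mp hle v)
        obtain ⟨P, hP⟩ := this
        have h1 : D + Finsupp.single P 1 ≤ D' := by
          rw [Finsupp.le_def]
          intro v
          rw [Finsupp.add_apply]
          by_cases hv : v = P
          · subst hv
            rw [Finsupp.single_eq_same]
            omega
          · rw [Finsupp.single_eq_of_ne hv, add_zero]
            exact Finsupp.le_def.mp hle v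
        have h2 := degree_mono hpf h1
        rw [map_add, hpf.degree_single] at h2
        simp only [Nat.cast_zero] at hdeg
        omega
      rw [hEq]
      exact h0
    | succ m ih =>
      intro D' hle hdeg
      have : ∃ P, D P < D' P := by
        by_contra hcon
        push Not at hcon
        have hEq : D' = D := by
          ext v
          exact le_antisymm (hcon v) (Finsupp.le_def.mp hle v)
        rw [hEq] at hdeg
        push_cast at hdeg
        omega
      obtain ⟨P, hP⟩ := this
      have h1 : D ≤ D' - Finsupp.single P 1 := by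
        rw [Finsupp.le_def]
        intro v
        rw [Finsupp.sub_apply]
        by_cases hv : v = P
        · subst hv
          rw [Finsupp.single_eq_same]
          omega
        · rw [Finsupp.single_eq_of_ne hv, sub_zero]
          exact Finsupp.le_def.mp hle v
      have h2 : Divisor.degree (D' - Finsupp.single P 1) - Divisor.degree D = m := by
        rw [map_sub, hpf.degree_single]
        push_cast at hdeg
        omega
      have h3 := hstep _ P h1 (ih _ h1 h2)
      rwa [sub_add_cancel] at h3
  intro D' hle
  have hnn : 0 ≤ Divisor.degree D' - Divisor.degree D := by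
    have := degree_mono hpf hle
    omega
  obtain ⟨m, hm⟩ := Int.eq_ofNat_of_zero_le hnn
  exact key m D' hle hm

/-- `L(D)` is finite-dimensional -/
theorem finite_rrSpace (P₀ : Place K F) (D : Divisor K F) :
    Module.Finite K (riemannRochSpace D) := by
  set m : ℤ := max (Divisor.degree D + 1) 0 with hm
  set D₀ : Divisor K F := D - Finsupp.single P₀ m with hD₀
  have hdeg : Divisor.degree D₀ < 0 := by
    rw [hD₀, map_sub, hpf.degree_single]
    have := le_max_left (Divisor.degree D + 1) 0
    omega
  have hle : D₀ ≤ D := by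
    rw [Finsupp.le_def]
    intro v
    rw [hD₀, Finsupp.sub_apply]
    by_cases hv : v = P₀
    · subst hv
      rw [Finsupp.single_eq_same]
      have := le_max_right (Divisor.degree D + 1) 0
      omega
    · rw [Finsupp.single_eq_of_ne hv, sub_zero]
  refine divisor_induction hpf (p := fun E => Module.Finite K (riemannRochSpace E)) D₀ ?_
    (fun D' P _ h => finite_rrSpace_add_single hpf D' P h) D hle
  rw [rrSpace_eq_bot_of_degree_neg hpf hdeg]
  infer_instance

/-- `ℓ(D') - ℓ(D) ≤ deg D' - deg D` for `D ≤ D'` -/
theorem finrank_rrSpace_sub_le (P₀ : Place K F) {D D' : Divisor K F} (h : D ≤ D') :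
    (Module.finrank K (riemannRochSpace D') : ℤ) - Module.finrank K (riemannRochSpace D)
      ≤ Divisor.degree D' - Divisor.degree D := by
  refine divisor_induction hpf (p := fun E =>
    (Module.finrank K (riemannRochSpace E) : ℤ) - Module.finrank K (riemannRochSpace D)
      ≤ Divisor.degree E - Divisor.degree D) D (by simp) ?_ D' h
  intro E P _ hE
  have h1 := finrank_rrSpace_add_single_le hpf E P (finite_rrSpace hpf P₀ E)
  rw [map_add, hpf.degree_single]
  omega

/-- `ℓ(D) ≤ deg D + 1` if `deg D ≥ -1` -/
theorem finrank_rrSpace_le (P₀ : Place K F) (D : Divisor K F) (hD : -1 ≤ Divisor.degree D) :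
    (Module.finrank K (riemannRochSpace D) : ℤ) ≤ Divisor.degree D + 1 := by
  set D₀ : Divisor K F := D - Finsupp.single P₀ (Divisor.degree D + 1) with hD₀
  have hdeg : Divisor.degree D₀ < 0 := by
    rw [hD₀, map_sub, hpf.degree_single]
    omega
  have hle : D₀ ≤ D := by
    rw [Finsupp.le_def]
    intro v
    rw [hD₀, Finsupp.sub_apply]
    by_cases hv : v = P₀
    · subst hv
      rw [Finsupp.single_eq_same]
      omega
    · rw [Finsupp.single_eq_of_ne hv, sub_zero]
  have h1 := finrank_rrSpace_sub_le hpf P₀ hle
  rw [rrSpace_eq_bot_of_degree_neg hpf hdeg, finrank_bot] at h1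
  rw [hD₀, map_sub, hpf.degree_single] at h1
  push_cast at h1
  omega

/-- `f ∈ L(D + div z) ↔ z * f ∈ L(D)` -/
theorem mem_rrSpace_add_divOf {z : F} (hz : z ≠ 0) (D : Divisor K F) (f : F) :
    f ∈ riemannRochSpace (D + hpf.divOf z) ↔ z * f ∈ riemannRochSpace D := by
  by_cases hf : f = 0
  · simp [hf]
  rw [mem_rrSpace_iff_of_ne_zero hf, mem_rrSpace_iff_of_ne_zero (mul_ne_zero hz hf)]
  refine forall_congr' fun v => ?_
  rw [Finsupp.add_apply, hpf.divOf_apply, v.ord_mul hz hf]
  constructor <;> intro h <;> omega

/-- multiplication by `z` as a linear equivalence `L(D + div z) ≃ L(D)` -/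
noncomputable def rrSpaceMulEquiv {z : F} (hz : z ≠ 0) (D : Divisor K F) :
    riemannRochSpace (D + hpf.divOf z) ≃ₗ[K] riemannRochSpace D where
  toFun f := ⟨z * f.1, (mem_rrSpace_add_divOf hpf hz D f.1).mp f.2⟩
  invFun g := ⟨z⁻¹ * g.1, (mem_rrSpace_add_divOf hpf hz D _).mpr (by
    rw [← mul_assoc, mul_inv_cancel₀ hz, one_mul]
    exact g.2)⟩
  map_add' f g := by
    apply Subtype.ext
    simp [mul_add]
  map_smul' c f := by
    apply Subtype.ext
    simp
  left_inv f := by
    apply Subtype.ext
    simp [← mul_assoc, inv_mul_cancel₀ hz]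
  right_inv g := by
    apply Subtype.ext
    simp [← mul_assoc, mul_inv_cancel₀ hz]

theorem finrank_rrSpace_add_divOf {z : F} (hz : z ≠ 0) (D : Divisor K F) :
    Module.finrank K (riemannRochSpace (D + hpf.divOf z))
      = Module.finrank K (riemannRochSpace D) :=
  (rrSpaceMulEquiv hpf hz D).finrank_eq

end OneStep

section FF1

variable [IsAlgClosed K] [CharZero K] {x : F} (hx : IsFF1 K F x)
include hx

/-- a function field of one variable has a place -/
theorem IsFF1.nonempty_place : Nonempty (Place K F) := by
  by_contra hne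
  rw [not_nonempty_iff] at hne
  have h := sum_ord_zeros hx
  haveI := hx.finite
  have hpos : 0 < Module.finrank K⟮x⟯ F := Module.finrank_pos
  have h0 : (finite_zeros hx).toFinset = ∅ := by
    ext v
    exact hne.elim v
  rw [h0, Finset.sum_empty] at h
  omega

/-- a nonconstant function has a pole -/
theorem IsFF1.exists_ord_neg {f : F} (hf : Transcendental K f) :
    ∃ v : Place K F, v.ord f < 0 := by
  have hinv : IsFF1 K F f⁻¹ := (isFF1_of_transcendental hx f hf).inv
  have h := sum_ord_zeros hinv
  haveI := hinv.finite
  have hpos : 0 < Module.finrank K⟮f⁻¹⟯ F := Module.finrank_pos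
  by_contra hcon
  push Not at hcon
  have h0 : (finite_zeros hinv).toFinset = ∅ := by
    ext v
    simp only [Set.Finite.mem_toFinset, Finset.notMem_empty, iff_false]
    intro hv
    have hv' : 0 < v.ord f⁻¹ := hv
    rw [v.ord_inv] at hv'
    have := hcon v
    omega
  rw [h0, Finset.sum_empty] at h
  omega

/-- `L(0) = K` -/
theorem mem_rrSpace_zero_iff (f : F) :
    f ∈ riemannRochSpace (0 : Divisor K F) ↔ ∃ c : K, algebraMap K F c = f := by
  constructor
  · intro hf
    by_cases halg : IsAlgebraic K f
    · exact exists_algebraMap_eq_of_isAlgebraic halg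
    · exfalso
      obtain ⟨v, hv⟩ := hx.exists_ord_neg halg
      have hf0 : f ≠ 0 := by
        rintro rfl
        simp at hv
      have := (mem_rrSpace_iff_of_ne_zero hf0).mp hf v
      simp at this
      omega
  · rintro ⟨c, rfl⟩
    rw [mem_rrSpace_iff]
    intro v
    right
    rw [ord_algebraMap]
    simp

theorem finrank_rrSpace_zero :
    Module.finrank K (riemannRochSpace (0 : Divisor K F)) = 1 := by
  have h : riemannRochSpace (0 : Divisor K F) = Submodule.span K {(1 : F)} := by
    ext f
    rw [mem_rrSpace_zero_iff hx, Submodule.mem_span_singleton]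
    constructor
    · rintro ⟨c, rfl⟩
      exact ⟨c, by rw [Algebra.smul_def, mul_one]⟩
    · rintro ⟨c, rfl⟩
      exact ⟨c, by rw [Algebra.smul_def, mul_one]⟩
  rw [h]
  exact finrank_span_singleton one_ne_zero

end FF1

end Fermat.Agent.Lib.FF
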