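import Fermat.Agent.Lib.FunctionField.DWCount

/-!
# Dedekind–Weber, part 5: the trace dual of a reduced basis

Assuming the local description of the trace dual (tame different, `LocalDual`), we describe
`{h : h regular up to the different at the finite places, bounded at infinity}` in the coordinates
of the trace-dual basis of a reduced basis.
-/

set_option autoImplicit false
set_option linter.unusedSectionVars false

open AlgebraicCurve IntermediateField Polynomial Module

namespace Fermat.Agent.Lib.FF

variable {K F : Type*} [Field K] [Field F] [Algebra K F]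
variable {x : F}

/-- the trace of `F` over `K(x)`, as a function `F → F` -/
noncomputable def trX (K : Type*) {F : Type*} [Field K] [Field F] [Algebra K F] (x : F)
    (f : F) : F := ((Algebra.trace K⟮x⟯ F f : K⟮x⟯) : F)

theorem trX_mem (f : F) : trX K x f ∈ K⟮x⟯ := (Algebra.trace K⟮x⟯ F f).2

theorem trX_zero : trX K x 0 = 0 := by simp [trX]

theorem trX_add (f g : F) : trX K x (f + g) = trX K x f + trX K x g := by
  simp [trX]

theorem trX_sum {ι : Type*} (s : Finset ι) (f : ι → F) :
    trX K x (∑ i ∈ s, f i) = ∑ i ∈ s, trX K x (f i) := by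
  simp [trX]

theorem trX_mul_left {c : F} (hc : c ∈ K⟮x⟯) (f : F) : trX K x (c * f) = c * trX K x f := by
  have h1 : c * f = (⟨c, hc⟩ : K⟮x⟯) • f := by
    rw [Algebra.smul_def]; rfl
  rw [trX, h1, map_smul]
  rfl

theorem trX_congr {E E' : IntermediateField K F} (h : E = E') (f : F) :
    ((Algebra.trace E F f : E) : F) = ((Algebra.trace E' F f : E') : F) := by
  subst h; rfl

theorem trX_sub_algebraMap (a : K) (f : F) : trX K (x - algebraMap K F a) f = trX K x f :=
  trX_congr (adjoin_sub_algebraMap x a) f

theorem trX_inv (f : F) : trX K x⁻¹ f = trX K x f :=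
  trX_congr (adjoin_inv_eq x) f

theorem trX_sum_repr {ι : Type*} [Fintype ι] (β : Basis ι K⟮x⟯ F) (h w : F) :
    trX K x (h * w) = ∑ j, ((β.repr w j : K⟮x⟯) : F) * trX K x (h * β j) := by
  conv_lhs => rw [sum_repr_mul β w, Finset.mul_sum, trX_sum]
  refine Finset.sum_congr rfl fun j _ => ?_
  rw [← trX_mul_left (β.repr w j).2, mul_left_comm]

/-- The local description of the trace dual at `y = 0` (tame different). -/
def LocalDual (K : Type*) {F : Type*} [Field K] [Field F] [Algebra K F] (y : F) : Prop :=
  ∀ h : F, (∀ v : Place K F, 0 < v.ord y → h = 0 ∨ 1 - v.ord y ≤ v.ord h) ↔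
    (∀ w : F, (∀ v : Place K F, 0 < v.ord y → 0 ≤ v.ord w) →
      ∀ v : Place K F, 0 < v.ord y → 0 ≤ v.ord (trX K y (h * w)))

/-- `h` is regular up to the different at the finite places -/
def RegDual (K : Type*) {F : Type*} [Field K] [Field F] [Algebra K F] (x : F) (h : F) : Prop :=
  ∀ (v : Place K F) (a : K), 0 < v.ord (x - algebraMap K F a) →
    h = 0 ∨ 1 - v.ord (x - algebraMap K F a) ≤ v.ord h

/-- `h` has degree at most `m` at infinity, up to the different -/
def InfDual (K : Type*) {F : Type*} [Field K] [Field F] [Algebra K F] (x : F) (m : ℤ)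
    (h : F) : Prop :=
  ∀ v : Place K F, v.ord x < 0 → h = 0 ∨ (m + 1) * v.ord x + 1 ≤ v.ord h

section Facts

variable [IsAlgClosed K] [CharZero K]

/-- removing a polynomial factor of exact degree -/
theorem DegLE.of_aeval_mul (hx : IsFF1 K F x) {q : K[X]} (hq : q ≠ 0) {k : ℤ} {f : F}
    (h : DegLE K x k (Polynomial.aeval x q * f)) : DegLE K x (k - q.natDegree) f := by
  intro v hv
  by_cases hf : f = 0
  · exact Or.inl hf
  right
  have hq0 := aeval_ne_zero_of_transcendental hx.transcendental q hq
  have h1 := (h v hv).resolve_left (mul_ne_zero hq0 hf)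
  rw [v.ord_mul hq0 hf, ord_aeval_of_neg hx.transcendental v hv q hq] at h1
  linarith

/-- clearing the finite poles away from the fibre over `a` -/
theorem exists_clear_away (hx : IsFF1 K F x) (a : K) (w : F)
    (hw : ∀ v : Place K F, 0 < v.ord (x - algebraMap K F a) → 0 ≤ v.ord w) :
    ∃ q : K[X], q.eval a ≠ 0 ∧ FinReg K x (Polynomial.aeval x q * w) := by
  obtain ⟨q, hq0, hq⟩ := exists_clear hx w
  -- remove the factors `(X - a)` from `q`
  have key : ∀ n : ℕ, ∀ q : K[X], q ≠ 0 → q.natDegree ≤ n → FinReg K x (Polynomial.aeval x q * w) →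
      ∃ q' : K[X], q'.eval a ≠ 0 ∧ FinReg K x (Polynomial.aeval x q' * w) := by
    intro n
    induction n with
    | zero =>
      intro q hq0 hdeg hq
      refine ⟨q, ?_, hq⟩
      have hqC : q = C (q.coeff 0) := Polynomial.eq_C_of_natDegree_le_zero hdeg
      rw [hqC, eval_C]
      intro h0
      rw [h0, C_0] at hqC
      exact hq0 hqC
    | succ n ih =>
      intro q hq0 hdeg hq
      by_cases hqa : q.eval a = 0
      · obtain ⟨q₁, hq₁⟩ := Polynomial.dvd_iff_isRoot.mpr (show q.IsRoot a from hqa)
        have hq₁0 : q₁ ≠ 0 := by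
          rintro rfl
          rw [mul_zero] at hq₁
          exact hq0 hq₁
        have hdeg₁ : q₁.natDegree ≤ n := by
          have := congrArg Polynomial.natDegree hq₁
          rw [Polynomial.natDegree_mul (X_sub_C_ne_zero a) hq₁0, natDegree_X_sub_C] at this
          omega
        refine ih q₁ hq₁0 hdeg₁ ?_
        intro v hv
        by_cases hw0 : w = 0
        · rw [hw0, mul_zero, v.ord_zero]
        have hq₁0' := aeval_ne_zero_of_transcendental hx.transcendental q₁ hq₁0
        by_cases hva : 0 < v.ord (x - algebraMap K F a)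
        · rw [v.ord_mul hq₁0' hw0]
          exact add_nonneg (FinReg.aeval q₁ v hv) (hw v hva)
        · -- `x - a` is a unit at `v`
          have hxa0 : x - algebraMap K F a ≠ 0 := by
            intro h0
            have := congrArg (· + algebraMap K F a) h0
            simp only [sub_add_cancel, zero_add] at this
            exact hx.transcendental (this ▸ isAlgebraic_algebraMap a)
          have h1 : 0 ≤ v.ord (x - algebraMap K F a) :=
            (FinReg.self.sub (FinReg.algebraMap a)) v hv
          have h2 : v.ord (x - algebraMap K F a) = 0 := by omega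
          have h3 := hq v hv
          rw [hq₁, map_mul, map_sub, aeval_X, aeval_C, mul_assoc,
            v.ord_mul hxa0 (mul_ne_zero hq₁0' hw0), h2, zero_add] at h3
          exact h3
      · exact ⟨q, hqa, hq⟩
  exact key q.natDegree q hq0 le_rfl hq

/-- the trace dual at the finite places, from the local statements -/
theorem regDual_iff_of_localDual (hx : IsFF1 K F x)
    (hloc : ∀ a : K, LocalDual K (x - algebraMap K F a)) (h : F) :
    RegDual K x h ↔ ∀ w, FinReg K x w → FinReg K x (trX K x (h * w)) := by
  constructor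
  · intro hh w hw v hv
    obtain ⟨a, ha⟩ := exists_ord_sub_pos hx.transcendental v
      ((placeFacts_of_isFF1 hx).res v) hv
    have := ((hloc a h).mp (fun v' hv' => hh v' a hv')) w
      (fun v' hv' => hw v' (ord_nonneg_of_ord_sub_pos hv')) v ha
    rwa [trX_sub_algebraMap] at this
  · intro hh v a hv
    refine (hloc a h).mpr ?_ v hv
    intro w hw v' hv'
    obtain ⟨q, hqa, hq⟩ := exists_clear_away hx a w hw
    have h1 := hh _ hq v' (ord_nonneg_of_ord_sub_pos hv')
    have h2 : h * (Polynomial.aeval x q * w) = Polynomial.aeval x q * (h * w) := by ring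
    rw [h2, trX_mul_left (aeval_mem_adjoin x q)] at h1
    rw [trX_sub_algebraMap]
    by_cases ht : trX K x (h * w) = 0
    · rw [ht, v'.ord_zero]
    have hq0 : q ≠ 0 := by
      rintro rfl
      simp at hqa
    rw [v'.ord_mul (aeval_ne_zero_of_transcendental hx.transcendental q hq0) ht,
      ord_aeval_eq_zero_of_eval_ne_zero hv' q hqa, zero_add] at h1
    exact h1

/-- the trace dual at infinity, from the local statement -/
theorem infDual_iff_of_localDual (hx : IsFF1 K F x) (hloc : LocalDual K x⁻¹) (h : F) :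
    InfDual K x 0 h ↔ ∀ w, DegLE K x 0 w → DegLE K x 0 (trX K x (h * w)) := by
  have hinv : ∀ v : Place K F, 0 < v.ord x⁻¹ ↔ v.ord x < 0 := fun v => by
    rw [v.ord_inv]; omega
  have hdeg0 : ∀ w : F, DegLE K x 0 w ↔ ∀ v : Place K F, 0 < v.ord x⁻¹ → 0 ≤ v.ord w := by
    intro w
    constructor
    · intro hw v hv
      rcases hw v ((hinv v).mp hv) with h0 | h1
      · rw [h0, v.ord_zero]
      · rwa [zero_mul] at h1
    · intro hw v hv
      right
      rw [zero_mul]
      exact hw v ((hinv v).mpr hv)
  have hL : InfDual K x 0 h ↔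
      ∀ v : Place K F, 0 < v.ord x⁻¹ → h = 0 ∨ 1 - v.ord x⁻¹ ≤ v.ord h := by
    constructor
    · intro hh v hv
      rcases hh v ((hinv v).mp hv) with h0 | h1
      · exact Or.inl h0
      · right
        rw [v.ord_inv]
        linarith
    · intro hh v hv
      rcases hh v ((hinv v).mpr hv) with h0 | h1
      · exact Or.inl h0
      · right
        rw [v.ord_inv] at h1
        linarith
  rw [hL, hloc h]
  constructor
  · intro hh w hw
    rw [hdeg0]
    intro v hv
    have := hh w ((hdeg0 w).mp hw) v hv
    rwa [trX_inv] at this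
  · intro hh w hw v hv
    have := (hdeg0 _).mp (hh w ((hdeg0 w).mpr hw)) v hv
    rwa [trX_inv]

end Facts

section Spaces

variable [IsAlgClosed K] [CharZero K]
variable {ι : Type*} [Fintype ι] {b : Basis ι K⟮x⟯ F} {d : ι → ℕ}

/-- the space `L(m (x)_∞)` in the coordinates of a reduced basis -/
theorem mem_coordSpace_reduced (hx : IsFF1 K F x) (h : IsReducedBasis K x b d) (m : ℤ) (w : F) :
    w ∈ coordSpace b (fun i => m - d i) ↔ FinReg K x w ∧ DegLE K x m w := by
  rw [mem_coordSpace]
  constructor
  · intro hw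
    exact ⟨h.toIsGoodBasis.finReg_of_repr fun i => (hw i).2.1,
      h.toIsGoodBasis.degLE_of_repr fun i => (hw i).2.2⟩
  · rintro ⟨hreg, hdeg⟩ i
    obtain ⟨p, hp⟩ := h.repr_poly hx hreg i
    refine ⟨(b.repr w i).2, ?_, h.repr_degLE hx hreg hdeg i⟩
    rw [hp]
    exact FinReg.aeval p

/-- (c) the finite part of the dual condition, in coordinates -/
theorem regDual_iff_repr (hx : IsFF1 K F x) (h : IsReducedBasis K x b d)
    (hfin : ∀ f : F, RegDual K x f ↔ ∀ w, FinReg K x w → FinReg K x (trX K x (f * w))) (f : F) :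
    RegDual K x f ↔ ∀ i, FinReg K x (trX K x (f * b i)) := by
  rw [hfin]
  constructor
  · intro hf i
    exact hf (b i) (h.reg i)
  · intro hf w hw
    rw [trX_sum_repr b f w]
    refine FinReg.sum _ _ fun j _ => ?_
    obtain ⟨p, hp⟩ := h.repr_poly hx hw j
    rw [hp]
    exact (FinReg.aeval p).mul (hf j)

theorem infDual_zpow_mul_iff (hx : IsFF1 K F x) (m : ℤ) (f : F) :
    InfDual K x 0 (x ^ (-m) * f) ↔ InfDual K x m f := by
  have hx0 : x ≠ 0 := by
    rintro rfl
    exact hx.transcendental isAlgebraic_zero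
  have hz : x ^ (-m) ≠ 0 := zpow_ne_zero _ hx0
  constructor
  · intro hf v hv
    by_cases hf0 : f = 0
    · exact Or.inl hf0
    right
    have := (hf v hv).resolve_left (mul_ne_zero hz hf0)
    rw [v.ord_mul hz hf0, v.ord_zpow] at this
    linarith
  · intro hf v hv
    by_cases hf0 : f = 0
    · exact Or.inl (by rw [hf0, mul_zero])
    right
    have := (hf v hv).resolve_left hf0
    rw [v.ord_mul hz hf0, v.ord_zpow]
    linarith

/-- (d) the infinite part of the dual condition, in coordinates -/
theorem infDual_iff_repr (hx : IsFF1 K F x) (h : IsReducedBasis K x b d)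
    (hinf : ∀ f : F, InfDual K x 0 f ↔ ∀ w, DegLE K x 0 w → DegLE K x 0 (trX K x (f * w)))
    (m : ℤ) (f : F) :
    InfDual K x m f ↔ ∀ i, DegLE K x (m + d i) (trX K x (f * b i)) := by
  have hx0 : x ≠ 0 := by
    rintro rfl
    exact hx.transcendental isAlgebraic_zero
  have hxmem : ∀ k : ℤ, x ^ k ∈ K⟮x⟯ := fun k => zpow_mem (mem_adjoin_simple_self K x) k
  rw [← infDual_zpow_mul_iff hx, hinf]
  constructor
  · intro hf i
    have h1 : DegLE K x 0 (x ^ (-(d i : ℤ)) * b i) := by
      rw [DegLE.zpow_mul_iff hx0]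
      simpa using h.deg i
    have h2 := hf _ h1
    have h3 : x ^ (-m) * f * (x ^ (-(d i : ℤ)) * b i) = x ^ (-m - d i) * (f * b i) := by
      rw [sub_eq_add_neg, zpow_add₀ hx0]
      ring
    rw [h3, trX_mul_left (hxmem _), DegLE.zpow_mul_iff hx0] at h2
    have h4 : (0 : ℤ) - (-m - d i) = m + d i := by ring
    rwa [h4] at h2
  · intro hf w hw
    obtain ⟨q, hq0, hqreg⟩ := exists_clear hx w
    have hw₁deg : DegLE K x q.natDegree (Polynomial.aeval x q * w) := by
      have := (DegLE.aeval (K := K) (x := x) q).mul hw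
      rwa [add_zero] at this
    have hcoord := fun j => h.repr_degLE hx hqreg hw₁deg j
    have h1 : DegLE K x (q.natDegree + m) (trX K x (f * (Polynomial.aeval x q * w))) := by
      rw [trX_sum_repr b]
      refine DegLE.sum _ _ fun j _ => ?_
      have := (hcoord j).mul (hf j)
      refine this.mono ?_
      omega
    have h2 : f * (Polynomial.aeval x q * w) = Polynomial.aeval x q * (f * w) := by ring
    rw [h2, trX_mul_left (aeval_mem_adjoin x q)] at h1
    have h3 := DegLE.of_aeval_mul hx hq0 h1
    have h4 : x ^ (-m) * f * w = x ^ (-m) * (f * w) := by ring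
    rw [h4, trX_mul_left (hxmem _), DegLE.zpow_mul_iff hx0]
    refine h3.mono ?_
    omega

variable [DecidableEq ι] [FiniteDimensional K⟮x⟯ F]

theorem traceDual_repr_coe (f : F) (i : ι) :
    ((b.traceDual.repr f i : K⟮x⟯) : F) = trX K x (f * b i) := by
  rw [Basis.traceDual_repr_apply, Algebra.traceForm_apply]
  rfl

/-- the space `L(m (x)_∞ + R)` in the coordinates of the trace dual of a reduced basis -/
theorem mem_coordSpace_traceDual (hx : IsFF1 K F x) (h : IsReducedBasis K x b d)
    (hfin : ∀ f : F, RegDual K x f ↔ ∀ w, FinReg K x w → FinReg K x (trX K x (f * w)))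
    (hinf : ∀ f : F, InfDual K x 0 f ↔ ∀ w, DegLE K x 0 w → DegLE K x 0 (trX K x (f * w)))
    (m : ℤ) (f : F) :
    f ∈ coordSpace b.traceDual (fun i => m + d i) ↔ RegDual K x f ∧ InfDual K x m f := by
  rw [mem_coordSpace, regDual_iff_repr hx h hfin, infDual_iff_repr hx h hinf]
  constructor
  · intro hf
    refine ⟨fun i => ?_, fun i => ?_⟩
    · have := (hf i).2.1
      rwa [traceDual_repr_coe] at this
    · have := (hf i).2.2
      rwa [traceDual_repr_coe] at this
  · rintro ⟨h1, h2⟩ i
    rw [traceDual_repr_coe]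
    exact ⟨trX_mem _, h1 i, h2 i⟩

end Spaces

end Fermat.Agent.Lib.FF
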