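import Fermat.Agent.Lib.FunctionField.Fibre
import Fermat.Agent.Lib.FunctionField.RiemannHurwitz

/-!
# Riemann–Roch, part R5: the trace at the fibre `y = 0`

`y ∈ F` with `IsFF1 K F y`, `A₀ = K[y]`, `B` = integral closure of `A₀` in `F`, `p = (y) ⊆ A₀`.
-/

set_option autoImplicit false
set_option linter.style.haveILetI false
set_option linter.unusedSectionVars false
set_option linter.deprecated false

open AlgebraicCurve WithZero IsDedekindDomain IntermediateField
open scoped IntermediateField.algebraAdjoinAdjoin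

namespace Fermat.Agent.Lib.FF

variable {K F : Type*} [Field K] [Field F] [Algebra K F]

section Generic

variable {B : Type*} [CommRing B] [IsDedekindDomain B]
  {A : Type*} [CommRing A] [IsDedekindDomain A] [Algebra A B] [Module.IsTorsionFree A B]
  [Module.Finite A B]

/-- if `b` lies in every prime of `B` over the maximal ideal `p`, its trace lies in `p` -/
theorem intTrace_mem_of_forall_mem (p : Ideal A) [hp : p.IsMaximal] (hp0 : p ≠ ⊥) (b : B)
    (hb : ∀ P : HeightOneSpectrum B, p.map (algebraMap A B) ≤ P.asIdeal → b ∈ P.asIdeal) :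
    Algebra.intTrace A B b ∈ p := by
  have hpB0 : p.map (algebraMap A B) ≠ ⊥ := by
    rw [Ne, Ideal.map_eq_bot_iff_of_injective (FaithfulSMul.algebraMap_injective A B)]
    exact hp0
  have hrad : b ∈ (p.map (algebraMap A B)).radical := by
    rw [Ideal.radical_eq_sInf, Submodule.mem_sInf]
    rintro P ⟨hle, hP⟩
    have hP0 : P ≠ ⊥ := by
      rintro rfl
      exact hpB0 (le_bot_iff.mp hle)
    exact hb ⟨P, hP, hP0⟩ hle
  obtain ⟨n, hn⟩ := hrad
  letI := Ideal.Quotient.field p
  have hnil : IsNilpotent (Ideal.Quotient.mk (p.map (algebraMap A B)) b) := by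
    refine ⟨n, ?_⟩
    rw [← map_pow, Ideal.Quotient.eq_zero_iff_mem]
    exact hn
  have h1 := Algebra.isNilpotent_trace_of_isNilpotent (R := A ⧸ p) hnil
  rw [Algebra.trace_quotient_eq_of_isDedekindDomain] at h1
  have h2 := h1.eq_zero
  rwa [Ideal.Quotient.eq_zero_iff_mem] at h2

/-- the trace of an element which is a unit at exactly one prime over `p` does not lie in `p`
(characteristic zero, residue fields equal to the base field) -/
theorem intTrace_notMem_of_unique [Algebra K A] [Algebra K B] [IsScalarTower K A B] [CharZero K]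
    [IsAlgClosed K] [Algebra.FiniteType K B]
    (p : Ideal A) [hp : p.IsMaximal] (hp0 : p ≠ ⊥) (b : B) (P₀ : HeightOneSpectrum B)
    (hP₀ : p.map (algebraMap A B) ≤ P₀.asIdeal) (hb₀ : b ∉ P₀.asIdeal)
    (hb : ∀ P : HeightOneSpectrum B, p.map (algebraMap A B) ≤ P.asIdeal → P ≠ P₀ →
      b ∈ P.asIdeal) :
    Algebra.intTrace A B b ∉ p := by
  have hpB0 : p.map (algebraMap A B) ≠ ⊥ := by
    rw [Ne, Ideal.map_eq_bot_iff_of_injective (FaithfulSMul.algebraMap_injective A B)]
    exact hp0
  haveI := P₀.isPrime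
  obtain ⟨J, hJ1, hJ2⟩ := Ideal.eq_prime_pow_mul_coprime hpB0 P₀.asIdeal
  set e := Multiset.count P₀.asIdeal (UniqueFactorizationMonoid.normalizedFactors
    (p.map (algebraMap A B))) with he
  -- the idempotent
  have hcop : P₀.asIdeal ^ e ⊔ J = ⊤ := by
    have h1 : IsCoprime P₀.asIdeal J := Ideal.isCoprime_iff_sup_eq.mpr hJ1
    exact Ideal.isCoprime_iff_sup_eq.mp h1.pow_left
  obtain ⟨a, ha, ε, hε, haε⟩ := Submodule.mem_sup.mp (hcop ▸ Submodule.mem_top : (1 : B) ∈ _)
  have hJle : ∀ P : HeightOneSpectrum B, p.map (algebraMap A B) ≤ P.asIdeal → P ≠ P₀ →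
      J ≤ P.asIdeal := by
    intro P hP hne
    have h1 : P₀.asIdeal ^ e * J ≤ P.asIdeal := hJ2 ▸ hP
    rcases (P.isPrime.mul_le).mp h1 with h2 | h2
    · exfalso
      have h3 : P₀.asIdeal ≤ P.asIdeal := P.isPrime.le_of_pow_le h2
      have h4 := P₀.isMaximal.eq_of_le P.isPrime.ne_top h3
      exact hne (HeightOneSpectrum.ext h4.symm)
    · exact h2
  have he0 : e ≠ 0 := by
    intro h0
    rw [h0, pow_zero, Ideal.one_eq_top, Ideal.top_mul] at hJ2
    rw [hJ2] at hP₀
    have : P₀.asIdeal ⊔ J = P₀.asIdeal := sup_eq_left.mpr hP₀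
    rw [hJ1] at this
    exact P₀.isPrime.ne_top this.symm
  have haP₀ : a ∈ P₀.asIdeal := Ideal.pow_le_self he0 ha
  have hεP₀ : ε ∉ P₀.asIdeal := by
    intro h
    have : (1 : B) ∈ P₀.asIdeal := haε ▸ P₀.asIdeal.add_mem haP₀ h
    exact P₀.isPrime.ne_top ((Ideal.eq_top_iff_one _).mpr this)
  -- the residue of `b` at `P₀`
  obtain ⟨c, hc⟩ := exists_sub_algebraMap_mem (K := K) P₀ b
  have hc0 : c ≠ 0 := by
    intro h
    rw [h, map_zero, sub_zero] at hc
    exact hb₀ hc
  -- `b - c ε` lies in all primes over `p`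
  have h1 : Algebra.intTrace A B (b - algebraMap K B c * ε) ∈ p := by
    apply intTrace_mem_of_forall_mem p hp0
    intro P hP
    by_cases hPP : P = P₀
    · subst hPP
      have ha' : a = 1 - ε := by rw [← haε]; ring
      have : b - algebraMap K B c * ε = (b - algebraMap K B c) + algebraMap K B c * a := by
        rw [ha']
        ring
      rw [this]
      exact P.asIdeal.add_mem hc (P.asIdeal.mul_mem_left _ haP₀)
    · exact P.asIdeal.sub_mem (hb P hP hPP) (P.asIdeal.mul_mem_left _ (hJle P hP hPP hε))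
  -- the trace of the idempotent
  letI := Ideal.Quotient.field p
  haveI : CharZero (A ⧸ p) := by
    letI : Algebra K (A ⧸ p) := Ideal.Quotient.algebra K
    exact charZero_of_injective_algebraMap (algebraMap K (A ⧸ p)).injective
  have hidem : IsIdempotentElem (Ideal.Quotient.mk (p.map (algebraMap A B)) ε) := by
    rw [IsIdempotentElem, ← map_mul, Ideal.Quotient.eq, hJ2]
    have : ε * ε - ε = - (a * ε) := by
      have : a = 1 - ε := by rw [← haε]; ring
      rw [this]
      ring
    rw [this]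
    exact Ideal.neg_mem_iff _ |>.mpr (Ideal.mul_mem_mul ha hε)
  have hne : Ideal.Quotient.mk (p.map (algebraMap A B)) ε ≠ 0 := by
    rw [Ne, Ideal.Quotient.eq_zero_iff_mem]
    exact fun h => hεP₀ (hP₀ h)
  have h2 : Algebra.intTrace A B ε ∉ p := by
    intro hmem
    have h3 := Algebra.trace_quotient_eq_of_isDedekindDomain B p ε
    rw [Ideal.Quotient.eq_zero_iff_mem.mpr hmem] at h3
    have hidem' : IsIdempotentElem (Algebra.lmul (A ⧸ p) (B ⧸ p.map (algebraMap A B))
        (Ideal.Quotient.mk (p.map (algebraMap A B)) ε)) := hidem.map _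
    have h4 := (LinearMap.IsIdempotentElem.trace_eq_zero_iff hidem').mp h3
    apply hne
    have h5 := congrArg (fun f => f 1) h4
    simpa using h5
  -- conclusion
  intro hmem
  apply h2
  have h6 : Algebra.intTrace A B b = Algebra.intTrace A B (b - algebraMap K B c * ε)
      + algebraMap K A c * Algebra.intTrace A B ε := by
    rw [← smul_eq_mul (algebraMap K A c), ← map_smul, ← map_add]
    congr 1
    rw [Algebra.smul_def, ← IsScalarTower.algebraMap_apply]
    ring
  rw [h6] at hmem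
  have h7 : algebraMap K A c * Algebra.intTrace A B ε ∈ p := by
    have := p.sub_mem hmem h1
    simpa using this
  have h8 := p.mul_mem_left (algebraMap K A c⁻¹) h7
  rwa [← mul_assoc, ← map_mul, inv_mul_cancel₀ hc0, map_one, one_mul] at h8

end Generic

section Concrete

variable [IsAlgClosed K] [CharZero K] {y : F}

/-- an element integral over `K[y]` is regular at every place where `y` is regular -/
theorem ord_nonneg_of_isIntegral {f : F} (hf : IsIntegral (Algebra.adjoin K {y}) f)
    (Q : Place K F) (hQ : 0 ≤ Q.ord y) : 0 ≤ Q.ord f :=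
  ord_nonneg_of_mem Q (intClosure_le_of_ord_nonneg K y Q hQ ⟨f, hf⟩)

/-- R5c. an element which is regular at every place where `y` is regular is integral over
`K[y]` -/
theorem isIntegral_of_forall_ord_nonneg (hy : IsFF1 K F y) (f : F)
    (hf : ∀ Q : Place K F, 0 ≤ Q.ord y → 0 ≤ Q.ord f) :
    IsIntegral (Algebra.adjoin K {y}) f := by
  haveI := hy.finite
  haveI := isPrincipalIdealRing_adjoin K y
  haveI := isDedekindDomain_intClosure K y
  haveI := isFractionRing_intClosure K y
  by_cases hf0 : f = 0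
  · rw [hf0]
    exact isIntegral_zero
  have h := HeightOneSpectrum.mem_integers_of_valuation_le_one
    (R := integralClosure (Algebra.adjoin K {y}) F) F f (by
      intro P
      rw [← primeOrd_nonneg_iff P hf0, ← placeOfPrime_ord (K := K)]
      apply hf
      rw [placeOfPrime_ord]
      exact primeOrd_algebraMap_nonneg P
        (⟨y, (isIntegral_algebraMap (R := Algebra.adjoin K {y}) (A := F)
          (x := genAdjoin K y))⟩ : integralClosure (Algebra.adjoin K {y}) F))
  obtain ⟨b, rfl⟩ := h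
  exact b.2

/-- an element of `K[y]` outside `(y)` is a unit at every place over `y = 0` -/
theorem ord_adjoin_of_notMem (r : Algebra.adjoin K {y})
    (hr : r ∉ Ideal.span {genAdjoin K y}) (Q : Place K F) (hQ : 0 < Q.ord y) :
    (r : F) ≠ 0 ∧ Q.ord (r : F) = 0 := by
  obtain ⟨c, hc⟩ := exists_sub_mem_span_genAdjoin K y r
  have hc0 : c ≠ 0 := by
    intro h
    rw [h, map_zero, sub_zero] at hc
    exact hr hc
  rw [Ideal.mem_span_singleton] at hc
  obtain ⟨r', hr'⟩ := hc
  have hrF : (r : F) = algebraMap K F c + y * (r' : F) := by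
    have h1 : r = algebraMap K _ c + genAdjoin K y * r' := by
      rw [← hr']
      ring
    have h2 := congrArg (Subtype.val) h1
    exact h2
  have hcF : algebraMap K F c ≠ 0 := by rwa [Ne, map_eq_zero]
  by_cases h0 : y * (r' : F) = 0
  · rw [hrF, h0, add_zero]
    exact ⟨hcF, ord_algebraMap Q c⟩
  have hy0 : y ≠ 0 := left_ne_zero_of_mul h0
  have hr0 : (r' : F) ≠ 0 := right_ne_zero_of_mul h0
  have h1 : 0 ≤ Q.ord (r' : F) := ord_nonneg_of_mem Q (adjoin_le_of_ord_nonneg K y Q hQ.le r')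
  have h2 : Q.ord (algebraMap K F c) < Q.ord (y * (r' : F)) := by
    rw [ord_algebraMap, Q.ord_mul hy0 hr0]
    omega
  have h3 := ord_add_of_lt Q h2 hcF
  rw [← hrF, ord_algebraMap] at h3
  refine ⟨?_, h3⟩
  intro h
  have h4 : algebraMap K F c = -(y * (r' : F)) := by
    rw [h] at hrF
    exact eq_neg_of_add_eq_zero_left hrF.symm
  rw [h4, ord_neg] at h2
  exact lt_irrefl _ h2

/-- clearing the denominators of `h` away from `y = 0` -/
theorem exists_clear_denominator (hy : IsFF1 K F y) (h : F) :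
    ∃ (u : Algebra.adjoin K {y}) (k : ℕ), u ∉ Ideal.span {genAdjoin K y} ∧
      IsIntegral (Algebra.adjoin K {y}) ((u : F) * y ^ k * h) := by
  haveI := isPrincipalIdealRing_adjoin K y
  have halg := hy.isAlgebraic_adjoin
  obtain ⟨d, hd0, hd⟩ := (halg.isAlgebraic h).exists_integral_multiple
  have hπ : ¬ IsUnit (genAdjoin K y) := by
    intro hu
    have hmax := isMaximal_span_genAdjoin K y hy.transcendental
    exact hmax.ne_top (Ideal.span_singleton_eq_top.mpr hu)
  obtain ⟨k, u, hu, hdu⟩ := WfDvdMonoid.max_power_factor' hd0 hπ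
  refine ⟨u, k, fun hmem => hu (Ideal.mem_span_singleton.mp hmem), ?_⟩
  have : (u : F) * y ^ k * h = d • h := by
    rw [Algebra.smul_def, hdu]
    change (u : F) * y ^ k * h = ((genAdjoin K y ^ k * u : Algebra.adjoin K {y}) : F) * h
    push_cast
    change (u : F) * y ^ k * h = (y ^ k * (u : F)) * h
    ring
  rw [this]
  exact hd

/-- a prime of the integral closure containing `y` gives a place over `y = 0` -/
theorem placeOfPrime_ord_pos_of_le (hy : IsFF1 K F y)
    (hD : IsDedekindDomain (integralClosure (Algebra.adjoin K {y}) F))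
    (hFr : IsFractionRing (integralClosure (Algebra.adjoin K {y}) F) F)
    (P : HeightOneSpectrum (integralClosure (Algebra.adjoin K {y}) F))
    (hP : (Ideal.span {genAdjoin K y}).map
      (algebraMap (Algebra.adjoin K {y}) (integralClosure (Algebra.adjoin K {y}) F)) ≤ P.asIdeal) :
    0 < (placeOfPrime (K := K) P).ord y := by
  have hy0 : y ≠ 0 := by
    intro h
    apply hy.transcendental
    rw [h]
    exact isAlgebraic_zero
  have h1 : algebraMap (Algebra.adjoin K {y}) (integralClosure (Algebra.adjoin K {y}) F)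
      (genAdjoin K y) ∈ P.asIdeal :=
    hP (Ideal.mem_map_of_mem _ (Ideal.mem_span_singleton_self _))
  rw [mem_asIdeal_iff_primeOrd (F := F)] at h1
  rw [placeOfPrime_ord]
  rcases h1 with h1 | h1
  · exfalso
    have h2 := congrArg (algebraMap (integralClosure (Algebra.adjoin K {y}) F) F) h1
    rw [map_zero] at h2
    exact hy0 h2
  · exact h1

/-- R5a. If `h` has poles of order at most `e_Q - 1` at the places over `y = 0`, then its trace
to `K(y)` is regular at `y = 0`. -/
theorem trace_regular_at_zero (hy : IsFF1 K F y) (h : F)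
    (hh : ∀ Q : Place K F, 0 < Q.ord y → h = 0 ∨ 1 - Q.ord y ≤ Q.ord h) :
    ∀ Q : Place K F, 0 < Q.ord y → 0 ≤ Q.ord ((Algebra.trace K⟮y⟯ F h : K⟮y⟯) : F) := by
  haveI := hy.finite
  haveI := isPrincipalIdealRing_adjoin K y
  haveI hD := isDedekindDomain_intClosure K y
  haveI hFr := isFractionRing_intClosure K y
  haveI := finiteType_intClosure K y
  haveI := finite_intClosure K y
  haveI hmax := isMaximal_span_genAdjoin K y hy.transcendental
  intro Q hQ
  by_cases hh0 : h = 0
  · rw [hh0, map_zero]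
    simp
  have hy0 : y ≠ 0 := by
    intro h
    apply hy.transcendental
    rw [h]
    exact isAlgebraic_zero
  have hp0 : Ideal.span {genAdjoin K y} ≠ ⊥ := by
    simpa using genAdjoin_ne_zero K y hy.transcendental
  obtain ⟨u, k, hu, hint⟩ := exists_clear_denominator hy h
  have hu0 : (u : F) ≠ 0 := (ord_adjoin_of_notMem u hu Q hQ).1
  have hb_int : IsIntegral (Algebra.adjoin K {y}) (y * (u : F) * h) := by
    apply isIntegral_of_forall_ord_nonneg hy
    intro Q' hQ'
    rw [Q'.ord_mul (mul_ne_zero hy0 hu0) hh0, Q'.ord_mul hy0 hu0]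
    rcases hQ'.lt_or_eq with hpos | hzero
    · have h1 := (hh Q' hpos).resolve_left hh0
      have h2 := (ord_adjoin_of_notMem u hu Q' hpos).2
      omega
    · have h1 := ord_nonneg_of_isIntegral hint Q' hQ'
      rw [Q'.ord_mul (mul_ne_zero hu0 (pow_ne_zero k hy0)) hh0,
        Q'.ord_mul hu0 (pow_ne_zero k hy0), ← zpow_natCast, Q'.ord_zpow, ← hzero] at h1
      omega
  set b' : integralClosure (Algebra.adjoin K {y}) F := ⟨y * (u : F) * h, hb_int⟩ with hb'
  have hmem : Algebra.intTrace (Algebra.adjoin K {y}) (integralClosure (Algebra.adjoin K {y}) F) b'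
      ∈ Ideal.span {genAdjoin K y} := by
    apply intTrace_mem_of_forall_mem _ hp0
    intro P hP
    have hpos := placeOfPrime_ord_pos_of_le hy hD hFr P hP
    rw [mem_asIdeal_iff_primeOrd (F := F)]
    right
    rw [← placeOfPrime_ord (K := K)]
    change 0 < (placeOfPrime (K := K) P).ord (y * (u : F) * h)
    rw [Place.ord_mul _ (mul_ne_zero hy0 hu0) hh0, Place.ord_mul _ hy0 hu0]
    have h1 := (hh _ hpos).resolve_left hh0
    have h2 := (ord_adjoin_of_notMem u hu _ hpos).2
    omega
  obtain ⟨r, hr⟩ := Ideal.mem_span_singleton.mp hmem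
  have htr := Algebra.algebraMap_intTrace (A := Algebra.adjoin K {y}) (K := K⟮y⟯) (L := F)
    (B := integralClosure (Algebra.adjoin K {y}) F) b'
  have hlin : Algebra.trace K⟮y⟯ F (y * (u : F) * h)
      = (algebraMap (Algebra.adjoin K {y}) K⟮y⟯ (genAdjoin K y * u)) * Algebra.trace K⟮y⟯ F h := by
    have h1 : y * (u : F) * h
        = (algebraMap (Algebra.adjoin K {y}) K⟮y⟯ (genAdjoin K y * u)) • h := by
      rw [Algebra.smul_def, ← IsScalarTower.algebraMap_apply]
      rfl
    rw [h1, map_smul, smul_eq_mul]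
  have hb'F : algebraMap (integralClosure (Algebra.adjoin K {y}) F) F b' = y * (u : F) * h := rfl
  rw [hb'F, hlin, hr, map_mul, map_mul, mul_assoc] at htr
  have hπ0 : algebraMap (Algebra.adjoin K {y}) K⟮y⟯ (genAdjoin K y) ≠ 0 := by
    rw [Ne, map_eq_zero_iff _ (IsFractionRing.injective (Algebra.adjoin K {y}) K⟮y⟯)]
    exact genAdjoin_ne_zero K y hy.transcendental
  have hkey := mul_left_cancel₀ hπ0 htr
  -- `r = u * Tr h` in `K(y)`
  have hkeyF : (r : F) = (u : F) * ((Algebra.trace K⟮y⟯ F h : K⟮y⟯) : F) := by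
    have := congrArg (algebraMap K⟮y⟯ F) hkey
    rw [map_mul, ← IsScalarTower.algebraMap_apply, ← IsScalarTower.algebraMap_apply] at this
    exact this
  by_cases ht0 : ((Algebra.trace K⟮y⟯ F h : K⟮y⟯) : F) = 0
  · rw [ht0]
    simp
  have h3 : 0 ≤ Q.ord (r : F) := ord_nonneg_of_mem Q (adjoin_le_of_ord_nonneg K y Q hQ.le r)
  rw [hkeyF, Q.ord_mul hu0 ht0, (ord_adjoin_of_notMem u hu Q hQ).2] at h3
  omega

/-- R5b. If `g` is regular at the places over `y = 0`, a unit at exactly one of them and zero at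
the others, then its trace to `K(y)` is a unit at `y = 0`. -/
theorem trace_ord_eq_zero (hy : IsFF1 K F y) (g : F) (Q₀ : Place K F) (hQ₀ : 0 < Q₀.ord y)
    (hg0 : g ≠ 0) (hg₀ : Q₀.ord g = 0)
    (hg : ∀ Q : Place K F, 0 < Q.ord y → Q ≠ Q₀ → 0 < Q.ord g) :
    Algebra.trace K⟮y⟯ F g ≠ 0 ∧
      ∀ Q : Place K F, 0 < Q.ord y → Q.ord ((Algebra.trace K⟮y⟯ F g : K⟮y⟯) : F) = 0 := by
  haveI := hy.finite
  haveI := isPrincipalIdealRing_adjoin K y
  haveI hD := isDedekindDomain_intClosure K y
  haveI hFr := isFractionRing_intClosure K y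
  haveI := finiteType_intClosure K y
  haveI := finite_intClosure K y
  haveI hmax := isMaximal_span_genAdjoin K y hy.transcendental
  have hy0 : y ≠ 0 := by
    intro h
    apply hy.transcendental
    rw [h]
    exact isAlgebraic_zero
  have hp0 : Ideal.span {genAdjoin K y} ≠ ⊥ := by
    simpa using genAdjoin_ne_zero K y hy.transcendental
  obtain ⟨u, k, hu, hint⟩ := exists_clear_denominator hy g
  have hu0 : (u : F) ≠ 0 := (ord_adjoin_of_notMem u hu Q₀ hQ₀).1
  have hgnn : ∀ Q : Place K F, 0 < Q.ord y → 0 ≤ Q.ord g := by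
    intro Q hQ
    by_cases hQQ : Q = Q₀
    · rw [hQQ, hg₀]
    · exact (hg Q hQ hQQ).le
  have hb_int : IsIntegral (Algebra.adjoin K {y}) ((u : F) * g) := by
    apply isIntegral_of_forall_ord_nonneg hy
    intro Q' hQ'
    rw [Q'.ord_mul hu0 hg0]
    rcases hQ'.lt_or_eq with hpos | hzero
    · have h1 := hgnn Q' hpos
      have h2 := (ord_adjoin_of_notMem u hu Q' hpos).2
      omega
    · have h1 := ord_nonneg_of_isIntegral hint Q' hQ'
      rw [Q'.ord_mul (mul_ne_zero hu0 (pow_ne_zero k hy0)) hg0,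
        Q'.ord_mul hu0 (pow_ne_zero k hy0), ← zpow_natCast, Q'.ord_zpow, ← hzero] at h1
      omega
  set b' : integralClosure (Algebra.adjoin K {y}) F := ⟨(u : F) * g, hb_int⟩ with hb'
  -- the prime of `Q₀`
  obtain ⟨P₀, hP₀⟩ := exists_prime_of_place (K := K)
    (B := integralClosure (Algebra.adjoin K {y}) F) Q₀
    (intClosure_le_of_ord_nonneg K y Q₀ hQ₀.le)
  have hP₀le : (Ideal.span {genAdjoin K y}).map
      (algebraMap (Algebra.adjoin K {y}) (integralClosure (Algebra.adjoin K {y}) F))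
        ≤ P₀.asIdeal := by
    rw [Ideal.map_span, Set.image_singleton, Ideal.span_singleton_le_iff_mem,
      mem_asIdeal_iff_primeOrd (F := F)]
    right
    rw [← placeOfPrime_ord (K := K), hP₀]
    exact hQ₀
  have hnot : Algebra.intTrace (Algebra.adjoin K {y}) (integralClosure (Algebra.adjoin K {y}) F) b'
      ∉ Ideal.span {genAdjoin K y} := by
    apply intTrace_notMem_of_unique (K := K) _ hp0 b' P₀ hP₀le
    · rw [mem_asIdeal_iff_primeOrd (F := F), not_or]
      refine ⟨?_, ?_⟩
      · intro h0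
        have := congrArg (algebraMap (integralClosure (Algebra.adjoin K {y}) F) F) h0
        rw [map_zero] at this
        exact (mul_ne_zero hu0 hg0) this
      · rw [← placeOfPrime_ord (K := K), hP₀]
        change ¬ 0 < Q₀.ord ((u : F) * g)
        rw [Q₀.ord_mul hu0 hg0, hg₀, (ord_adjoin_of_notMem u hu Q₀ hQ₀).2]
        omega
    · intro P hP hne
      have hpos := placeOfPrime_ord_pos_of_le hy hD hFr P hP
      have hneQ : placeOfPrime (K := K) P ≠ Q₀ := by
        intro h
        apply hne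
        apply placeOfPrime_injective (K := K) (F := F)
        rw [h, hP₀]
      rw [mem_asIdeal_iff_primeOrd (F := F)]
      right
      rw [← placeOfPrime_ord (K := K)]
      change 0 < (placeOfPrime (K := K) P).ord ((u : F) * g)
      rw [Place.ord_mul _ hu0 hg0, (ord_adjoin_of_notMem u hu _ hpos).2]
      have := hg _ hpos hneQ
      omega
  have htr := Algebra.algebraMap_intTrace (A := Algebra.adjoin K {y}) (K := K⟮y⟯) (L := F)
    (B := integralClosure (Algebra.adjoin K {y}) F) b'
  have hlin : Algebra.trace K⟮y⟯ F ((u : F) * g)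
      = (algebraMap (Algebra.adjoin K {y}) K⟮y⟯ u) * Algebra.trace K⟮y⟯ F g := by
    have h1 : (u : F) * g = (algebraMap (Algebra.adjoin K {y}) K⟮y⟯ u) • g := by
      rw [Algebra.smul_def, ← IsScalarTower.algebraMap_apply]
      rfl
    rw [h1, map_smul, smul_eq_mul]
  have hb'F : algebraMap (integralClosure (Algebra.adjoin K {y}) F) F b' = (u : F) * g := rfl
  rw [hb'F, hlin] at htr
  set r := Algebra.intTrace (Algebra.adjoin K {y}) (integralClosure (Algebra.adjoin K {y}) F) b'
    with hr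
  have hkeyF : (r : F) = (u : F) * ((Algebra.trace K⟮y⟯ F g : K⟮y⟯) : F) := by
    have := congrArg (algebraMap K⟮y⟯ F) htr
    rw [map_mul, ← IsScalarTower.algebraMap_apply, ← IsScalarTower.algebraMap_apply] at this
    exact this
  have hr0 : (r : F) ≠ 0 := (ord_adjoin_of_notMem r hnot Q₀ hQ₀).1
  have ht0 : ((Algebra.trace K⟮y⟯ F g : K⟮y⟯) : F) ≠ 0 := by
    intro h
    rw [h, mul_zero] at hkeyF
    exact hr0 hkeyF
  refine ⟨fun h => ht0 (by rw [h]; rfl), ?_⟩
  intro Q hQ
  have h3 := (ord_adjoin_of_notMem r hnot Q hQ).2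
  rw [hkeyF, Q.ord_mul hu0 ht0, (ord_adjoin_of_notMem u hu Q hQ).2] at h3
  omega

/-- R5d. an element of `K(y)` which is regular at every place where `y` is regular lies in
`K[y]` -/
theorem mem_adjoin_of_forall_ord_nonneg (hy : IsFF1 K F y) (r : K⟮y⟯)
    (hr : ∀ Q : Place K F, 0 ≤ Q.ord y → 0 ≤ Q.ord (r : F)) :
    ∃ p : Algebra.adjoin K {y}, algebraMap (Algebra.adjoin K {y}) K⟮y⟯ p = r := by
  haveI := isPrincipalIdealRing_adjoin K y
  have h1 : IsIntegral (Algebra.adjoin K {y}) (r : F) := isIntegral_of_forall_ord_nonneg hy _ hr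
  have h2 : IsIntegral (Algebra.adjoin K {y}) r := by
    have h3 : (r : F) = algebraMap K⟮y⟯ F r := rfl
    rw [h3] at h1
    exact (isIntegral_algebraMap_iff (algebraMap K⟮y⟯ F).injective).mp h1
  exact (IsIntegrallyClosed.isIntegral_iff (R := Algebra.adjoin K {y}) (K := K⟮y⟯)).mp h2

/-- the trace does not depend on the name of the base field -/
theorem trace_coe_eq_of_eq {E₁ E₂ : IntermediateField K F} (h : E₁ = E₂) (f : F) :
    ((Algebra.trace E₁ F f : E₁) : F) = ((Algebra.trace E₂ F f : E₂) : F) := by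
  subst h
  rfl

/-- R5a at `y = a`. -/
theorem trace_regular_at (hy : IsFF1 K F y) (a : K) (h : F)
    (hh : ∀ Q : Place K F, 0 < Q.ord (y - algebraMap K F a) →
      h = 0 ∨ 1 - Q.ord (y - algebraMap K F a) ≤ Q.ord h) :
    ∀ Q : Place K F, 0 < Q.ord (y - algebraMap K F a) →
      0 ≤ Q.ord ((Algebra.trace K⟮y⟯ F h : K⟮y⟯) : F) := by
  intro Q hQ
  have hy' : IsFF1 K F (y - algebraMap K F a) :=
    isFF1_of_transcendental hy _ (transcendental_sub_algebraMap hy.transcendental a)
  have := trace_regular_at_zero hy' h hh Q hQ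
  rwa [trace_coe_eq_of_eq (adjoin_sub_algebraMap y a)] at this

/-- R5a at `y = ∞`. -/
theorem trace_regular_at_infty (hy : IsFF1 K F y) (h : F)
    (hh : ∀ Q : Place K F, Q.ord y < 0 → h = 0 ∨ 1 + Q.ord y ≤ Q.ord h) :
    ∀ Q : Place K F, Q.ord y < 0 → 0 ≤ Q.ord ((Algebra.trace K⟮y⟯ F h : K⟮y⟯) : F) := by
  intro Q hQ
  have hy' : IsFF1 K F y⁻¹ := hy.inv
  have := trace_regular_at_zero hy' h (fun Q' hQ' => by
    rw [Q'.ord_inv] at hQ' ⊢
    have := hh Q' (by omega)
    rcases this with h0 | h1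
    · exact Or.inl h0
    · right
      omega) Q (by rw [Q.ord_inv]; omega)
  rwa [trace_coe_eq_of_eq (adjoin_inv_eq y)] at this

/-- R5b at `y = a`. -/
theorem trace_ord_eq_zero_at (hy : IsFF1 K F y) (a : K) (g : F) (Q₀ : Place K F)
    (hQ₀ : 0 < Q₀.ord (y - algebraMap K F a)) (hg0 : g ≠ 0) (hg₀ : Q₀.ord g = 0)
    (hg : ∀ Q : Place K F, 0 < Q.ord (y - algebraMap K F a) → Q ≠ Q₀ → 0 < Q.ord g) :
    Algebra.trace K⟮y⟯ F g ≠ 0 ∧ ∀ Q : Place K F, 0 < Q.ord (y - algebraMap K F a) →
      Q.ord ((Algebra.trace K⟮y⟯ F g : K⟮y⟯) : F) = 0 := by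
  have hy' : IsFF1 K F (y - algebraMap K F a) :=
    isFF1_of_transcendental hy _ (transcendental_sub_algebraMap hy.transcendental a)
  obtain ⟨h1, h2⟩ := trace_ord_eq_zero hy' g Q₀ hQ₀ hg0 hg₀ hg
  have hcoe := trace_coe_eq_of_eq (adjoin_sub_algebraMap y a) g
  refine ⟨?_, ?_⟩
  · intro h0
    apply h1
    apply Subtype.ext
    rw [hcoe, h0]
    rfl
  · intro Q hQ
    rw [← hcoe]
    exact h2 Q hQ

/-- R5b at `y = ∞`. -/
theorem trace_ord_eq_zero_at_infty (hy : IsFF1 K F y) (g : F) (Q₀ : Place K F)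
    (hQ₀ : Q₀.ord y < 0) (hg0 : g ≠ 0) (hg₀ : Q₀.ord g = 0)
    (hg : ∀ Q : Place K F, Q.ord y < 0 → Q ≠ Q₀ → 0 < Q.ord g) :
    Algebra.trace K⟮y⟯ F g ≠ 0 ∧ ∀ Q : Place K F, Q.ord y < 0 →
      Q.ord ((Algebra.trace K⟮y⟯ F g : K⟮y⟯) : F) = 0 := by
  have hy' : IsFF1 K F y⁻¹ := hy.inv
  have hQ₀' : 0 < Q₀.ord y⁻¹ := by
    rw [Q₀.ord_inv]
    omega
  have hg' : ∀ Q : Place K F, 0 < Q.ord y⁻¹ → Q ≠ Q₀ → 0 < Q.ord g := by
    intro Q hQ hne
    rw [Q.ord_inv] at hQ
    exact hg Q (by omega) hne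
  obtain ⟨h1, h2⟩ := trace_ord_eq_zero hy' g Q₀ hQ₀' hg0 hg₀ hg'
  have hcoe := trace_coe_eq_of_eq (adjoin_inv_eq (K := K) y) g
  refine ⟨?_, ?_⟩
  · intro h0
    apply h1
    apply Subtype.ext
    rw [hcoe, h0]
    rfl
  · intro Q hQ
    rw [← hcoe]
    exact h2 Q (by rw [Q.ord_inv]; omega)

end Concrete

end Fermat.Agent.Lib.FF
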