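import Fermat.Agent.Lib.FunctionField.DWMain

/-!
# Dedekind–Weber, part 7: `ℓ(K) = g` for every canonical divisor

`2 ℓ(div ω) = deg div(ω) + 2` for every nonzero differential `ω`, hence
`ℓ(div ω) = genus` (the prelude genus, defined by `deg K = 2g - 2`).
Everything is conditional on the local description of the trace dual (`LocalDual`).
-/

set_option autoImplicit false
set_option linter.unusedSectionVars false

open AlgebraicCurve IntermediateField Polynomial Module KaehlerDifferential

namespace Fermat.Agent.Lib.FF

variable {K F : Type*} [Field K] [Field F] [Algebra K F] [IsAlgClosed K] [CharZero K]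
variable {x : F}

/-- `2 ℓ(div ω) = deg div(ω) + 2` for every nonzero differential. -/
theorem two_mul_finrank_rrSpace_canonical (hx : IsFF1 K F x)
    (hloc : ∀ y : F, IsFF1 K F y → LocalDual K y)
    (ω : Ω[F⁄K]) (hω : ω ≠ 0) (W : Divisor K F)
    (hW : ∀ v : Place K F, W v = v.ordDifferential ω) :
    2 * (Module.finrank K (riemannRochSpace W) : ℤ) = Divisor.degree W + 2 := by
  have hpf := placeFacts_of_isFF1 hx
  obtain ⟨c, hc⟩ := exists_eq_smul_D hx ω
  have hc0 : c ≠ 0 := by
    rintro rfl
    exact hω (by rw [hc, zero_smul])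
  have hdx := D_ne_zero hx
  set Wx : Divisor K F := W - hpf.divOf c with hWx
  have hWx' : ∀ v : Place K F, Wx v = v.ordDifferential (D K F x) := by
    intro v
    rw [hWx, Finsupp.sub_apply, hW, hpf.divOf_apply, hc,
      ordDifferential_smul' hx v c hc0 _ hdx]
    ring
  have hWeq : W = Wx + hpf.divOf c := by rw [hWx, sub_add_cancel]
  have h1 := two_mul_finrank_canonical_dx hx hloc Wx hWx'
  rw [hWeq, finrank_rrSpace_add_divOf hpf hc0, map_add, hpf.degree_divOf, add_zero]
  exact h1

/-- `ℓ(K) = g`: the Riemann–Roch space of a canonical divisor has dimension the genus. -/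
theorem finrank_rrSpace_canonical_eq_genus (hx : IsFF1 K F x)
    (hloc : ∀ y : F, IsFF1 K F y → LocalDual K y)
    [HasCanonicalDivisor (K := K) (F := F)]
    (ω : Ω[F⁄K]) (hω : ω ≠ 0) (W : Divisor K F)
    (hW : ∀ v : Place K F, W v = v.ordDifferential ω) :
    Module.finrank K (riemannRochSpace W) = genus K F := by
  have hpf := placeFacts_of_isFF1 hx
  have hex : ∃ ω : Ω[F⁄K], ω ≠ 0 := ⟨ω, hω⟩
  have h1 := two_mul_finrank_rrSpace_canonical hx hloc ω hω W hW
  have h2 := two_mul_finrank_rrSpace_canonical hx hloc hex.choose hex.choose_spec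
    (canonicalDivisorOf hex.choose_spec) (fun v => canonicalDivisorOf_apply hex.choose_spec v)
  -- the two canonical divisors have the same degree
  obtain ⟨c, hc⟩ := exists_eq_smul_D hx ω
  obtain ⟨c', hc'⟩ := exists_eq_smul_D hx hex.choose
  have hc0 : c ≠ 0 := by
    rintro rfl
    exact hω (by rw [hc, zero_smul])
  have hc0' : c' ≠ 0 := by
    rintro rfl
    exact hex.choose_spec (by rw [hc', zero_smul])
  have hdx := D_ne_zero hx
  have hdeg : Divisor.degree W = Divisor.degree (canonicalDivisorOf hex.choose_spec) := by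
    have heq : W = canonicalDivisorOf hex.choose_spec + hpf.divOf c - hpf.divOf c' := by
      ext v
      rw [Finsupp.sub_apply, Finsupp.add_apply, hW, canonicalDivisorOf_apply, hpf.divOf_apply,
        hpf.divOf_apply]
      conv_lhs => rw [hc, ordDifferential_smul' hx v c hc0 _ hdx]
      conv_rhs => rw [hc', ordDifferential_smul' hx v c' hc0' _ hdx]
      ring
    rw [heq, map_sub, map_add, hpf.degree_divOf, hpf.degree_divOf]
    ring
  unfold genus
  rw [dif_pos hex]
  have h3 : Divisor.degree (canonicalDivisorOf hex.choose_spec) + 2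
      = 2 * (Module.finrank K (riemannRochSpace W) : ℤ) := by
    rw [← hdeg, h1]
  rw [h3]
  have : (2 * (Module.finrank K (riemannRochSpace W) : ℤ)).toNat
      = 2 * Module.finrank K (riemannRochSpace W) := by omega
  rw [this]
  omega

end Fermat.Agent.Lib.FF
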