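import Fermat.Agent.Lib.FunctionField.DWDual
import Fermat.Agent.Lib.FunctionField.RRSpace

/-!
# Dedekind–Weber, part 6: `2 ℓ(div dx) = deg div(dx) + 2`

Assembly of the reduced basis, its trace dual and the counting argument.
-/

set_option autoImplicit false
set_option linter.unusedSectionVars false

open AlgebraicCurve IntermediateField Polynomial Module KaehlerDifferential

namespace Fermat.Agent.Lib.FF

variable {K F : Type*} [Field K] [Field F] [Algebra K F]
variable {x : F}

/-- the polar divisor `(x)_∞` -/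
noncomputable def PlaceFacts.poleDiv (hpf : PlaceFacts K F) (x : F) : Divisor K F :=
  (hpf.divOf x).mapRange (fun n : ℤ => max (-n) 0) (by simp)

theorem PlaceFacts.poleDiv_apply (hpf : PlaceFacts K F) (x : F) (v : Place K F) :
    hpf.poleDiv x v = max (- v.ord x) 0 := by
  rw [PlaceFacts.poleDiv, Finsupp.mapRange_apply, hpf.divOf_apply]

theorem PlaceFacts.poleDiv_of_neg (hpf : PlaceFacts K F) {x : F} {v : Place K F}
    (hv : v.ord x < 0) : hpf.poleDiv x v = - v.ord x := by
  rw [hpf.poleDiv_apply, max_eq_left (by omega)]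

theorem PlaceFacts.poleDiv_of_nonneg (hpf : PlaceFacts K F) {x : F} {v : Place K F}
    (hv : 0 ≤ v.ord x) : hpf.poleDiv x v = 0 := by
  rw [hpf.poleDiv_apply, max_eq_right (by omega)]

theorem PlaceFacts.degree_poleDiv (hpf : PlaceFacts K F) (hx : Transcendental K x) :
    Divisor.degree (hpf.poleDiv x) = (Module.finrank K⟮x⟯ F : ℤ) := by
  classical
  have hsupp : (hpf.poleDiv x).support ⊆ hpf.pol hx := by
    intro v hv
    rw [Finsupp.mem_support_iff] at hv
    rw [hpf.mem_pol hx]
    by_contra hneg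
    exact hv (hpf.poleDiv_of_nonneg (not_lt.mp hneg))
  rw [degree_eq_sum_of_res hpf.res _ _ hsupp]
  have h1 : ∑ v ∈ hpf.pol hx, hpf.poleDiv x v = ∑ v ∈ hpf.pol hx, - v.ord x :=
    Finset.sum_congr rfl fun v hv => hpf.poleDiv_of_neg ((hpf.mem_pol hx).mp hv)
  rw [h1, Finset.sum_neg_distrib, hpf.sum_pol hx, neg_neg]

section Spaces

variable [IsAlgClosed K] [CharZero K]
variable {ι : Type*} [Fintype ι] {b : Basis ι K⟮x⟯ F} {d : ι → ℕ}

/-- `L(m (x)_∞)` in coordinates -/
theorem rrSpace_smul_poleDiv (hx : IsFF1 K F x) (hpf : PlaceFacts K F)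
    (h : IsReducedBasis K x b d) (m : ℤ) :
    riemannRochSpace (m • hpf.poleDiv x) = coordSpace b (fun i => m - d i) := by
  ext w
  rw [mem_coordSpace_reduced hx h, mem_rrSpace_iff]
  constructor
  · intro hw
    refine ⟨fun v hv => ?_, fun v hv => ?_⟩
    · rcases hw v with h0 | h1
      · rw [h0, v.ord_zero]
      · rw [Finsupp.smul_apply, hpf.poleDiv_of_nonneg hv] at h1
        simpa using h1
    · rcases hw v with h0 | h1
      · exact Or.inl h0
      · right
        rw [Finsupp.smul_apply, hpf.poleDiv_of_neg hv, smul_eq_mul] at h1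
        linarith
  · rintro ⟨hreg, hdeg⟩ v
    by_cases hv : 0 ≤ v.ord x
    · right
      rw [Finsupp.smul_apply, hpf.poleDiv_of_nonneg hv]
      simpa using hreg v hv
    · push Not at hv
      rcases hdeg v hv with h0 | h1
      · exact Or.inl h0
      · right
        rw [Finsupp.smul_apply, hpf.poleDiv_of_neg hv, smul_eq_mul]
        linarith

variable [DecidableEq ι] [FiniteDimensional K⟮x⟯ F]

/-- `L(div(dx) + (m+2) (x)_∞)` in coordinates -/
theorem rrSpace_canonical_add (hx : IsFF1 K F x) (hpf : PlaceFacts K F)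
    (h : IsReducedBasis K x b d)
    (hloc : ∀ y : F, IsFF1 K F y → LocalDual K y)
    (W : Divisor K F) (hW : ∀ v : Place K F, W v = v.ordDifferential (D K F x)) (m : ℤ) :
    riemannRochSpace (W + (m + 2) • hpf.poleDiv x) = coordSpace b.traceDual (fun i => m + d i) := by
  have hfin := regDual_iff_of_localDual hx (fun a => hloc _
    (isFF1_of_transcendental hx _ (transcendental_sub_algebraMap hx.transcendental a)))
  have hinf := infDual_iff_of_localDual hx (hloc _ hx.inv)
  ext f
  rw [mem_coordSpace_traceDual hx h hfin hinf, mem_rrSpace_iff]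
  constructor
  · intro hf
    refine ⟨fun v a hva => ?_, fun v hv => ?_⟩
    · rcases hf v with h0 | h1
      · exact Or.inl h0
      · right
        have hv := ord_nonneg_of_ord_sub_pos hva
        rw [Finsupp.add_apply, Finsupp.smul_apply, hpf.poleDiv_of_nonneg hv, hW,
          ordDifferential_dx_of_fibre hx v (hpf.res v) a hva] at h1
        simp only [smul_zero, add_zero] at h1
        linarith
    · rcases hf v with h0 | h1
      · exact Or.inl h0
      · right
        rw [Finsupp.add_apply, Finsupp.smul_apply, hpf.poleDiv_of_neg hv, hW,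
          ordDifferential_dx_of_pole hx v (hpf.res v) hv, smul_eq_mul] at h1
        linarith
  · rintro ⟨hreg, hinfd⟩ v
    by_cases hv : 0 ≤ v.ord x
    · obtain ⟨a, hva⟩ := exists_ord_sub_pos hx.transcendental v (hpf.res v) hv
      rcases hreg v a hva with h0 | h1
      · exact Or.inl h0
      · right
        rw [Finsupp.add_apply, Finsupp.smul_apply, hpf.poleDiv_of_nonneg hv, hW,
          ordDifferential_dx_of_fibre hx v (hpf.res v) a hva]
        simp only [smul_zero, add_zero]
        linarith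
    · push Not at hv
      rcases hinfd v hv with h0 | h1
      · exact Or.inl h0
      · right
        rw [Finsupp.add_apply, Finsupp.smul_apply, hpf.poleDiv_of_neg hv, hW,
          ordDifferential_dx_of_pole hx v (hpf.res v) hv, smul_eq_mul]
        linarith

end Spaces

section Final

variable [IsAlgClosed K] [CharZero K]

/-- a polynomial in `x` vanishing to prescribed orders at the finite places -/
theorem exists_poly_ord_ge (hx : IsFF1 K F x) (W : Divisor K F) :
    ∃ q : K[X], q ≠ 0 ∧ ∀ v : Place K F, 0 ≤ v.ord x → W v ≤ v.ord (Polynomial.aeval x q) := by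
  classical
  have hpf := placeFacts_of_isFF1 hx
  let fac : Place K F → K[X] := fun v =>
    if h : 0 ≤ v.ord x then
      (X - C (exists_ord_sub_pos hx.transcendental v (hpf.res v) h).choose) ^ (W v).toNat
    else 1
  have hfac0 : ∀ v, fac v ≠ 0 := by
    intro v
    simp only [fac]
    split_ifs
    · exact pow_ne_zero _ (X_sub_C_ne_zero _)
    · exact one_ne_zero
  have hq0 : (∏ v ∈ W.support, fac v) ≠ 0 := Finset.prod_ne_zero_iff.mpr fun v _ => hfac0 v
  refine ⟨∏ v ∈ W.support, fac v, hq0, ?_⟩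
  intro w hw
  set q := ∏ v ∈ W.support, fac v with hq
  have hqreg : 0 ≤ w.ord (Polynomial.aeval x q) := FinReg.aeval q w hw
  by_cases hWw : W w ≤ 0
  · exact hWw.trans hqreg
  push Not at hWw
  have hmem : w ∈ W.support := by
    rw [Finsupp.mem_support_iff]; omega
  obtain ⟨r, hr⟩ := Finset.dvd_prod_of_mem fac hmem
  have hr0 : r ≠ 0 := by
    rintro rfl
    rw [mul_zero] at hr
    exact hq0 hr
  have hqr : Polynomial.aeval x q = Polynomial.aeval x (fac w) * Polynomial.aeval x r := by
    rw [hq, hr, map_mul]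
  have hfw : fac w = (X - C (exists_ord_sub_pos hx.transcendental w (hpf.res w) hw).choose) ^
      (W w).toNat := by
    simp only [fac, dif_pos hw]
  have ha := (exists_ord_sub_pos hx.transcendental w (hpf.res w) hw).choose_spec
  set a := (exists_ord_sub_pos hx.transcendental w (hpf.res w) hw).choose with hadef
  have h1 : w.ord (Polynomial.aeval x (fac w)) = ((W w).toNat : ℤ) *
      w.ord (x - algebraMap K F a) := by
    rw [hfw, map_pow, map_sub, aeval_X, aeval_C, ← zpow_natCast, w.ord_zpow]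
  have h2 : 0 ≤ w.ord (Polynomial.aeval x r) := FinReg.aeval r w hw
  have h3 : Polynomial.aeval x (fac w) ≠ 0 :=
    aeval_ne_zero_of_transcendental hx.transcendental _ (hfac0 w)
  have h4 : Polynomial.aeval x r ≠ 0 :=
    aeval_ne_zero_of_transcendental hx.transcendental _ hr0
  rw [hqr, w.ord_mul h3 h4, h1]
  have h5 : W w ≤ ((W w).toNat : ℤ) := Int.self_le_toNat _
  have h6 : (0 : ℤ) ≤ ((W w).toNat : ℤ) := Int.natCast_nonneg _
  have h7 : ((W w).toNat : ℤ) * 1 ≤ ((W w).toNat : ℤ) *
      w.ord (x - algebraMap K F a) := mul_le_mul_of_nonneg_left (by omega) h6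
  linarith

theorem sum_toNat_cast {ι : Type*} [Fintype ι] (k : ι → ℤ) (hk : ∀ i, 0 ≤ k i) :
    ((∑ i, (k i).toNat : ℕ) : ℤ) = ∑ i, k i := by
  push_cast
  exact Finset.sum_congr rfl fun i _ => Int.toNat_of_nonneg (hk i)

theorem two_mul_finrank_canonical_dx_aux (hx : IsFF1 K F x)
    (hloc : ∀ y : F, IsFF1 K F y → LocalDual K y)
    (W : Divisor K F) (hW : ∀ v : Place K F, W v = v.ordDifferential (D K F x))
    {ι : Type*} [Fintype ι] [DecidableEq ι] (b : Basis ι K⟮x⟯ F) (d : ι → ℕ)
    (hred : IsReducedBasis K x b d) :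
    2 * (Module.finrank K (riemannRochSpace W) : ℤ) = Divisor.degree W + 2 := by
  have hpf := placeFacts_of_isFF1 hx
  haveI := hx.finite
  obtain ⟨P₀, -⟩ := exists_pole hx
  obtain ⟨n, hn⟩ : ∃ n : ℕ, n = Fintype.card ι := ⟨_, rfl⟩
  have hnrank : Module.finrank K⟮x⟯ F = n := by
    rw [hn]; exact Module.finrank_eq_card_basis b
  set P := hpf.poleDiv x with hP
  have hdegP : Divisor.degree P = (n : ℤ) := by
    rw [hP, hpf.degree_poleDiv hx.transcendental, hnrank]
  obtain ⟨M, hM⟩ : ∃ M : ℕ, M = ∑ i, d i := ⟨_, rfl⟩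
  have hdM : ∀ i, d i ≤ M := fun i => by
    rw [hM]
    exact Finset.single_le_sum (f := d) (fun _ _ => Nat.zero_le _) (Finset.mem_univ i)
  have hMcast : ((M : ℕ) : ℤ) = ∑ i, (d i : ℤ) := by rw [hM]; push_cast; rfl
  have hcard : (∑ _i : ι, (1 : ℤ)) = n := by simp [hn]
  -- dimension of `L(m P)` for `m ≥ M`
  have hLB : ∀ m : ℕ, M ≤ m →
      (Module.finrank K (riemannRochSpace ((m : ℤ) • P)) : ℤ) = n * (m + 1) - M := by
    intro m hm
    rw [hP, rrSpace_smul_poleDiv hx hpf hred, finrank_coordSpace _ _ hx,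
      sum_toNat_cast _ (fun i => by have := hdM i; omega)]
    have h1 : ∑ i : ι, ((m : ℤ) - d i + 1) = (m + 1) * ∑ _i : ι, (1 : ℤ) - ∑ i, (d i : ℤ) := by
      rw [Finset.mul_sum, ← Finset.sum_sub_distrib]
      exact Finset.sum_congr rfl fun i _ => by ring
    rw [h1, hcard, hMcast]
    ring
  -- dimension of `L(W + (m+2) P)` for `m ≥ 0`
  have hLC : ∀ m : ℕ,
      (Module.finrank K (riemannRochSpace (W + ((m : ℤ) + 2) • P)) : ℤ) = n * (m + 1) + M := by
    intro m
    rw [hP, rrSpace_canonical_add hx hpf hred hloc W hW, finrank_coordSpace _ _ hx,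
      sum_toNat_cast _ (fun i => by positivity)]
    have h1 : ∑ i : ι, ((m : ℤ) + d i + 1) = (m + 1) * ∑ _i : ι, (1 : ℤ) + ∑ i, (d i : ℤ) := by
      rw [Finset.mul_sum, ← Finset.sum_add_distrib]
      exact Finset.sum_congr rfl fun i _ => by ring
    rw [h1, hcard, hMcast]
    ring
  -- `ℓ(0) = 1`
  have hL0 : ((∑ i, ((0 : ℤ) - d i + 1).toNat : ℕ) : ℤ) = 1 := by
    have h1 := rrSpace_smul_poleDiv hx hpf hred 0
    rw [zero_smul] at h1
    have h2 := finrank_rrSpace_zero hx
    rw [h1, finrank_coordSpace _ _ hx] at h2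
    exact_mod_cast h2
  -- `ℓ(W)`
  have hLW : (Module.finrank K (riemannRochSpace W) : ℤ)
      = ((∑ i, ((-2 : ℤ) + d i + 1).toNat : ℕ) : ℤ) := by
    have h1 := rrSpace_canonical_add hx hpf hred hloc W hW (-2)
    rw [neg_add_cancel, zero_smul, add_zero] at h1
    rw [h1, finrank_coordSpace _ _ hx]
  have hLW' : (Module.finrank K (riemannRochSpace W) : ℤ) = M - n + 1 := by
    rw [hLW]
    have key : ∀ i : ι, (((-2 : ℤ) + d i + 1).toNat : ℤ)
        = (d i : ℤ) - 1 + (((0 : ℤ) - d i + 1).toNat : ℤ) := by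
      intro i
      rcases Nat.eq_zero_or_pos (d i) with h0 | hpos
      · rw [h0]; simp
      · have h1 : ((-2 : ℤ) + d i + 1).toNat = d i - 1 := by omega
        have h2 : ((0 : ℤ) - d i + 1).toNat = 0 := by omega
        rw [h1, h2]
        push_cast
        omega
    push_cast at hL0 ⊢
    rw [Finset.sum_congr rfl fun i _ => key i, Finset.sum_add_distrib, hL0,
      Finset.sum_sub_distrib, hcard, ← hMcast]
  -- the squeeze
  obtain ⟨q, hq0, hq⟩ := exists_poly_ord_ge hx W
  obtain ⟨N, hN⟩ : ∃ N : ℕ, N = q.natDegree := ⟨_, rfl⟩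
  have hq0' := aeval_ne_zero_of_transcendental hx.transcendental q hq0
  have hWfin : ∀ v : Place K F, 0 ≤ v.ord x → 0 ≤ W v := by
    intro v hv
    obtain ⟨a, ha⟩ := exists_ord_sub_pos hx.transcendental v (hpf.res v) hv
    rw [hW, ordDifferential_dx_of_fibre hx v (hpf.res v) a ha]
    omega
  have hAA' : (M : ℤ) • P ≤ W + ((M : ℤ) + 2) • P := by
    rw [Finsupp.le_def]
    intro v
    rw [Finsupp.add_apply, Finsupp.smul_apply, Finsupp.smul_apply, smul_eq_mul,
      smul_eq_mul]
    by_cases hv : 0 ≤ v.ord x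
    · rw [hP, hpf.poleDiv_of_nonneg hv]
      have := hWfin v hv
      linarith
    · push Not at hv
      rw [hP, hpf.poleDiv_of_neg hv, hW, ordDifferential_dx_of_pole hx v (hpf.res v) hv]
      linarith
  have hA'A'' : W + ((M : ℤ) + 2) • P ≤
      ((M + N + 1 : ℕ) : ℤ) • P + hpf.divOf (Polynomial.aeval x q) := by
    rw [Finsupp.le_def]
    intro v
    rw [Finsupp.add_apply, Finsupp.add_apply, Finsupp.smul_apply, Finsupp.smul_apply,
      smul_eq_mul, smul_eq_mul, hpf.divOf_apply]
    by_cases hv : 0 ≤ v.ord x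
    · rw [hP, hpf.poleDiv_of_nonneg hv]
      have := hq v hv
      linarith
    · push Not at hv
      rw [hP, hpf.poleDiv_of_neg hv, hW, ordDifferential_dx_of_pole hx v (hpf.res v) hv,
        ord_aeval_of_neg hx.transcendental v hv q hq0, ← hN]
      push_cast
      nlinarith
  have hR1 := finrank_rrSpace_sub_le hpf P₀ hAA'
  have hR2 := finrank_rrSpace_sub_le hpf P₀ hA'A''
  have hlA := hLB M le_rfl
  have hlA' := hLC M
  have hlA'' : (Module.finrank K (riemannRochSpace
      (((M + N + 1 : ℕ) : ℤ) • P + hpf.divOf (Polynomial.aeval x q))) : ℤ)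
      = n * ((M + N + 1 : ℕ) + 1) - M := by
    rw [finrank_rrSpace_add_divOf hpf hq0']
    exact hLB (M + N + 1) (by omega)
  have hdA : Divisor.degree ((M : ℤ) • P) = M * n := by
    rw [map_zsmul, hdegP, smul_eq_mul]
  have hdA' : Divisor.degree (W + ((M : ℤ) + 2) • P) = Divisor.degree W + (M + 2) * n := by
    rw [map_add, map_zsmul, hdegP, smul_eq_mul]
  have hdA'' : Divisor.degree (((M + N + 1 : ℕ) : ℤ) • P + hpf.divOf (Polynomial.aeval x q))
      = ((M + N + 1 : ℕ) : ℤ) * n := by
    rw [map_add, map_zsmul, hdegP, smul_eq_mul, hpf.degree_divOf, add_zero]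
  rw [hlA, hlA', hdA, hdA'] at hR1
  rw [hlA', hlA'', hdA', hdA''] at hR2
  push_cast at hR1 hR2
  rw [hLW']
  have e1 : Divisor.degree W ≤ 2 * (M : ℤ) - 2 * n := by nlinarith
  have e2 : 2 * (M : ℤ) - 2 * n ≤ Divisor.degree W := by nlinarith
  omega

/-- **Dedekind–Weber / Riemann–Roch for the canonical divisor** `div(dx)`:
`2 ℓ(div dx) = deg div(dx) + 2`. -/
theorem two_mul_finrank_canonical_dx (hx : IsFF1 K F x)
    (hloc : ∀ y : F, IsFF1 K F y → LocalDual K y)
    (W : Divisor K F) (hW : ∀ v : Place K F, W v = v.ordDifferential (D K F x)) :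
    2 * (Module.finrank K (riemannRochSpace W) : ℤ) = Divisor.degree W + 2 := by
  classical
  obtain ⟨b, d, hred⟩ := exists_reducedBasis hx
  exact two_mul_finrank_canonical_dx_aux hx hloc W hW b d hred

end Final

end Fermat.Agent.Lib.FF
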