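import Fermat.Agent.Lib.FunctionField.DWBasic

/-!
# Dedekind–Weber, part 2: rational functions of `x` inside `F`

Existence of poles and zeros, constants, clearing denominators, polynomials as the regular
rational functions, polynomial part of a rational function.
-/

set_option autoImplicit false
set_option linter.unusedSectionVars false

open AlgebraicCurve IntermediateField Polynomial

namespace Fermat.Agent.Lib.FF

variable {K F : Type*} [Field K] [Field F] [Algebra K F] [IsAlgClosed K] [CharZero K]
variable {x : F}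

theorem finrank_pos_of_isFF1 (hx : IsFF1 K F x) : 0 < Module.finrank K⟮x⟯ F :=
  haveI := hx.finite
  Module.finrank_pos

/-- `x` has a pole -/
theorem exists_pole (hx : IsFF1 K F x) : ∃ v : Place K F, v.ord x < 0 := by
  have hpf := placeFacts_of_isFF1 hx
  have hsum := hpf.sum_pol hx.transcendental
  have hn := finrank_pos_of_isFF1 hx
  by_contra hne
  push Not at hne
  have hempty : hpf.pol hx.transcendental = ∅ := by
    rw [Finset.eq_empty_iff_forall_notMem]
    intro v hv
    have := (hpf.mem_pol hx.transcendental).mp hv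
    exact absurd (hne v) (not_le.mpr this)
  rw [hempty, Finset.sum_empty] at hsum
  omega

/-- `x - a` has a zero -/
theorem exists_zero_sub (hx : IsFF1 K F x) (a : K) :
    ∃ v : Place K F, 0 < v.ord (x - algebraMap K F a) := by
  have hpf := placeFacts_of_isFF1 hx
  have hsum := hpf.sum_fib hx.transcendental a
  have hn := finrank_pos_of_isFF1 hx
  by_contra hne
  push Not at hne
  have hempty : hpf.fib hx.transcendental a = ∅ := by
    rw [Finset.eq_empty_iff_forall_notMem]
    intro v hv
    have := (hpf.mem_fib hx.transcendental).mp hv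
    exact absurd (hne v) (not_le.mpr this)
  rw [hempty, Finset.sum_empty] at hsum
  omega

theorem ord_nonneg_of_ord_sub_pos {v : Place K F} {a : K}
    (h : 0 < v.ord (x - algebraMap K F a)) : 0 ≤ v.ord x := by
  by_contra hneg
  push Not at hneg
  rw [ord_sub_algebraMap_of_neg v hneg a] at h
  omega

/-- a function without poles is constant -/
theorem exists_const_of_ord_nonneg (hx : IsFF1 K F x) (f : F) (hf : ∀ v : Place K F, 0 ≤ v.ord f) :
    ∃ c : K, f = algebraMap K F c := by
  by_cases halg : IsAlgebraic K f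
  · obtain ⟨c, hc⟩ := exists_algebraMap_eq_of_isAlgebraic halg
    exact ⟨c, hc.symm⟩
  · exfalso
    obtain ⟨v, hv⟩ := exists_pole (isFF1_of_transcendental hx f halg)
    exact absurd (hf v) (not_le.mpr hv)

/-- `L(0) = K` -/
theorem exists_const_of_finReg_of_degLE_zero (hx : IsFF1 K F x) {f : F}
    (hf : FinReg K x f) (hd : DegLE K x 0 f) : ∃ c : K, f = algebraMap K F c := by
  apply exists_const_of_ord_nonneg hx
  intro v
  by_cases hv : 0 ≤ v.ord x
  · exact hf v hv
  · rcases hd v (not_le.mp hv) with h | h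
    · rw [h, v.ord_zero]
    · rwa [zero_mul] at h

/-- `L(-(x)_∞) = 0` -/
theorem eq_zero_of_finReg_of_degLE_neg (hx : IsFF1 K F x) {f : F} {k : ℤ} (hk : k < 0)
    (hf : FinReg K x f) (hd : DegLE K x k f) : f = 0 := by
  obtain ⟨c, hc⟩ := exists_const_of_finReg_of_degLE_zero hx hf (hd.mono hk.le)
  obtain ⟨v, hv⟩ := exists_pole hx
  rcases hd v hv with h | h
  · exact h
  · rw [hc, ord_algebraMap] at h
    have : 0 < k * v.ord x := mul_pos_of_neg_of_neg hk hv
    omega

theorem degLE_aeval_iff (hx : IsFF1 K F x) (p : K[X]) (k : ℤ) :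
    DegLE K x k (Polynomial.aeval x p) ↔ p = 0 ∨ (p.natDegree : ℤ) ≤ k := by
  constructor
  · intro h
    by_cases hp : p = 0
    · exact Or.inl hp
    right
    obtain ⟨v, hv⟩ := exists_pole hx
    have h1 := (h v hv).resolve_left (aeval_ne_zero_of_transcendental hx.transcendental p hp)
    rw [ord_aeval_of_neg hx.transcendental v hv p hp] at h1
    by_contra hlt
    push Not at hlt
    have := mul_lt_mul_of_neg_right hlt hv
    omega
  · rintro (rfl | h)
    · rw [map_zero]; exact DegLE.zero
    · exact (DegLE.aeval p).mono h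

/-- every element has some degree -/
theorem exists_degLE (hx : IsFF1 K F x) (f : F) : ∃ k : ℕ, DegLE K x k f := by
  classical
  have hpf := placeFacts_of_isFF1 hx
  refine ⟨∑ v ∈ hpf.pol hx.transcendental, (- v.ord f).toNat, fun v hv => ?_⟩
  right
  have hmem := (hpf.mem_pol hx.transcendental).mpr hv
  have h1 : (- v.ord f).toNat ≤ ∑ w ∈ hpf.pol hx.transcendental, (- w.ord f).toNat :=
    Finset.single_le_sum (f := fun w : Place K F => (- w.ord f).toNat)
      (fun _ _ => Nat.zero_le _) hmem
  have h2 : - v.ord f ≤ ((- v.ord f).toNat : ℤ) := Int.self_le_toNat _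
  have h3 : ((- v.ord f).toNat : ℤ) ≤
      ((∑ w ∈ hpf.pol hx.transcendental, (- w.ord f).toNat : ℕ) : ℤ) := by exact_mod_cast h1
  set k : ℤ := ((∑ w ∈ hpf.pol hx.transcendental, (- w.ord f).toNat : ℕ) : ℤ) with hk
  have hk0 : 0 ≤ k := by rw [hk]; exact Int.natCast_nonneg _
  have h4 : k * v.ord x ≤ k * (-1) := mul_le_mul_of_nonneg_left (by omega) hk0
  linarith

/-- clearing the finite poles by a polynomial in `x` -/
theorem exists_clear (hx : IsFF1 K F x) (f : F) :
    ∃ q : K[X], q ≠ 0 ∧ FinReg K x (Polynomial.aeval x q * f) := by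
  classical
  by_cases hf0 : f = 0
  · exact ⟨1, one_ne_zero, by rw [hf0, mul_zero]; exact FinReg.zero⟩
  have hpf := placeFacts_of_isFF1 hx
  have hfin : {v : Place K F | v.ord f < 0}.Finite :=
    (hpf.finite_ord_ne_zero f hf0).subset fun v hv => ne_of_lt hv
  -- the local factor at a pole
  let fac : Place K F → K[X] := fun v =>
    if h : 0 ≤ v.ord x then
      (X - C (exists_ord_sub_pos hx.transcendental v (hpf.res v) h).choose) ^ (- v.ord f).toNat
    else 1
  have hfac0 : ∀ v, fac v ≠ 0 := by
    intro v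
    simp only [fac]
    split_ifs
    · exact pow_ne_zero _ (X_sub_C_ne_zero _)
    · exact one_ne_zero
  refine ⟨∏ v ∈ hfin.toFinset, fac v, Finset.prod_ne_zero_iff.mpr fun v _ => hfac0 v, ?_⟩
  intro w hw
  set q := ∏ v ∈ hfin.toFinset, fac v with hq
  have hq0 : Polynomial.aeval x q ≠ 0 :=
    aeval_ne_zero_of_transcendental hx.transcendental q
      (Finset.prod_ne_zero_iff.mpr fun v _ => hfac0 v)
  rw [w.ord_mul hq0 hf0]
  have hqreg : 0 ≤ w.ord (Polynomial.aeval x q) := FinReg.aeval q w hw
  by_cases hwf : 0 ≤ w.ord f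
  · exact add_nonneg hqreg hwf
  push Not at hwf
  have hmem : w ∈ hfin.toFinset := by
    rw [Set.Finite.mem_toFinset]; exact hwf
  obtain ⟨r, hr⟩ := Finset.dvd_prod_of_mem fac hmem
  have hr0 : r ≠ 0 := by
    rintro rfl
    rw [mul_zero] at hr
    exact (Finset.prod_ne_zero_iff.mpr fun v _ => hfac0 v) hr
  have hqr : Polynomial.aeval x q = Polynomial.aeval x (fac w) * Polynomial.aeval x r := by
    rw [hq, hr, map_mul]
  have hfw : fac w = (X - C (exists_ord_sub_pos hx.transcendental w (hpf.res w) hw).choose) ^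
      (- w.ord f).toNat := by
    simp only [fac, dif_pos hw]
  have ha := (exists_ord_sub_pos hx.transcendental w (hpf.res w) hw).choose_spec
  set a := (exists_ord_sub_pos hx.transcendental w (hpf.res w) hw).choose with hadef
  have hxa : x - algebraMap K F a ≠ 0 := by
    intro h0
    rw [h0, w.ord_zero] at ha
    exact lt_irrefl _ ha
  have h1 : w.ord (Polynomial.aeval x (fac w)) = ((- w.ord f).toNat : ℤ) *
      w.ord (x - algebraMap K F a) := by
    rw [hfw, map_pow, map_sub, aeval_X, aeval_C, ← zpow_natCast, w.ord_zpow]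
  have h2 : 0 ≤ w.ord (Polynomial.aeval x r) := FinReg.aeval r w hw
  have h3 : Polynomial.aeval x (fac w) ≠ 0 :=
    aeval_ne_zero_of_transcendental hx.transcendental _ (hfac0 w)
  have h4 : Polynomial.aeval x r ≠ 0 :=
    aeval_ne_zero_of_transcendental hx.transcendental _ hr0
  rw [hqr, w.ord_mul h3 h4, h1]
  have h5 : - w.ord f ≤ ((- w.ord f).toNat : ℤ) := Int.self_le_toNat _
  have h6 : (0 : ℤ) ≤ ((- w.ord f).toNat : ℤ) := Int.natCast_nonneg _
  have h7 : ((- w.ord f).toNat : ℤ) * 1 ≤ ((- w.ord f).toNat : ℤ) *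
      w.ord (x - algebraMap K F a) := mul_le_mul_of_nonneg_left (by omega) h6
  linarith

/-- the value of a polynomial at a place over `x = a` -/
theorem ord_aeval_eq_zero_of_eval_ne_zero {v : Place K F} {a : K}
    (hv : 0 < v.ord (x - algebraMap K F a)) (r : K[X]) (hr : r.eval a ≠ 0) :
    v.ord (Polynomial.aeval x r) = 0 := by
  obtain ⟨t, ht⟩ := Polynomial.X_sub_C_dvd_sub_C_eval (a := a) (p := r)
  have h1 : Polynomial.aeval x r = algebraMap K F (r.eval a)
      + (x - algebraMap K F a) * Polynomial.aeval x t := by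
    have := congrArg (Polynomial.aeval x) ht
    rw [map_sub, aeval_C, map_mul, map_sub, aeval_X, aeval_C] at this
    rw [← this]
    ring
  have hc : algebraMap K F (r.eval a) ≠ 0 := by
    rwa [Ne, map_eq_zero]
  by_cases h0 : (x - algebraMap K F a) * Polynomial.aeval x t = 0
  · rw [h1, h0, add_zero, ord_algebraMap]
  · have hx0 : x - algebraMap K F a ≠ 0 := left_ne_zero_of_mul h0
    have ht0 : Polynomial.aeval x t ≠ 0 := right_ne_zero_of_mul h0
    rw [h1, ord_add_of_lt v _ hc, ord_algebraMap]
    rw [ord_algebraMap, v.ord_mul hx0 ht0]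
    have := FinReg.aeval (K := K) (x := x) t v (ord_nonneg_of_ord_sub_pos hv)
    omega

/-- the order of a polynomial with a root at `a`, at a place over `x = a` -/
theorem ord_aeval_pos_of_eval_eq_zero (hx : IsFF1 K F x) {v : Place K F} {a : K}
    (hv : 0 < v.ord (x - algebraMap K F a)) (s : K[X]) (hs0 : s ≠ 0) (hs : s.eval a = 0) :
    0 < v.ord (Polynomial.aeval x s) := by
  obtain ⟨t, ht⟩ := Polynomial.dvd_iff_isRoot.mpr (show s.IsRoot a from hs)
  have ht0 : t ≠ 0 := by
    rintro rfl
    rw [mul_zero] at ht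
    exact hs0 ht
  have hx0 : x - algebraMap K F a ≠ 0 := by
    intro h0
    rw [h0, v.ord_zero] at hv
    exact lt_irrefl _ hv
  have h1 : Polynomial.aeval x s = (x - algebraMap K F a) * Polynomial.aeval x t := by
    rw [ht, map_mul, map_sub, aeval_X, aeval_C]
  rw [h1, v.ord_mul hx0 (aeval_ne_zero_of_transcendental hx.transcendental t ht0)]
  have := FinReg.aeval (K := K) (x := x) t v (ord_nonneg_of_ord_sub_pos hv)
  omega

/-- a rational function of `x` without finite poles is a polynomial -/
theorem exists_poly_of_finReg_aux (hx : IsFF1 K F x) (n : ℕ) :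
    ∀ (r s : K[X]), s ≠ 0 → s.natDegree ≤ n →
      FinReg K x (Polynomial.aeval x r / Polynomial.aeval x s) →
      ∃ p : K[X], Polynomial.aeval x r / Polynomial.aeval x s = Polynomial.aeval x p := by
  induction n with
  | zero =>
    intro r s hs0 hdeg _
    have hsC : s = C (s.coeff 0) := Polynomial.eq_C_of_natDegree_le_zero hdeg
    have hc0 : s.coeff 0 ≠ 0 := by
      intro h
      rw [h, C_0] at hsC
      exact hs0 hsC
    refine ⟨C (s.coeff 0)⁻¹ * r, ?_⟩
    have hs' : Polynomial.aeval x s = algebraMap K F (s.coeff 0) := by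
      conv_lhs => rw [hsC]
      rw [aeval_C]
    have hne : algebraMap K F (s.coeff 0) ≠ 0 := by rwa [Ne, map_eq_zero]
    rw [hs', map_mul, aeval_C, map_inv₀]
    field_simp
  | succ n ih =>
    intro r s hs0 hdeg hreg
    by_cases hdeg' : s.natDegree ≤ n
    · exact ih r s hs0 hdeg' hreg
    have hsdeg : s.natDegree = n + 1 := by omega
    have hdeg0 : s.degree ≠ 0 := by
      rw [Polynomial.degree_eq_natDegree hs0, hsdeg]
      exact_mod_cast (Nat.succ_ne_zero n)
    obtain ⟨a, ha⟩ := IsAlgClosed.exists_root s hdeg0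
    obtain ⟨v, hv⟩ := exists_zero_sub hx a
    have hvfin := ord_nonneg_of_ord_sub_pos hv
    have hspos := ord_aeval_pos_of_eval_eq_zero hx hv s hs0 ha
    have hs0' := aeval_ne_zero_of_transcendental hx.transcendental s hs0
    by_cases hr0 : r = 0
    · exact ⟨0, by rw [hr0, map_zero, zero_div]⟩
    have hr0' := aeval_ne_zero_of_transcendental hx.transcendental r hr0
    have hra : r.eval a = 0 := by
      by_contra hra
      have h1 := ord_aeval_eq_zero_of_eval_ne_zero hv r hra
      have h2 := hreg v hvfin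
      rw [div_eq_mul_inv, v.ord_mul hr0' (inv_ne_zero hs0'), v.ord_inv, h1] at h2
      omega
    obtain ⟨r₁, hr₁⟩ := Polynomial.dvd_iff_isRoot.mpr (show r.IsRoot a from hra)
    obtain ⟨s₁, hs₁⟩ := Polynomial.dvd_iff_isRoot.mpr (show s.IsRoot a from ha)
    have hs₁0 : s₁ ≠ 0 := by
      rintro rfl
      rw [mul_zero] at hs₁
      exact hs0 hs₁
    have hxa : Polynomial.aeval x (X - C a : K[X]) ≠ 0 :=
      aeval_ne_zero_of_transcendental hx.transcendental _ (X_sub_C_ne_zero a)
    have heq : Polynomial.aeval x r / Polynomial.aeval x s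
        = Polynomial.aeval x r₁ / Polynomial.aeval x s₁ := by
      rw [hr₁, hs₁, map_mul, map_mul, mul_div_mul_left _ _ hxa]
    have hdeg₁ : s₁.natDegree ≤ n := by
      have := congrArg Polynomial.natDegree hs₁
      rw [Polynomial.natDegree_mul (X_sub_C_ne_zero a) hs₁0, natDegree_X_sub_C] at this
      omega
    rw [heq] at hreg ⊢
    exact ih r₁ s₁ hs₁0 hdeg₁ hreg

/-- a rational function of `x` without finite poles is a polynomial -/
theorem exists_poly_of_finReg (hx : IsFF1 K F x) {c : F} (hc : c ∈ K⟮x⟯) (hreg : FinReg K x c) :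
    ∃ p : K[X], c = Polynomial.aeval x p := by
  obtain ⟨r, s, rfl⟩ := (IntermediateField.mem_adjoin_simple_iff K c).mp hc
  by_cases hs0 : s = 0
  · exact ⟨0, by simp [hs0]⟩
  exact exists_poly_of_finReg_aux hx s.natDegree r s hs0 le_rfl hreg

/-- the polynomial part of a rational function of `x` -/
theorem exists_poly_sub_degLE (hx : IsFF1 K F x) {c : F} (hc : c ∈ K⟮x⟯) :
    ∃ s : K[X], DegLE K x (-1) (c - Polynomial.aeval x s) := by
  obtain ⟨r, s, rfl⟩ := (IntermediateField.mem_adjoin_simple_iff K c).mp hc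
  by_cases hs0 : s = 0
  · exact ⟨0, by simp only [hs0, map_zero, div_zero, sub_zero]; exact DegLE.zero⟩
  have hs0' := aeval_ne_zero_of_transcendental hx.transcendental s hs0
  refine ⟨r / s, ?_⟩
  have hsplit : Polynomial.aeval x r / Polynomial.aeval x s - Polynomial.aeval x (r / s)
      = Polynomial.aeval x (r % s) / Polynomial.aeval x s := by
    have h := congrArg (Polynomial.aeval x) (EuclideanDomain.div_add_mod r s)
    rw [map_add, map_mul] at h
    rw [← h]
    field_simp
    ring
  rw [hsplit]
  intro v hv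
  by_cases hm0 : r % s = 0
  · exact Or.inl (by rw [hm0, map_zero, zero_div])
  right
  have hm0' := aeval_ne_zero_of_transcendental hx.transcendental _ hm0
  rw [div_eq_mul_inv, v.ord_mul hm0' (inv_ne_zero hs0'), v.ord_inv,
    ord_aeval_of_neg hx.transcendental v hv _ hm0, ord_aeval_of_neg hx.transcendental v hv _ hs0]
  have hlt : (r % s).natDegree < s.natDegree :=
    Polynomial.natDegree_lt_natDegree hm0 (Polynomial.degree_mod_lt r hs0)
  have h1 : ((r % s).natDegree : ℤ) + 1 ≤ s.natDegree := by exact_mod_cast hlt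
  nlinarith

end Fermat.Agent.Lib.FF
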