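import Fermat.Agent.Lib.FunctionField.Fund

/-!
# Function fields, part 6: the fibres of a transcendental element
-/

set_option autoImplicit false
set_option linter.style.haveILetI false
set_option linter.unusedSectionVars false
set_option linter.deprecated false

open AlgebraicCurve WithZero IsDedekindDomain IntermediateField
open scoped IntermediateField.algebraAdjoinAdjoin

namespace Fermat.Agent.Lib.FF

variable {K F : Type*} [Field K] [Field F] [Algebra K F]

section Setup

variable (K) (y : F)

/-- the generator of `K[y]` -/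
def genAdjoin : Algebra.adjoin K {y} := ⟨y, Algebra.self_mem_adjoin_singleton K y⟩

theorem aeval_genAdjoin_surjective :
    Function.Surjective (Polynomial.aeval (R := K) (genAdjoin K y)) := by
  rintro ⟨a, ha⟩
  rw [Algebra.adjoin_singleton_eq_range_aeval] at ha
  obtain ⟨p, rfl⟩ := ha
  refine ⟨p, ?_⟩
  apply Subtype.ext
  rw [← Subalgebra.coe_val, ← Polynomial.aeval_algHom_apply]
  rfl

theorem isPrincipalIdealRing_adjoin : IsPrincipalIdealRing (Algebra.adjoin K {y}) :=
  IsPrincipalIdealRing.of_surjective
    (Polynomial.aeval (R := K) (genAdjoin K y)).toRingHom (aeval_genAdjoin_surjective K y)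

theorem finiteType_adjoin : Algebra.FiniteType K (Algebra.adjoin K {y}) :=
  Algebra.FiniteType.of_surjective (Polynomial.aeval (R := K) (genAdjoin K y))
    (aeval_genAdjoin_surjective K y)

end Setup

section Concrete

variable (K) (y : F) [CharZero K] [FiniteDimensional K⟮y⟯ F]

theorem isDedekindDomain_intClosure :
    IsDedekindDomain (integralClosure (Algebra.adjoin K {y}) F) :=
  haveI := isPrincipalIdealRing_adjoin K y
  integralClosure.isDedekindDomain (Algebra.adjoin K {y}) K⟮y⟯ F

theorem isFractionRing_intClosure :
    IsFractionRing (integralClosure (Algebra.adjoin K {y}) F) F :=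
  integralClosure.isFractionRing_of_finite_extension K⟮y⟯ F

theorem finite_intClosure :
    Module.Finite (Algebra.adjoin K {y}) (integralClosure (Algebra.adjoin K {y}) F) :=
  haveI := isPrincipalIdealRing_adjoin K y
  IsIntegralClosure.finite (Algebra.adjoin K {y}) K⟮y⟯ F _

theorem finiteType_intClosure :
    Algebra.FiniteType K (integralClosure (Algebra.adjoin K {y}) F) :=
  haveI := finiteType_adjoin K y
  haveI := finite_intClosure K y
  Algebra.FiniteType.trans (S := Algebra.adjoin K {y}) inferInstance inferInstance

end Concrete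

section Maximal

variable (K) (y : F)

theorem genAdjoin_ne_zero (hy : Transcendental K y) : genAdjoin K y ≠ 0 := by
  intro h
  apply hy
  have h0 : y = 0 := congrArg Subtype.val h
  rw [h0]
  exact isAlgebraic_zero

/-- every element of `K[y]` is congruent to a constant modulo `y` -/
theorem exists_sub_mem_span_genAdjoin (a : Algebra.adjoin K {y}) :
    ∃ c : K, a - algebraMap K _ c ∈ Ideal.span {genAdjoin K y} := by
  obtain ⟨p, rfl⟩ := aeval_genAdjoin_surjective K y a
  refine ⟨p.coeff 0, ?_⟩
  rw [Ideal.mem_span_singleton]
  refine ⟨Polynomial.aeval (genAdjoin K y) p.divX, ?_⟩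
  have h : Polynomial.aeval (genAdjoin K y) p
      = Polynomial.aeval (genAdjoin K y) p.divX * genAdjoin K y
        + algebraMap K _ (p.coeff 0) := by
    conv_lhs => rw [← Polynomial.divX_mul_X_add p]
    rw [map_add, map_mul, Polynomial.aeval_X, Polynomial.aeval_C]
  rw [h]
  ring

theorem one_notMem_span_genAdjoin (hy : Transcendental K y) :
    (1 : Algebra.adjoin K {y}) ∉ Ideal.span {genAdjoin K y} := by
  intro h
  rw [Ideal.mem_span_singleton] at h
  obtain ⟨q, hq⟩ := h
  obtain ⟨p, rfl⟩ := aeval_genAdjoin_surjective K y q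
  have h1 : Polynomial.aeval (genAdjoin K y) (Polynomial.X * p - 1) = 0 := by
    rw [map_sub, map_mul, Polynomial.aeval_X, map_one, ← hq, sub_self]
  have h2 : Polynomial.aeval y (Polynomial.X * p - 1) = 0 := by
    have := congrArg (Subalgebra.val (Algebra.adjoin K {y})) h1
    rw [← Polynomial.aeval_algHom_apply, map_zero] at this
    exact this
  have h3 : (Polynomial.X * p - 1 : Polynomial K) = 0 := by
    by_contra hne
    exact hy ⟨_, hne, h2⟩
  have h4 := congrArg (fun r : Polynomial K => r.coeff 0) h3
  simp at h4

theorem isMaximal_span_genAdjoin (hy : Transcendental K y) :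
    (Ideal.span {genAdjoin K y}).IsMaximal := by
  rw [Ideal.isMaximal_iff]
  refine ⟨one_notMem_span_genAdjoin K y hy, fun J x hJ hx hxJ => ?_⟩
  obtain ⟨c, hc⟩ := exists_sub_mem_span_genAdjoin K y x
  have hc0 : c ≠ 0 := by
    intro h
    rw [h, map_zero, sub_zero] at hc
    exact hx hc
  have h1 : algebraMap K (Algebra.adjoin K {y}) c ∈ J := by
    have := J.sub_mem hxJ (hJ hc)
    simpa using this
  have h2 := J.mul_mem_left (algebraMap K (Algebra.adjoin K {y}) c⁻¹) h1
  rwa [← map_mul, inv_mul_cancel₀ hc0, map_one] at h2

end Maximal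

section Places

variable (K) (y : F)

theorem adjoin_le_of_ord_nonneg (v : Place K F) (hv : 0 ≤ v.ord y)
    (a : Algebra.adjoin K {y}) : (a : F) ∈ v.toValuationSubring := by
  let S : Subalgebra K F :=
    { v.toValuationSubring.toSubring with
      algebraMap_mem' := v.algebraMap_mem' }
  have hle : Algebra.adjoin K {y} ≤ S := by
    apply Algebra.adjoin_le
    intro z hz
    rw [Set.mem_singleton_iff] at hz
    rw [hz]
    exact mem_of_ord_nonneg v hv
  exact hle a.2

/-- the valuation ring of a place at which `y` is regular contains the integral closure of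
`K[y]` -/
theorem intClosure_le_of_ord_nonneg (v : Place K F) (hv : 0 ≤ v.ord y)
    (b : integralClosure (Algebra.adjoin K {y}) F) :
    algebraMap (integralClosure (Algebra.adjoin K {y}) F) F b ∈ v.toValuationSubring := by
  have hA := adjoin_le_of_ord_nonneg K y v hv
  letI : Algebra (Algebra.adjoin K {y}) v.toValuationSubring :=
    ((algebraMap (Algebra.adjoin K {y}) F).codRestrict v.toValuationSubring.toSubring hA).toAlgebra
  haveI : IsScalarTower (Algebra.adjoin K {y}) v.toValuationSubring F :=
    IsScalarTower.of_algebraMap_eq fun _ => rfl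
  have hb : IsIntegral (Algebra.adjoin K {y}) (b : F) := b.2
  have hb' : IsIntegral v.toValuationSubring (b : F) := hb.tower_top
  obtain ⟨c, hc⟩ := (IsIntegrallyClosed.isIntegral_iff (R := v.toValuationSubring) (K := F)).mp hb'
  have : (c : F) = (b : F) := hc
  change (b : F) ∈ v.toValuationSubring
  rw [← this]
  exact c.2

end Places

section Main

variable [IsAlgClosed K] [CharZero K]

theorem IsFF1.inv {x : F} (hx : IsFF1 K F x) : IsFF1 K F x⁻¹ := by
  refine isFF1_of_transcendental hx _ ?_
  intro h
  apply hx.transcendental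
  have := h.inv
  rwa [inv_inv] at this

/-- a separating element which is regular at the given place -/
theorem exists_isFF1_ord_nonneg {x : F} (hx : IsFF1 K F x) (v : Place K F) :
    ∃ y : F, IsFF1 K F y ∧ 0 ≤ v.ord y := by
  by_cases h : 0 ≤ v.ord x
  · exact ⟨x, hx, h⟩
  · refine ⟨x⁻¹, hx.inv, ?_⟩
    rw [v.ord_inv]
    omega

/-- A1a. Residue field of every place is `K` (K algebraically closed). -/
theorem exists_sub_mem_maximalIdeal {x : F} (hx : IsFF1 K F x) (v : Place K F)
    (u : F) (hu : u ∈ v.toValuationSubring) :
    ∃ a : K, u = algebraMap K F a ∨ 0 < v.ord (u - algebraMap K F a) := by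
  obtain ⟨y, hy, hvy⟩ := exists_isFF1_ord_nonneg hx v
  haveI := hy.finite
  haveI := isPrincipalIdealRing_adjoin K y
  haveI := isDedekindDomain_intClosure K y
  haveI := isFractionRing_intClosure K y
  haveI := finiteType_intClosure K y
  obtain ⟨P, rfl⟩ := exists_prime_of_place (K := K)
    (B := integralClosure (Algebra.adjoin K {y}) F) v (intClosure_le_of_ord_nonneg K y v hvy)
  have h1 := ord_nonneg_of_mem _ hu
  rw [placeOfPrime_ord] at h1
  obtain ⟨a, ha⟩ := exists_sub_pos_of_primeOrd_nonneg (K := K) P u (Or.inr h1)
  refine ⟨a, ?_⟩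
  rw [placeOfPrime_ord]
  exact ha

theorem algebraMap_residueField_surjective {x : F} (hx : IsFF1 K F x) (v : Place K F) :
    Function.Surjective (algebraMap K v.ResidueField) := by
  intro r
  obtain ⟨a, rfl⟩ := IsLocalRing.residue_surjective r
  obtain ⟨c, hc⟩ := exists_sub_mem_maximalIdeal hx v (a : F) a.2
  refine ⟨c, ?_⟩
  change IsLocalRing.residue _ (algebraMap K v.toValuationSubring c) = IsLocalRing.residue _ a
  symm
  rw [← sub_eq_zero, ← map_sub, IsLocalRing.residue_eq_zero_iff, mem_maximalIdeal_iff]
  have hcoe : ((a - algebraMap K v.toValuationSubring c : v.toValuationSubring) : F)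
      = (a : F) - algebraMap K F c := rfl
  rw [hcoe]
  rcases hc with hc | hc
  · left
    rw [hc, sub_self]
  · right
    exact hc

/-- A1a'. `deg v = 1`. -/
theorem deg_eq_one {x : F} (hx : IsFF1 K F x) (v : Place K F) : v.deg = 1 := by
  have hbij : Function.Bijective (algebraMap K v.ResidueField) :=
    ⟨(algebraMap K v.ResidueField).injective, algebraMap_residueField_surjective hx v⟩
  change Module.finrank K v.ResidueField = 1
  rw [← Module.finrank_self K]
  exact ((AlgEquiv.ofBijective (Algebra.ofId K v.ResidueField)
    hbij).toLinearEquiv.finrank_eq).symm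

theorem finite_setOf_mem_asIdeal {B : Type*} [CommRing B] [IsDedekindDomain B] (b : B)
    (hb : b ≠ 0) : {P : HeightOneSpectrum B | b ∈ P.asIdeal}.Finite := by
  have h := Ideal.finite_factors (I := Ideal.span {b}) (by simpa using hb)
  refine h.subset ?_
  intro P hP
  rw [Set.mem_setOf_eq, Ideal.dvd_span_singleton]
  exact hP

/-- the places over `y = 0` are the places of the primes containing `y` -/
theorem setOf_ord_pos_eq_image {y : F} (hy : IsFF1 K F y) :
    haveI := hy.finite
    haveI := isPrincipalIdealRing_adjoin K y
    haveI := isDedekindDomain_intClosure K y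
    haveI := isFractionRing_intClosure K y
    {v : Place K F | 0 < v.ord y} = placeOfPrime (K := K) ''
      {P : HeightOneSpectrum (integralClosure (Algebra.adjoin K {y}) F) |
        algebraMap (Algebra.adjoin K {y}) (integralClosure (Algebra.adjoin K {y}) F)
          (genAdjoin K y) ∈ P.asIdeal} := by
  haveI := hy.finite
  haveI := isPrincipalIdealRing_adjoin K y
  haveI := isDedekindDomain_intClosure K y
  haveI := isFractionRing_intClosure K y
  have hy0 : y ≠ 0 := by
    intro h
    apply hy.transcendental
    rw [h]
    exact isAlgebraic_zero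
  have hβ : algebraMap (integralClosure (Algebra.adjoin K {y}) F) F
      (algebraMap (Algebra.adjoin K {y}) (integralClosure (Algebra.adjoin K {y}) F)
        (genAdjoin K y)) = y := rfl
  have hβ0 : algebraMap (Algebra.adjoin K {y}) (integralClosure (Algebra.adjoin K {y}) F)
        (genAdjoin K y) ≠ 0 := by
    intro h
    rw [h, map_zero] at hβ
    exact hy0 hβ.symm
  ext v
  constructor
  · intro hv
    obtain ⟨P, rfl⟩ := exists_prime_of_place (K := K)
      (B := integralClosure (Algebra.adjoin K {y}) F) v
      (intClosure_le_of_ord_nonneg K y v (le_of_lt hv))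
    refine ⟨P, ?_, rfl⟩
    rw [Set.mem_setOf_eq, mem_asIdeal_iff_primeOrd (F := F)]
    right
    rw [hβ, ← placeOfPrime_ord (K := K)]
    exact hv
  · rintro ⟨P, hP, rfl⟩
    rw [Set.mem_setOf_eq, mem_asIdeal_iff_primeOrd (F := F), hβ] at hP
    rw [Set.mem_setOf_eq, placeOfPrime_ord]
    exact hP.resolve_left hβ0

/-- A1c. The zero fibre of `y` is finite. -/
theorem finite_zeros {y : F} (hy : IsFF1 K F y) :
    {v : Place K F | 0 < v.ord y}.Finite := by
  haveI := hy.finite
  haveI := isPrincipalIdealRing_adjoin K y
  haveI := isDedekindDomain_intClosure K y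
  haveI := isFractionRing_intClosure K y
  rw [setOf_ord_pos_eq_image hy]
  apply Set.Finite.image
  apply finite_setOf_mem_asIdeal
  intro h
  have hβ : algebraMap (integralClosure (Algebra.adjoin K {y}) F) F
      (algebraMap (Algebra.adjoin K {y}) (integralClosure (Algebra.adjoin K {y}) F)
        (genAdjoin K y)) = y := rfl
  rw [h, map_zero] at hβ
  apply hy.transcendental
  rw [← hβ]
  exact isAlgebraic_zero

/-- A1d. Fundamental equality on the zero fibre: `Σ_{v | y = 0} ord_v y = [F : K(y)]`. -/
theorem sum_ord_zeros {y : F} (hy : IsFF1 K F y) :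
    ∑ v ∈ (finite_zeros hy).toFinset, v.ord y = (Module.finrank K⟮y⟯ F : ℤ) := by
  classical
  haveI := hy.finite
  haveI := isPrincipalIdealRing_adjoin K y
  haveI := isDedekindDomain_intClosure K y
  haveI := isFractionRing_intClosure K y
  haveI := finiteType_intClosure K y
  haveI := finite_intClosure K y
  haveI := isMaximal_span_genAdjoin K y hy.transcendental
  have hβ : algebraMap (integralClosure (Algebra.adjoin K {y}) F) F
      (algebraMap (Algebra.adjoin K {y}) (integralClosure (Algebra.adjoin K {y}) F)
        (genAdjoin K y)) = y := rfl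
  have hβ0 : algebraMap (Algebra.adjoin K {y}) (integralClosure (Algebra.adjoin K {y}) F)
        (genAdjoin K y) ≠ 0 := by
    intro h
    rw [h, map_zero] at hβ
    apply hy.transcendental
    rw [← hβ]
    exact isAlgebraic_zero
  have hfin := finite_setOf_mem_asIdeal _ hβ0
  have h := sum_primeOrd_eq_finrank (K := K) (F := F)
    (B := integralClosure (Algebra.adjoin K {y}) F) (A := Algebra.adjoin K {y}) K⟮y⟯
    (genAdjoin K y) (genAdjoin_ne_zero K y hy.transcendental) hfin.toFinset (by simp)
  rw [← h]
  have himg : (finite_zeros hy).toFinset = hfin.toFinset.image (placeOfPrime (K := K)) := by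
    ext v
    rw [Set.Finite.mem_toFinset, setOf_ord_pos_eq_image hy, Finset.mem_image]
    simp only [Set.mem_image, Set.Finite.mem_toFinset]
  rw [himg, Finset.sum_image (fun _ _ _ _ h => placeOfPrime_injective h)]
  refine Finset.sum_congr rfl fun P _ => ?_
  rw [placeOfPrime_ord]
  rfl

end Main

end Fermat.Agent.Lib.FF
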