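import Fermat.Agent.Lib.FunctionField.Residue

/-!
# Function fields, part 5: the fundamental identity in terms of order functions
-/

set_option autoImplicit false
set_option linter.style.haveILetI false
set_option linter.unusedSectionVars false
set_option linter.deprecated false

open AlgebraicCurve WithZero IsDedekindDomain

namespace Fermat.Agent.Lib.FF

variable {K F : Type*} [Field K] [Field F] [Algebra K F]

section Fundamental

variable {B : Type*} [CommRing B] [IsDedekindDomain B] [Algebra B F] [IsFractionRing B F]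
  [Algebra K B] [IsScalarTower K B F]
  {A : Type*} [CommRing A] [IsDedekindDomain A] [Algebra A B] [Module.IsTorsionFree A B]
  [Algebra A F] [IsScalarTower A B F]

/-- ramification index = order of the uniformizer downstairs -/
theorem ramificationIdx_eq_primeOrd (π : A) (hπ0 : π ≠ 0) [hprime : (Ideal.span {π}).IsPrime]
    (P : HeightOneSpectrum B) [P.asIdeal.LiesOver (Ideal.span {π})] :
    ((Ideal.span {π}).ramificationIdx' P.asIdeal : ℤ) = primeOrd P (algebraMap A F π) := by
  let v : HeightOneSpectrum A := ⟨Ideal.span {π}, hprime, by simpa using hπ0⟩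
  haveI : P.asIdeal.LiesOver v.asIdeal := ‹_›
  have h1 := HeightOneSpectrum.intValuation_liesOver v P π
  have h2 : v.intValuation π = exp (-1 : ℤ) := HeightOneSpectrum.intValuation_singleton v hπ0 rfl
  rw [h2] at h1
  unfold primeOrd
  rw [IsScalarTower.algebraMap_apply A B F, HeightOneSpectrum.valuation_of_algebraMap, ← h1]
  rw [← exp_nsmul, log_exp]
  simp
  rfl

/-- inertia degree is one -/
theorem inertiaDeg_eq_one [IsAlgClosed K] [Algebra.FiniteType K B] [Algebra K A]
    [IsScalarTower K A B] (p : Ideal A) [hp : p.IsMaximal] (P : HeightOneSpectrum B)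
    [P.asIdeal.LiesOver p] : p.inertiaDeg' P.asIdeal = 1 := by
  rw [Ideal.inertiaDeg'_algebraMap]
  haveI := P.isMaximal
  letI := Ideal.Quotient.field p
  letI := Ideal.Quotient.field P.asIdeal
  have hsurj : Function.Surjective (algebraMap (A ⧸ p) (B ⧸ P.asIdeal)) := by
    intro x
    obtain ⟨b, rfl⟩ := Ideal.Quotient.mk_surjective x
    obtain ⟨c, hc⟩ := exists_sub_algebraMap_mem (K := K) P b
    refine ⟨Ideal.Quotient.mk p (algebraMap K A c), ?_⟩
    rw [Ideal.Quotient.algebraMap_mk_of_liesOver, ← IsScalarTower.algebraMap_apply]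
    exact (Ideal.Quotient.eq.mpr hc).symm
  have hbij : Function.Bijective (algebraMap (A ⧸ p) (B ⧸ P.asIdeal)) :=
    ⟨(algebraMap (A ⧸ p) (B ⧸ P.asIdeal)).injective, hsurj⟩
  rw [← Module.finrank_self (A ⧸ p)]
  exact ((AlgEquiv.ofBijective (Algebra.ofId (A ⧸ p) (B ⧸ P.asIdeal)) hbij).toLinearEquiv.finrank_eq).symm

/-- a prime of `B` containing `π` lies over the maximal ideal `(π)` -/
theorem liesOver_span_of_mem (π : A) [hmax : (Ideal.span {π}).IsMaximal]
    (P : HeightOneSpectrum B) (hP : algebraMap A B π ∈ P.asIdeal) :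
    P.asIdeal.LiesOver (Ideal.span {π}) := by
  constructor
  have hle : Ideal.span {π} ≤ P.asIdeal.under A := by
    rw [Ideal.span_singleton_le_iff_mem]
    exact hP
  have hne : P.asIdeal.under A ≠ ⊤ := by
    haveI := P.isPrime
    exact (Ideal.IsPrime.under A P.asIdeal).ne_top
  exact hmax.eq_of_le hne hle

/-- **Fundamental identity**, order form: the orders of `π` at the primes of `B` containing it
add up to the degree of the field extension. -/
theorem sum_primeOrd_eq_finrank (K₀ : Type*) [Field K₀] [Algebra A K₀] [IsFractionRing A K₀]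
    [Algebra K₀ F] [IsScalarTower A K₀ F] [Module.Finite A B]
    [IsAlgClosed K] [Algebra.FiniteType K B] [Algebra K A] [IsScalarTower K A B]
    (π : A) (hπ0 : π ≠ 0) [hmax : (Ideal.span {π}).IsMaximal]
    (T : Finset (HeightOneSpectrum B)) (hT : ∀ P, P ∈ T ↔ algebraMap A B π ∈ P.asIdeal) :
    ∑ P ∈ T, primeOrd P (algebraMap A F π) = (Module.finrank K₀ F : ℤ) := by
  have hp0 : Ideal.span {π} ≠ ⊥ := by simpa using hπ0
  have h := Ideal.sum_ramification_inertia B K₀ F (p := Ideal.span {π}) hp0
  rw [← h]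
  push_cast
  symm
  refine Finset.sum_bij
    (fun (P : Ideal B) (hP : P ∈ IsDedekindDomain.primesOverFinset (Ideal.span {π}) B) =>
      (⟨P, ((IsDedekindDomain.mem_primesOverFinset_iff hp0 B).mp hP).1,
        Ideal.ne_bot_of_mem_primesOver hp0 ((IsDedekindDomain.mem_primesOverFinset_iff hp0 B).mp hP)⟩ :
          HeightOneSpectrum B)) ?_ ?_ ?_ ?_
  · intro P hP
    rw [hT]
    have h2 := (IsDedekindDomain.mem_primesOverFinset_iff hp0 B).mp hP
    haveI : P.LiesOver (Ideal.span {π}) := h2.2
    exact (Ideal.mem_of_liesOver P (Ideal.span {π}) π).mp (Ideal.mem_span_singleton_self π)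
  · intro P hP Q hQ hPQ
    exact congrArg HeightOneSpectrum.asIdeal hPQ
  · intro P hP
    rw [hT] at hP
    haveI := liesOver_span_of_mem π P hP
    refine ⟨P.asIdeal, (IsDedekindDomain.mem_primesOverFinset_iff hp0 B).mpr ⟨P.isPrime, inferInstance⟩, rfl⟩
  · intro P hP
    have h2 := (IsDedekindDomain.mem_primesOverFinset_iff hp0 B).mp hP
    haveI : P.LiesOver (Ideal.span {π}) := h2.2
    haveI : (Ideal.span {π}).IsPrime := hmax.isPrime
    let P' : HeightOneSpectrum B := ⟨P, h2.1, Ideal.ne_bot_of_mem_primesOver hp0 h2⟩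
    haveI : P'.asIdeal.LiesOver (Ideal.span {π}) := h2.2
    have h3 := ramificationIdx_eq_primeOrd (F := F) π hπ0 P'
    have h4 := inertiaDeg_eq_one (K := K) (Ideal.span {π}) P'
    change ((Ideal.span {π}).ramificationIdx' P'.asIdeal : ℤ)
      * ((Ideal.span {π}).inertiaDeg' P'.asIdeal : ℤ) = primeOrd P' (algebraMap A F π)
    rw [h3, h4]
    simp

end Fundamental

end Fermat.Agent.Lib.FF
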