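import Fermat.Agent.Lib.FunctionField.Fibre

/-!
# Function fields, part 8: separating places by integral elements (E3)
-/

set_option autoImplicit false
set_option linter.style.haveILetI false
set_option linter.unusedSectionVars false

open AlgebraicCurve WithZero IsDedekindDomain IntermediateField
open scoped IntermediateField.algebraAdjoinAdjoin

namespace Fermat.Agent.Lib.FF

variable {K F : Type*} [Field K] [Field F] [Algebra K F] [IsAlgClosed K] [CharZero K]

/-- E3, general form: a place `v` at which `y` is regular can be separated from finitely many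
other such places by an element integral over `K[y]`. -/
theorem exists_integral_separating_of_nonneg {y : F} (hy : IsFF1 K F y)
    (v : Place K F) (hv : 0 ≤ v.ord y) (s : Finset (Place K F)) (hvs : v ∉ s)
    (hs : ∀ w ∈ s, 0 ≤ w.ord y) :
    ∃ b : F, IsIntegral (Algebra.adjoin K {y}) b ∧ 0 < v.ord b ∧ ∀ w ∈ s, w.ord b = 0 := by
  classical
  haveI := hy.finite
  haveI := isPrincipalIdealRing_adjoin K y
  haveI := isDedekindDomain_intClosure K y
  haveI := isFractionRing_intClosure K y
  obtain ⟨P, rfl⟩ := exists_prime_of_place (K := K)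
    (B := integralClosure (Algebra.adjoin K {y}) F) v (intClosure_le_of_ord_nonneg K y v hv)
  have hQ : ∀ w ∈ s, ∃ Q : HeightOneSpectrum (integralClosure (Algebra.adjoin K {y}) F),
      placeOfPrime (K := K) Q = w := fun w hw =>
    exists_prime_of_place (K := K) (B := integralClosure (Algebra.adjoin K {y}) F) w
      (intClosure_le_of_ord_nonneg K y w (hs w hw))
  haveI : Nonempty (HeightOneSpectrum (integralClosure (Algebra.adjoin K {y}) F)) := ⟨P⟩
  choose! Q hQ using hQ
  have hnot : ¬ ((P.asIdeal : Set (integralClosure (Algebra.adjoin K {y}) F)) ⊆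
      ⋃ w ∈ (s : Set (Place K F)), ((Q w).asIdeal : Set _)) := by
    rw [Ideal.subset_union_prime (f := fun w => (Q w).asIdeal) (placeOfPrime (K := K) P)
      (placeOfPrime (K := K) P) (fun w _ _ _ => (Q w).isPrime)]
    rintro ⟨w, hw, hle⟩
    have hmax := P.isMaximal
    have heq : P.asIdeal = (Q w).asIdeal := hmax.eq_of_le (Q w).isPrime.ne_top hle
    have hPQ : P = Q w := HeightOneSpectrum.ext heq
    apply hvs
    rw [hPQ, hQ w hw]
    exact hw
  obtain ⟨b, hbP, hbQ⟩ := Set.not_subset.mp hnot
  by_cases hse : s = ∅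
  · obtain ⟨c, hc⟩ := exists_primeOrd_eq_one (F := F) P
    refine ⟨algebraMap _ F c, c.2, ?_, ?_⟩
    · rw [placeOfPrime_ord, hc]
      exact one_pos
    · intro w hw
      rw [hse] at hw
      simp at hw
  obtain ⟨w₀, hw₀⟩ := Finset.nonempty_iff_ne_empty.mpr hse
  have hb0 : b ≠ 0 := by
    intro h
    apply hbQ
    simp only [Set.mem_iUnion]
    refine ⟨w₀, hw₀, ?_⟩
    rw [h]
    exact (Q w₀).asIdeal.zero_mem
  refine ⟨algebraMap _ F b, b.2, ?_, ?_⟩
  · rw [placeOfPrime_ord]
    exact primeOrd_algebraMap_pos_of_mem P hbP hb0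
  · intro w hw
    rw [← hQ w hw, placeOfPrime_ord]
    apply primeOrd_algebraMap_of_notMem
    intro hmem
    apply hbQ
    simp only [Set.mem_iUnion]
    exact ⟨w, hw, hmem⟩

/-- E3 in the form used by the counting lemma. -/
theorem exists_integral_separating {y : F} (hy : IsFF1 K F y) :
    ∀ v : Place K F, 0 < v.ord y → ∀ s : Finset (Place K F), v ∉ s → (∀ w ∈ s, 0 ≤ w.ord y) →
      ∃ b : F, IsIntegral (Algebra.adjoin K {y}) b ∧ 0 < v.ord b ∧ ∀ w ∈ s, w.ord b = 0 :=
  fun v hv s hvs hs => exists_integral_separating_of_nonneg hy v (le_of_lt hv) s hvs hs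

end Fermat.Agent.Lib.FF
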