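import Fermat.Agent.Lib.FunctionField.TraceLocal
import Fermat.Agent.Lib.FunctionField.Separate

/-!
# Riemann–Roch, part R5 (final form): local duality for the trace form at `y = 0`

`h` has poles of order at most `e_Q - 1` at the places `Q` over `y = 0` iff `Tr (h w)` is regular
at `y = 0` for every `w` regular at the places over `y = 0` (tame different).
-/

set_option autoImplicit false
set_option linter.style.haveILetI false
set_option linter.unusedSectionVars false

open AlgebraicCurve IsDedekindDomain IntermediateField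
open scoped IntermediateField.algebraAdjoinAdjoin

namespace Fermat.Agent.Lib.FF

variable {K F : Type*} [Field K] [Field F] [Algebra K F] [IsAlgClosed K] [CharZero K]

/-- an integral element with order exactly one at a place over which `y` is regular -/
theorem exists_integral_ord_eq_one {y : F} (hy : IsFF1 K F y) (v : Place K F)
    (hv : 0 ≤ v.ord y) : ∃ t : F, IsIntegral (Algebra.adjoin K {y}) t ∧ v.ord t = 1 := by
  haveI := hy.finite
  haveI := isPrincipalIdealRing_adjoin K y
  haveI := isDedekindDomain_intClosure K y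
  haveI := isFractionRing_intClosure K y
  obtain ⟨P, rfl⟩ := exists_prime_of_place (K := K)
    (B := integralClosure (Algebra.adjoin K {y}) F) v (intClosure_le_of_ord_nonneg K y v hv)
  obtain ⟨b, hb⟩ := exists_primeOrd_eq_one (F := F) P
  exact ⟨algebraMap _ F b, b.2, by rw [placeOfPrime_ord, hb]⟩

/-- CRT: an element, regular at all places where `y` is regular, with prescribed order `m₀` at
`Q₀` and order at least `m Q` at the places `Q ≠ Q₀` of a finite set. -/
theorem exists_integral_prescribed {y : F} (hy : IsFF1 K F y) (Q₀ : Place K F)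
    (hQ₀ : 0 ≤ Q₀.ord y) (m₀ : ℕ) (s : Finset (Place K F)) (hs : ∀ Q ∈ s, 0 ≤ Q.ord y)
    (m : Place K F → ℕ) :
    ∃ w : F, w ≠ 0 ∧ IsIntegral (Algebra.adjoin K {y}) w ∧ Q₀.ord w = m₀ ∧
      ∀ Q ∈ s, Q ≠ Q₀ → (m Q : ℤ) ≤ Q.ord w := by
  classical
  obtain ⟨t, ht, ht1⟩ := exists_integral_ord_eq_one hy Q₀ hQ₀
  have ht0 : t ≠ 0 := by
    rintro rfl
    simp at ht1
  -- induction on the finite set
  induction s using Finset.induction_on with
  | empty =>
    refine ⟨t ^ m₀, pow_ne_zero _ ht0, ht.pow _, ?_, by simp⟩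
    rw [← zpow_natCast, Q₀.ord_zpow, ht1, mul_one]
  | insert Q s hQs ih =>
    obtain ⟨w, hw0, hw, hw₀, hws⟩ := ih (fun Q' hQ' => hs Q' (Finset.mem_insert_of_mem hQ'))
    by_cases hQQ : Q = Q₀
    · refine ⟨w, hw0, hw, hw₀, ?_⟩
      intro Q' hQ' hne
      rcases Finset.mem_insert.mp hQ' with h | h
      · exact absurd (h.trans hQQ) hne
      · exact hws Q' h hne
    · have hQy : 0 ≤ Q.ord y := hs Q (Finset.mem_insert_self Q s)
      obtain ⟨b, hb, hbQ, hbs⟩ := exists_integral_separating_of_nonneg hy Q hQy {Q₀}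
        (by simpa using hQQ) (by simpa using hQ₀)
      have hb0 : b ≠ 0 := by
        rintro rfl
        simp at hbQ
      have hbQ₀ : Q₀.ord b = 0 := hbs Q₀ (Finset.mem_singleton_self _)
      refine ⟨w * b ^ (m Q), mul_ne_zero hw0 (pow_ne_zero _ hb0), hw.mul (hb.pow _), ?_, ?_⟩
      · rw [Q₀.ord_mul hw0 (pow_ne_zero _ hb0), ← zpow_natCast, Q₀.ord_zpow, hbQ₀, hw₀]
        simp
      · intro Q' hQ' hne
        have hQ'y : 0 ≤ Q'.ord y := hs Q' hQ'
        have h1 : 0 ≤ Q'.ord w := ord_nonneg_of_isIntegral hw Q' hQ'y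
        have h2 : 0 ≤ Q'.ord b := ord_nonneg_of_isIntegral hb Q' hQ'y
        rw [Q'.ord_mul hw0 (pow_ne_zero _ hb0), ← zpow_natCast, Q'.ord_zpow]
        rcases Finset.mem_insert.mp hQ' with h | h
        · subst h
          have : (m Q' : ℤ) * 1 ≤ (m Q' : ℤ) * Q'.ord b :=
            mul_le_mul_of_nonneg_left (by omega) (Int.natCast_nonneg _)
          omega
        · have h3 := hws Q' h hne
          have : 0 ≤ (m Q : ℤ) * Q'.ord b := mul_nonneg (Int.natCast_nonneg _) h2
          omega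

/-- R5, final form (`LocalDual`): local duality for the trace form at `y = 0`. -/
theorem trace_localDual {y : F} (hy : IsFF1 K F y) (h : F) :
    (∀ v : Place K F, 0 < v.ord y → h = 0 ∨ 1 - v.ord y ≤ v.ord h) ↔
      (∀ w : F, (∀ v : Place K F, 0 < v.ord y → 0 ≤ v.ord w) →
        ∀ v : Place K F, 0 < v.ord y →
          0 ≤ v.ord ((Algebra.trace K⟮y⟯ F (h * w) : K⟮y⟯) : F)) := by
  have hy0 : y ≠ 0 := by
    intro h0
    apply hy.transcendental
    rw [h0]
    exact isAlgebraic_zero
  constructor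
  · intro hh w hw
    apply trace_regular_at_zero hy
    intro Q hQ
    by_cases h0 : h * w = 0
    · exact Or.inl h0
    right
    have hh0 : h ≠ 0 := left_ne_zero_of_mul h0
    have hw0 : w ≠ 0 := right_ne_zero_of_mul h0
    rw [Q.ord_mul hh0 hw0]
    have h1 := (hh Q hQ).resolve_left hh0
    have h2 := hw Q hQ
    omega
  · intro H Q₀ hQ₀
    by_contra hcon
    rw [not_or, not_le] at hcon
    obtain ⟨hh0, hlt⟩ := hcon
    -- the set of places over `y = 0`
    have hfin := finite_zeros hy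
    set m₀ : ℕ := (- Q₀.ord y - Q₀.ord h).toNat with hm₀
    have hm₀' : (m₀ : ℤ) = - Q₀.ord y - Q₀.ord h := by
      rw [hm₀]
      exact Int.toNat_of_nonneg (by omega)
    obtain ⟨w, hw0, hw, hw₀, hws⟩ := exists_integral_prescribed hy Q₀ hQ₀.le m₀ hfin.toFinset
      (fun Q hQ => by
        have : 0 < Q.ord y := (Set.Finite.mem_toFinset hfin).mp hQ
        exact this.le)
      (fun Q => (- Q.ord h).toNat)
    have hreg : ∀ v : Place K F, 0 < v.ord y → 0 ≤ v.ord w :=
      fun v hv => ord_nonneg_of_isIntegral hw v hv.le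
    have H1 := H w hreg
    -- `g = y h w`
    have hg0 : y * (h * w) ≠ 0 := mul_ne_zero hy0 (mul_ne_zero hh0 hw0)
    have hg₀ : Q₀.ord (y * (h * w)) = 0 := by
      rw [Q₀.ord_mul hy0 (mul_ne_zero hh0 hw0), Q₀.ord_mul hh0 hw0, hw₀, hm₀']
      ring
    have hg : ∀ Q : Place K F, 0 < Q.ord y → Q ≠ Q₀ → 0 < Q.ord (y * (h * w)) := by
      intro Q hQ hne
      rw [Q.ord_mul hy0 (mul_ne_zero hh0 hw0), Q.ord_mul hh0 hw0]
      have h1 := hws Q ((Set.Finite.mem_toFinset hfin).mpr hQ) hne
      have h2 : - Q.ord h ≤ ((- Q.ord h).toNat : ℤ) := Int.self_le_toNat _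
      omega
    obtain ⟨hne, hord⟩ := trace_ord_eq_zero hy (y * (h * w)) Q₀ hQ₀ hg0 hg₀ hg
    -- linearity: `Tr (y h w) = y Tr (h w)`
    have hlin : ((Algebra.trace K⟮y⟯ F (y * (h * w)) : K⟮y⟯) : F)
        = y * ((Algebra.trace K⟮y⟯ F (h * w) : K⟮y⟯) : F) := by
      have h1 : y * (h * w) = (AdjoinSimple.gen K y) • (h * w) := by
        rw [Algebra.smul_def]
        rfl
      rw [h1, map_smul, smul_eq_mul]
      rfl
    have h3 := hord Q₀ hQ₀
    rw [hlin] at h3
    have ht0 : ((Algebra.trace K⟮y⟯ F (h * w) : K⟮y⟯) : F) ≠ 0 := by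
      intro h0
      rw [h0, mul_zero] at h3
      apply hne
      apply Subtype.ext
      rw [hlin, h0, mul_zero]
      rfl
    rw [Q₀.ord_mul hy0 ht0] at h3
    have h4 := H1 Q₀ hQ₀
    omega

end Fermat.Agent.Lib.FF
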