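import Mathlib
import Fermat.Prelude.Def_AlgebraicCurve_CanonicalDivisor

/-!
# Function fields, part 1: places from integer-valued order functions
-/

set_option autoImplicit false
set_option linter.style.haveILetI false
set_option linter.unusedSectionVars false

open AlgebraicCurve

namespace Fermat.Agent.Lib.FF

variable {K F : Type*} [Field K] [Field F] [Algebra K F]

/-- An integer-valued order function on a field (a discrete valuation written additively on the
nonzero elements). -/
structure IsOrdFun (o : F → ℤ) : Prop where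
  mul : ∀ f g : F, f ≠ 0 → g ≠ 0 → o (f * g) = o f + o g
  add : ∀ f g : F, f ≠ 0 → g ≠ 0 → f + g ≠ 0 → min (o f) (o g) ≤ o (f + g)

namespace IsOrdFun

variable {o : F → ℤ} (ho : IsOrdFun o)

include ho

theorem one : o 1 = 0 := by
  have := ho.mul 1 1 one_ne_zero one_ne_zero
  rw [mul_one] at this
  linarith

theorem neg_one : o (-1) = 0 := by
  have h := ho.mul (-1) (-1) (neg_ne_zero.mpr one_ne_zero) (neg_ne_zero.mpr one_ne_zero)
  rw [neg_mul_neg, mul_one, ho.one] at h
  linarith

theorem neg {f : F} (hf : f ≠ 0) : o (-f) = o f := by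
  have h := ho.mul (-1) f (neg_ne_zero.mpr one_ne_zero) hf
  rw [neg_one_mul, ho.neg_one, zero_add] at h
  exact h

theorem inv {f : F} (hf : f ≠ 0) : o f⁻¹ = - o f := by
  have h := ho.mul f f⁻¹ hf (inv_ne_zero hf)
  rw [mul_inv_cancel₀ hf, ho.one] at h
  linarith

theorem pow {f : F} (hf : f ≠ 0) (n : ℕ) : o (f ^ n) = n * o f := by
  induction n with
  | zero => simp [ho.one]
  | succ n ih =>
    rw [pow_succ, ho.mul _ _ (pow_ne_zero n hf) hf, ih]
    push_cast
    ring

theorem zpow {f : F} (hf : f ≠ 0) (n : ℤ) : o (f ^ n) = n * o f := by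
  obtain ⟨m, rfl | rfl⟩ := Int.eq_nat_or_neg n
  · rw [zpow_natCast, ho.pow hf]
  · rw [zpow_neg, zpow_natCast, ho.inv (pow_ne_zero m hf), ho.pow hf]
    ring

/-- The valuation subring attached to an order function. -/
def valuationSubring : ValuationSubring F where
  carrier := {f | f = 0 ∨ 0 ≤ o f}
  mul_mem' := by
    rintro a b (rfl | ha) (rfl | hb)
    · left; simp
    · left; simp
    · left; simp
    · by_cases ha0 : a = 0
      · left; simp [ha0]
      by_cases hb0 : b = 0
      · left; simp [hb0]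
      right
      rw [ho.mul a b ha0 hb0]
      exact add_nonneg ha hb
  one_mem' := Or.inr (by rw [ho.one])
  add_mem' := by
    intro a b ha hb
    by_cases ha0 : a = 0
    · simpa [ha0] using hb
    by_cases hb0 : b = 0
    · simpa [hb0] using ha
    by_cases hab : a + b = 0
    · exact Or.inl hab
    right
    have ha' : 0 ≤ o a := ha.resolve_left ha0
    have hb' : 0 ≤ o b := hb.resolve_left hb0
    exact (le_min ha' hb').trans (ho.add a b ha0 hb0 hab)
  zero_mem' := Or.inl rfl
  neg_mem' := by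
    rintro a (rfl | ha)
    · left; simp
    · by_cases ha0 : a = 0
      · left; simp [ha0]
      right
      rw [ho.neg ha0]
      exact ha
  mem_or_inv_mem' := by
    intro a
    by_cases ha0 : a = 0
    · exact Or.inl (Or.inl ha0)
    rcases le_total 0 (o a) with h | h
    · exact Or.inl (Or.inr h)
    · right
      right
      rw [ho.inv ha0]
      linarith

theorem mem_valuationSubring_iff {f : F} : f ∈ ho.valuationSubring ↔ f = 0 ∨ 0 ≤ o f := Iff.rfl

theorem mem_valuationSubring_of_ne_zero {f : F} (hf : f ≠ 0) :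
    f ∈ ho.valuationSubring ↔ 0 ≤ o f := by
  rw [ho.mem_valuationSubring_iff, or_iff_right hf]

theorem isUnit_iff (a : ho.valuationSubring) : IsUnit a ↔ (a : F) ≠ 0 ∧ o (a : F) = 0 := by
  constructor
  · rintro ⟨u, rfl⟩
    have hu : ((u : ho.valuationSubring) : F) * ((u⁻¹ : (ho.valuationSubring)ˣ) : ho.valuationSubring)
        = 1 := by
      exact congrArg (fun a : ho.valuationSubring => (a : F)) u.mul_inv
    have hu0 : ((u : ho.valuationSubring) : F) ≠ 0 := left_ne_zero_of_mul_eq_one hu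
    have hv0 : (((u⁻¹ : (ho.valuationSubring)ˣ) : ho.valuationSubring) : F) ≠ 0 :=
      right_ne_zero_of_mul_eq_one hu
    refine ⟨hu0, ?_⟩
    have h1 := (ho.mem_valuationSubring_of_ne_zero hu0).mp (u : ho.valuationSubring).2
    have h2 := (ho.mem_valuationSubring_of_ne_zero hv0).mp
      ((u⁻¹ : (ho.valuationSubring)ˣ) : ho.valuationSubring).2
    have h3 := ho.mul _ _ hu0 hv0
    rw [hu, ho.one] at h3
    linarith
  · rintro ⟨ha0, ha⟩
    have hinv : (a : F)⁻¹ ∈ ho.valuationSubring := by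
      rw [ho.mem_valuationSubring_of_ne_zero (inv_ne_zero ha0), ho.inv ha0, ha, neg_zero]
    refine ⟨⟨a, ⟨(a : F)⁻¹, hinv⟩, ?_, ?_⟩, rfl⟩
    · apply Subtype.ext
      simp [mul_inv_cancel₀ ha0]
    · apply Subtype.ext
      simp [inv_mul_cancel₀ ha0]

/-- divisibility in the valuation subring -/
theorem dvd_of_le {a b : ho.valuationSubring} (ha : (a : F) ≠ 0) (hb : (b : F) ≠ 0)
    (h : o (a : F) ≤ o (b : F)) : a ∣ b := by
  have hq : (b : F) * (a : F)⁻¹ ∈ ho.valuationSubring := by
    rw [ho.mem_valuationSubring_of_ne_zero (mul_ne_zero hb (inv_ne_zero ha)),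
      ho.mul _ _ hb (inv_ne_zero ha), ho.inv ha]
    linarith
  refine ⟨⟨_, hq⟩, ?_⟩
  apply Subtype.ext
  simp only [MulMemClass.coe_mul]
  field_simp

theorem isPrincipalIdealRing : IsPrincipalIdealRing ho.valuationSubring := by
  constructor
  intro I
  by_cases hI : I = ⊥
  · rw [hI]
    exact ⟨0, by simp⟩
  obtain ⟨b, hbI, hb0⟩ := Submodule.exists_mem_ne_zero_of_ne_bot hI
  -- the set of orders of nonzero elements of `I`
  let s : Set ℕ := {n | ∃ a : ho.valuationSubring, a ∈ I ∧ (a : F) ≠ 0 ∧ o (a : F) = n}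
  have hb0' : (b : F) ≠ 0 := fun h => hb0 (Subtype.ext h)
  have hbn : 0 ≤ o (b : F) := (ho.mem_valuationSubring_of_ne_zero hb0').mp b.2
  have hs : s.Nonempty := ⟨(o (b : F)).toNat, b, hbI, hb0', (Int.toNat_of_nonneg hbn).symm⟩
  classical
  obtain ⟨a, haI, ha0, ha⟩ := Nat.find_spec hs
  refine ⟨a, ?_⟩
  apply le_antisymm
  · intro c hc
    rw [Submodule.mem_span_singleton]
    by_cases hc0 : (c : F) = 0
    · refine ⟨0, ?_⟩
      rw [zero_smul]
      exact (Subtype.ext hc0).symm
    have hcn : 0 ≤ o (c : F) := (ho.mem_valuationSubring_of_ne_zero hc0).mp c.2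
    have hmin : Nat.find hs ≤ (o (c : F)).toNat :=
      Nat.find_min' hs ⟨c, hc, hc0, (Int.toNat_of_nonneg hcn).symm⟩
    have hle : o (a : F) ≤ o (c : F) := by
      rw [ha, ← Int.toNat_of_nonneg hcn]
      exact_mod_cast hmin
    obtain ⟨q, hq⟩ := ho.dvd_of_le ha0 hc0 hle
    exact ⟨q, by rw [hq, smul_eq_mul, mul_comm]⟩
  · rw [Submodule.span_singleton_le_iff_mem]
    exact haI

end IsOrdFun

/-- (E2) every nontrivial `ℤ`-valued valuation of `F` that is trivial on `K` is a multiple of
the order function of a place. -/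
theorem exists_place_of_ord (o : F → ℤ)
    (hmul : ∀ f g : F, f ≠ 0 → g ≠ 0 → o (f * g) = o f + o g)
    (hadd : ∀ f g : F, f ≠ 0 → g ≠ 0 → f + g ≠ 0 → min (o f) (o g) ≤ o (f + g))
    (hK : ∀ c : K, algebraMap K F c ≠ 0 → o (algebraMap K F c) = 0)
    (hnt : ∃ f : F, f ≠ 0 ∧ o f ≠ 0) :
    ∃ (v : Place K F) (d : ℕ), 0 < d ∧ v.toValuationSubring = (IsOrdFun.mk hmul hadd).valuationSubring
      ∧ ∀ f : F, f ≠ 0 → o f = d * v.ord f := by
  have ho : IsOrdFun o := ⟨hmul, hadd⟩
  have hne : ho.valuationSubring ≠ ⊤ := by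
    obtain ⟨f, hf0, hf⟩ := hnt
    intro htop
    have h1 : f ∈ ho.valuationSubring := htop ▸ ValuationSubring.mem_top f
    have h2 : f⁻¹ ∈ ho.valuationSubring := htop ▸ ValuationSubring.mem_top f⁻¹
    rw [ho.mem_valuationSubring_of_ne_zero hf0] at h1
    rw [ho.mem_valuationSubring_of_ne_zero (inv_ne_zero hf0), ho.inv hf0] at h2
    exact hf (by linarith)
  obtain ⟨v, hv⟩ : ∃ v : Place K F, v.toValuationSubring = ho.valuationSubring :=
    ⟨{ toValuationSubring := ho.valuationSubring
       algebraMap_mem' := fun a => by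
         by_cases ha : algebraMap K F a = 0
         · exact Or.inl ha
         · exact Or.inr (by rw [hK a ha])
       ne_top' := hne
       isPrincipalIdealRing' := ho.isPrincipalIdealRing }, rfl⟩
  have hmem : ∀ {f : F}, f ≠ 0 → (f ∈ v.toValuationSubring ↔ 0 ≤ o f) := by
    intro f hf
    rw [hv]
    exact ho.mem_valuationSubring_of_ne_zero hf
  have hunit : ∀ a : v.toValuationSubring, IsUnit a → o (a : F) = 0 := by
    intro a ha
    obtain ⟨u, rfl⟩ := ha
    have hu : ((u : v.toValuationSubring) : F) *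
        (((u⁻¹ : (v.toValuationSubring)ˣ) : v.toValuationSubring) : F) = 1 :=
      congrArg (fun a : v.toValuationSubring => (a : F)) u.mul_inv
    have hu0 := left_ne_zero_of_mul_eq_one hu
    have hv0 := right_ne_zero_of_mul_eq_one hu
    have h1 := (hmem hu0).mp (u : v.toValuationSubring).2
    have h2 := (hmem hv0).mp ((u⁻¹ : (v.toValuationSubring)ˣ) : v.toValuationSubring).2
    have h3 := ho.mul _ _ hu0 hv0
    rw [hu, ho.one] at h3
    linarith
  obtain ⟨π, hπ⟩ := IsDiscreteValuationRing.exists_irreducible v.toValuationSubring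
  have hπ0 : (π : F) ≠ 0 := by
    intro h
    exact hπ.ne_zero (Subtype.ext h)
  have hπn : 0 ≤ o (π : F) := (hmem hπ0).mp π.2
  have hπpos : 0 < o (π : F) := by
    rcases hπn.lt_or_eq with h | h
    · exact h
    · exfalso
      apply hπ.not_isUnit
      have hinv : (π : F)⁻¹ ∈ v.toValuationSubring := by
        rw [hmem (inv_ne_zero hπ0), ho.inv hπ0, ← h, neg_zero]
      refine ⟨⟨π, ⟨(π : F)⁻¹, hinv⟩, ?_, ?_⟩, rfl⟩
      · apply Subtype.ext
        simp [mul_inv_cancel₀ hπ0]
      · apply Subtype.ext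
        simp [inv_mul_cancel₀ hπ0]
  refine ⟨v, (o (π : F)).toNat, by omega, hv, fun f hf => ?_⟩
  obtain ⟨u, hu⟩ := v.exists_unit_mul_zpow hf hπ
  have hu0 : ((u : v.toValuationSubring) : F) ≠ 0 := by
    simp [ne_eq, ZeroMemClass.coe_eq_zero]
  have huo : o ((u : v.toValuationSubring) : F) = 0 := hunit _ u.isUnit
  conv_lhs => rw [hu]
  rw [ho.mul _ _ hu0 (zpow_ne_zero _ hπ0), huo, zero_add, ho.zpow hπ0, Int.toNat_of_nonneg hπn]
  ring

end Fermat.Agent.Lib.FF
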