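import Fermat.Agent.Lib.FunctionField.OrdPlace
import Fermat.Prelude.Def_AlgebraicCurve_Repartitions

/-!
# Function fields, part 2: basic facts on places and their order functions
-/

set_option autoImplicit false
set_option linter.style.haveILetI false
set_option linter.unusedSectionVars false

open AlgebraicCurve WithZero

namespace Fermat.Agent.Lib.FF

variable {K F : Type*} [Field K] [Field F] [Algebra K F]

section Basic

variable (v : Place K F)

theorem ord_nonneg_of_mem {f : F} (hf : f ∈ v.toValuationSubring) : 0 ≤ v.ord f := by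
  rcases (v.adicValuation_le_one_iff).mp (v.adicValuation_le_one_of_mem hf) with h | h
  · rw [h, v.ord_zero]
  · exact h

theorem mem_of_ord_nonneg {f : F} (hf : 0 ≤ v.ord f) : f ∈ v.toValuationSubring := by
  by_cases hf0 : f = 0
  · rw [hf0]
    exact v.toValuationSubring.zero_mem
  obtain ⟨π, hπ⟩ := IsDiscreteValuationRing.exists_irreducible v.toValuationSubring
  obtain ⟨u, hu⟩ := v.exists_unit_mul_zpow hf0 hπ
  rw [hu]
  apply v.toValuationSubring.mul_mem _ _ (u : v.toValuationSubring).2
  obtain ⟨n, hn⟩ := Int.eq_ofNat_of_zero_le hf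
  rw [hn, zpow_natCast]
  exact v.toValuationSubring.pow_mem π.2 n

theorem mem_iff_ord_nonneg {f : F} : f ∈ v.toValuationSubring ↔ 0 ≤ v.ord f :=
  ⟨ord_nonneg_of_mem v, mem_of_ord_nonneg v⟩

theorem ord_algebraMap (c : K) : v.ord (algebraMap K F c) = 0 := by
  by_cases hc : c = 0
  · rw [hc, map_zero, v.ord_zero]
  have h1 := ord_nonneg_of_mem v (v.algebraMap_mem' c)
  have h2 := ord_nonneg_of_mem v (v.algebraMap_mem' c⁻¹)
  rw [map_inv₀, v.ord_inv] at h2
  linarith

theorem ord_add {f g : F} (hfg : f + g ≠ 0) : min (v.ord f) (v.ord g) ≤ v.ord (f + g) := by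
  by_cases hf : f = 0
  · rw [hf, zero_add]
    exact min_le_right _ _
  by_cases hg : g = 0
  · rw [hg, add_zero]
    exact min_le_left _ _
  have h := Valuation.map_add v.adicValuation f g
  rw [v.adicValuation_eq_exp_neg_ord hf, v.adicValuation_eq_exp_neg_ord hg,
    v.adicValuation_eq_exp_neg_ord hfg] at h
  rcases le_max_iff.mp h with h | h
  · rw [exp_le_exp] at h
    exact (min_le_left _ _).trans (by linarith)
  · rw [exp_le_exp] at h
    exact (min_le_right _ _).trans (by linarith)

theorem ord_neg (f : F) : v.ord (-f) = v.ord f := by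
  simp only [Place.ord, Valuation.map_neg]

theorem ord_sub {f g : F} (hfg : f - g ≠ 0) : min (v.ord f) (v.ord g) ≤ v.ord (f - g) := by
  have h := ord_add v (f := f) (g := -g) (by rwa [← sub_eq_add_neg])
  rwa [ord_neg, ← sub_eq_add_neg] at h

theorem isOrdFun_ord : IsOrdFun v.ord :=
  ⟨fun _ _ hf hg => v.ord_mul hf hg, fun _ _ _ _ hfg => ord_add v hfg⟩

/-- if the orders differ, the order of the sum is the minimum -/
theorem ord_add_of_lt {f g : F} (h : v.ord f < v.ord g) (hf : f ≠ 0) :
    v.ord (f + g) = v.ord f := by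
  by_cases hg : g = 0
  · rw [hg, add_zero]
  have hfg : f + g ≠ 0 := by
    intro h0
    have : f = -g := eq_neg_of_add_eq_zero_left h0
    rw [this, ord_neg] at h
    exact lt_irrefl _ h
  apply le_antisymm
  · by_contra hlt
    have hlt := not_le.mp hlt
    have h1 := ord_sub v (f := f + g) (g := g) (by rwa [add_sub_cancel_right])
    rw [add_sub_cancel_right] at h1
    have : v.ord f < min (v.ord (f + g)) (v.ord g) := lt_min hlt h
    exact absurd h1 (not_le.mpr this)
  · have := ord_add v hfg
    rwa [min_eq_left h.le] at this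

/-- there is an element of order one -/
theorem exists_ord_eq_one : ∃ t : F, v.ord t = 1 := by
  obtain ⟨π, hπ⟩ := IsDiscreteValuationRing.exists_irreducible v.toValuationSubring
  exact ⟨π, v.ord_coe_irreducible hπ⟩

/-- (E0) the coordinate differential at a place is `d` of some uniformizer. -/
theorem exists_uniformizer_dCoord :
    ∃ t : F, v.ord t = 1 ∧ v.dCoord = KaehlerDifferential.D K F t :=
  ⟨_, v.ord_coe_irreducible
    (IsDiscreteValuationRing.exists_irreducible v.toValuationSubring).choose_spec, rfl⟩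

end Basic

/-- Two places with the same nonnegativity locus are equal. -/
theorem place_ext_of_ord {v w : Place K F}
    (h : ∀ f : F, f ≠ 0 → 0 ≤ v.ord f → 0 ≤ w.ord f) : v = w := by
  -- `𝒪_v ⊆ 𝒪_w`, both discrete valuation rings, so they are equal
  have hle : ∀ f : F, f ∈ v.toValuationSubring → f ∈ w.toValuationSubring := by
    intro f hf
    by_cases hf0 : f = 0
    · rw [hf0]
      exact w.toValuationSubring.zero_mem
    exact mem_of_ord_nonneg w (h f hf0 (ord_nonneg_of_mem v hf))
  apply Place.ext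
  apply SetLike.ext
  intro g
  refine ⟨hle g, fun hg => ?_⟩
  by_contra hgv
  have hg0 : g ≠ 0 := fun h0 => hgv (h0 ▸ v.toValuationSubring.zero_mem)
  have hgneg : v.ord g < 0 := by
    by_contra hn
    exact hgv (mem_of_ord_nonneg v (not_lt.mp hn))
  -- then every element of `F` lies in `𝒪_w`
  apply w.ne_top'
  apply SetLike.ext
  intro y
  refine ⟨fun _ => ValuationSubring.mem_top y, fun _ => ?_⟩
  by_cases hy0 : y = 0
  · rw [hy0]
    exact w.toValuationSubring.zero_mem
  -- `y * g⁻¹ ^ n ∈ 𝒪_v` for large `n`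
  obtain ⟨n, hn⟩ : ∃ n : ℕ, 0 ≤ v.ord y + n * (- v.ord g) := by
    refine ⟨(- v.ord y).toNat, ?_⟩
    have h1 : (1 : ℤ) ≤ - v.ord g := by omega
    have h2 : (0 : ℤ) ≤ ((- v.ord y).toNat : ℤ) := Int.natCast_nonneg _
    have h3 : - v.ord y ≤ ((- v.ord y).toNat : ℤ) := Int.self_le_toNat _
    nlinarith
  have hyg : y * (g⁻¹) ^ n ∈ v.toValuationSubring := by
    apply mem_of_ord_nonneg
    rw [v.ord_mul hy0 (pow_ne_zero n (inv_ne_zero hg0)), ← zpow_natCast, v.ord_zpow, v.ord_inv]
    exact hn
  have h1 := hle _ hyg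
  have h2 : y = y * (g⁻¹) ^ n * g ^ n := by
    rw [inv_pow, mul_assoc, inv_mul_cancel₀ (pow_ne_zero n hg0), mul_one]
  rw [h2]
  exact w.toValuationSubring.mul_mem _ _ h1 (w.toValuationSubring.pow_mem hg n)

end Fermat.Agent.Lib.FF
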