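import Fermat.Agent.Lib.FunctionField.Fibre
import Fermat.Agent.Lib.FunctionField.PlaceFactsCore

/-!
# Function fields, part 7: `PlaceFacts` for a function field of one variable

`placeFacts_of_isFF1`: all the facts about places used by Riemann–Hurwitz hold for a function
field of one variable over an algebraically closed field of characteristic zero.
-/

set_option autoImplicit false
set_option linter.unusedSectionVars false

open AlgebraicCurve IntermediateField

namespace Fermat.Agent.Lib.FF

variable {K F : Type*} [Field K] [Field F] [Algebra K F] [IsAlgClosed K] [CharZero K]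

/-- A1 + A2: the place facts of a function field of one variable. -/
theorem placeFacts_of_isFF1 {x : F} (hx : IsFF1 K F x) : PlaceFacts K F :=
  PlaceFacts.of_core (fun v => algebraMap_residueField_surjective hx v)
    (fun y hy => finite_zeros (isFF1_of_transcendental hx y hy))
    (fun y hy => sum_ord_zeros (isFF1_of_transcendental hx y hy))

/-- A1e. A nonzero element has finitely many zeros and poles. -/
theorem finite_ord_ne_zero {x : F} (hx : IsFF1 K F x) (f : F) (hf : f ≠ 0) :
    {v : Place K F | v.ord f ≠ 0}.Finite :=
  (placeFacts_of_isFF1 hx).finite_ord_ne_zero f hf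

/-- A2. Principal divisors have degree zero. -/
theorem degree_eq_zero_of_ord {x : F} (hx : IsFF1 K F x) (f : F) (hf : f ≠ 0)
    (D : Divisor K F) (hD : ∀ v : Place K F, D v = v.ord f) : Divisor.degree D = 0 :=
  (placeFacts_of_isFF1 hx).degree_principal f hf D hD

end Fermat.Agent.Lib.FF
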