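import Fermat.Agent.Lib.FunctionField.DWFinal
import Fermat.Agent.Lib.FunctionField.LocalDual

/-!
# `ℓ(K) = g`, unconditional form

Wires the local trace duality (`trace_localDual`) into the Dedekind–Weber assembly
(`finrank_rrSpace_canonical_eq_genus`).
-/

set_option autoImplicit false
set_option linter.unusedSectionVars false

open AlgebraicCurve IntermediateField Polynomial Module KaehlerDifferential

namespace Fermat.Agent.Lib.FF

variable {K F : Type*} [Field K] [Field F] [Algebra K F] [IsAlgClosed K] [CharZero K]
variable {x : F}

/-- The local description of the trace dual holds at every separating element. -/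
theorem localDual_of_isFF1 {y : F} (hy : IsFF1 K F y) : LocalDual K y :=
  fun h => trace_localDual hy h

/-- `2 ℓ(div ω) = deg div(ω) + 2` for every nonzero differential (unconditional). -/
theorem two_mul_finrank_rrSpace_canonical_of_isFF1 (hx : IsFF1 K F x)
    (ω : Ω[F⁄K]) (hω : ω ≠ 0) (W : Divisor K F)
    (hW : ∀ v : Place K F, W v = v.ordDifferential ω) :
    2 * (Module.finrank K (riemannRochSpace W) : ℤ) = Divisor.degree W + 2 :=
  two_mul_finrank_rrSpace_canonical hx (fun _ hy => localDual_of_isFF1 hy) ω hω W hW

/-- `ℓ(K) = g` (unconditional): the Riemann–Roch space of a canonical divisor has dimension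
the genus. -/
theorem finrank_rrSpace_canonical_eq_genus_of_isFF1 (hx : IsFF1 K F x)
    [HasCanonicalDivisor (K := K) (F := F)]
    (ω : Ω[F⁄K]) (hω : ω ≠ 0) (W : Divisor K F)
    (hW : ∀ v : Place K F, W v = v.ordDifferential ω) :
    Module.finrank K (riemannRochSpace W) = genus K F :=
  finrank_rrSpace_canonical_eq_genus hx (fun _ hy => localDual_of_isFF1 hy) ω hω W hW

end Fermat.Agent.Lib.FF
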