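import Fermat.Agent.Lib.FunctionField.PrimePlace
import Fermat.Agent.Lib.FunctionField.Exchange

/-!
# Function fields, part 4: residue fields of primes of a finitely generated Dedekind `K`-algebra
-/

set_option autoImplicit false
set_option linter.style.haveILetI false
set_option linter.unusedSectionVars false

open AlgebraicCurve WithZero IsDedekindDomain

namespace Fermat.Agent.Lib.FF

variable {K F : Type*} [Field K] [Field F] [Algebra K F]

section Dedekind

variable {B : Type*} [CommRing B] [IsDedekindDomain B] [Algebra B F] [IsFractionRing B F]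
  [Algebra K B] [IsScalarTower K B F]

/-- the residue field of a prime of a finitely generated Dedekind algebra over an algebraically
closed field `K` is `K` -/
theorem exists_sub_algebraMap_mem [IsAlgClosed K] [Algebra.FiniteType K B]
    (P : HeightOneSpectrum B) (b : B) :
    ∃ c : K, b - algebraMap K B c ∈ P.asIdeal := by
  haveI := P.isMaximal
  letI := Ideal.Quotient.field P.asIdeal
  haveI : Algebra.FiniteType K (B ⧸ P.asIdeal) :=
    Algebra.FiniteType.of_surjective (Ideal.Quotient.mkₐ K P.asIdeal)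
      (Ideal.Quotient.mkₐ_surjective K P.asIdeal)
  haveI : Module.Finite K (B ⧸ P.asIdeal) := finite_of_finite_type_of_isJacobsonRing K _
  haveI : Algebra.IsIntegral K (B ⧸ P.asIdeal) := Algebra.IsIntegral.of_finite K _
  have hbij : Function.Bijective (algebraMap K (B ⧸ P.asIdeal)) :=
    IsAlgClosed.algebraMap_bijective_of_isIntegral
  obtain ⟨c, hc⟩ := hbij.2 (Ideal.Quotient.mk P.asIdeal b)
  refine ⟨c, ?_⟩
  rw [← Ideal.Quotient.eq, ← hc]
  rfl

theorem primeOrd_algebraMap_of_notMem (P : HeightOneSpectrum B) {d : B} (hd : d ∉ P.asIdeal) :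
    primeOrd P (algebraMap B F d) = 0 := by
  have h1 := primeOrd_algebraMap_nonneg (F := F) P d
  have h2 := (mem_asIdeal_iff_primeOrd (F := F) P d).not.mp hd
  rw [not_or, not_lt] at h2
  exact le_antisymm h2.2 h1

theorem primeOrd_algebraMap_pos_of_mem (P : HeightOneSpectrum B) {d : B} (hd : d ∈ P.asIdeal)
    (hd0 : d ≠ 0) : 0 < primeOrd P (algebraMap B F d) := by
  rcases (mem_asIdeal_iff_primeOrd (F := F) P d).mp hd with h | h
  · exact absurd h hd0
  · exact h

/-- residue field `K` in terms of the order function -/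
theorem exists_sub_pos_of_primeOrd_nonneg [IsAlgClosed K] [Algebra.FiniteType K B]
    (P : HeightOneSpectrum B) (u : F) (hu : u = 0 ∨ 0 ≤ primeOrd P u) :
    ∃ a : K, u = algebraMap K F a ∨ 0 < primeOrd P (u - algebraMap K F a) := by
  by_cases hu0 : u = 0
  · exact ⟨0, Or.inl (by rw [hu0, map_zero])⟩
  have hu' : 0 ≤ primeOrd P u := hu.resolve_left hu0
  rw [primeOrd_nonneg_iff P hu0] at hu'
  obtain ⟨n, d, hnd⟩ := HeightOneSpectrum.exists_primeCompl_mul_eq_of_integer P u hu'
  have hdP : (d : B) ∉ P.asIdeal := d.2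
  obtain ⟨cn, hcn⟩ := exists_sub_algebraMap_mem (K := K) P n
  obtain ⟨cd, hcd⟩ := exists_sub_algebraMap_mem (K := K) P (d : B)
  have hcd0 : cd ≠ 0 := by
    intro h
    rw [h, map_zero, sub_zero] at hcd
    exact hdP hcd
  refine ⟨cn / cd, ?_⟩
  by_cases hua : u = algebraMap K F (cn / cd)
  · exact Or.inl hua
  right
  have hne : u - algebraMap K F (cn / cd) ≠ 0 := sub_ne_zero.mpr hua
  have hcdF : algebraMap K F cd ≠ 0 := by rwa [Ne, map_eq_zero]
  have hdF : algebraMap B F (d : B) ≠ 0 := by
    rw [Ne, map_eq_zero_iff _ (IsFractionRing.injective B F)]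
    intro h
    exact hdP (h ▸ P.asIdeal.zero_mem)
  -- the element `m = (n - cn) * cd - cn * (d - cd)` of `P`
  set m : B := (n - algebraMap K B cn) * algebraMap K B cd
    - algebraMap K B cn * ((d : B) - algebraMap K B cd) with hm
  have hmP : m ∈ P.asIdeal :=
    P.asIdeal.sub_mem (P.asIdeal.mul_mem_right _ hcn) (P.asIdeal.mul_mem_left _ hcd)
  have hkey : (u - algebraMap K F (cn / cd)) * (algebraMap B F (d : B) * algebraMap K F cd)
      = algebraMap B F m := by
    rw [hm, map_sub, map_mul, map_mul, map_sub, map_sub, ← hnd,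
      ← IsScalarTower.algebraMap_apply, ← IsScalarTower.algebraMap_apply, map_div₀]
    field_simp
    ring
  have hm0 : m ≠ 0 := by
    intro h
    rw [h, map_zero] at hkey
    exact (mul_ne_zero hne (mul_ne_zero hdF hcdF)) hkey
  have h1 := primeOrd_algebraMap_pos_of_mem (F := F) P hmP hm0
  rw [← hkey, (isOrdFun_primeOrd P).mul _ _ hne (mul_ne_zero hdF hcdF),
    (isOrdFun_primeOrd P).mul _ _ hdF hcdF, primeOrd_algebraMap_of_notMem P hdP,
    primeOrd_algebraMap_field P cd] at h1
  simpa using h1

end Dedekind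

end Fermat.Agent.Lib.FF
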